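import Mathlib
import Fermat.Prelude.Def_ModularCurve_IgusaScheme
import Fermat.Prelude.Def_ModularCurve_X0ModL

/-!
# S28 (Igusa): interface between the work packages

All series are formal Laurent series in one variable `s` over a commutative ring `A`
(`LaurentSeries A = HahnSeries ℤ A`).  For a prime `p` the variable `s` plays the role of
`q^{1/p}`:

* `j(q)       = qExpand A p (jqModC A)`        (`baseEval`)
* `j(q^p)     = qExpand A (p*p) (jqModC A)`    (`xconj none`)
* `j(ζ^b q^{1/p}) = tw (ζ^b) (jqModC A)`       (`xconj (some b)`)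
-/

set_option autoImplicit false
open ModularCurve HahnSeries Polynomial

noncomputable section

namespace H28S28

section Twist

variable {A : Type} [CommRing A]

/-- Twist of a Laurent series by a unit: `∑ aₙ sⁿ ↦ ∑ aₙ ζⁿ sⁿ`. -/
def twFun (ζ : Aˣ) (x : LaurentSeries A) : LaurentSeries A where
  coeff n := ((ζ ^ n : Aˣ) : A) * x.coeff n
  isPWO_support' := x.isPWO_support.mono (fun n hn => by
    simp only [Function.mem_support, ne_eq] at hn
    rw [HahnSeries.mem_support]
    intro h
    exact hn (by rw [h, mul_zero]))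

@[simp] theorem twFun_coeff (ζ : Aˣ) (x : LaurentSeries A) (n : ℤ) :
    (twFun ζ x).coeff n = ((ζ ^ n : Aˣ) : A) * x.coeff n := rfl

theorem support_twFun (ζ : Aˣ) (x : LaurentSeries A) : (twFun ζ x).support = x.support := by
  ext n
  simp only [HahnSeries.mem_support, twFun_coeff, ne_eq]
  rw [Units.mul_right_eq_zero]

theorem twFun_mul (ζ : Aˣ) (x y : LaurentSeries A) :
    twFun ζ (x * y) = twFun ζ x * twFun ζ y := by
  ext n
  rw [twFun_coeff, HahnSeries.coeff_mul,
    HahnSeries.coeff_mul_left' (x := twFun ζ x) x.isPWO_support (support_twFun ζ x).le,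
    Finset.mul_sum]
  refine Finset.sum_congr ?_ (fun ij hij => ?_)
  · ext ij
    simp only [Finset.mem_antidiagonal, support_twFun]
  · rw [Finset.mem_antidiagonal] at hij
    rw [twFun_coeff, twFun_coeff, ← hij.2.2, zpow_add, Units.val_mul]
    ring

/-- Twist as a ring homomorphism. -/
def tw (ζ : Aˣ) : LaurentSeries A →+* LaurentSeries A where
  toFun := twFun ζ
  map_one' := by
    ext n
    rw [twFun_coeff, HahnSeries.coeff_one]
    split_ifs with h
    · subst h; simp
    · simp
  map_mul' := twFun_mul ζ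
  map_zero' := by
    ext n
    simp
  map_add' x y := by
    ext n
    simp [mul_add]

@[simp] theorem tw_coeff (ζ : Aˣ) (x : LaurentSeries A) (n : ℤ) :
    (tw ζ x).coeff n = ((ζ ^ n : Aˣ) : A) * x.coeff n := rfl

end Twist

section Conjugates

variable (A : Type) [CommRing A]

/-- `Δ = q ∏ (1 - qⁿ)^24` over `A`. -/
def deltaq : LaurentSeries A :=
  HahnSeries.single (1 : ℤ) 1 *
    HahnSeries.ofPowerSeries ℤ A (dedekindEtaUnit.map (Int.castRingHom A))

/-- `Δ⁻¹` over `A`. -/
def deltaqInv : LaurentSeries A :=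
  HahnSeries.single (-1 : ℤ) 1 *
    HahnSeries.ofPowerSeries ℤ A (dedekindEtaUnitInv.map (Int.castRingHom A))

variable (p : ℕ) [NeZero p]

instance instNeZeroMulSelf : NeZero (p * p) := ⟨Nat.mul_ne_zero (NeZero.ne p) (NeZero.ne p)⟩

/-- The `p + 1` formal conjugates of `j(q^p)`, as series in `s = q^{1/p}`. -/
def xconj (ζ : Aˣ) : Option (Fin p) → LaurentSeries A
  | none => qExpand A (p * p) (jqModC A)
  | some b => tw (ζ ^ (b : ℕ)) (jqModC A)

/-- The `p + 1` formal conjugates of `u = p^12 Δ(q^p)/Δ(q)`, as series in `s = q^{1/p}`. -/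
def yconj (ζ : Aˣ) : Option (Fin p) → LaurentSeries A
  | none => (p : LaurentSeries A) ^ 12 * qExpand A (p * p) (deltaq A) * qExpand A p (deltaqInv A)
  | some b => tw (ζ ^ (b : ℕ)) (deltaq A) * qExpand A p (deltaqInv A)

/-- Evaluation `ℤ[j] → A((s))`, `j ↦ j(q) = j(s^p)`. -/
def baseEval : Polynomial ℤ →+* LaurentSeries A :=
  Polynomial.eval₂RingHom (Int.castRingHom (LaurentSeries A)) (qExpand A p (jqModC A))

/-- The modular equation package of level `p` (output of WP1):
`Φ` = modular polynomial, `T` = minimal equation of the modular unit `u`,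
`G` = Lagrange interpolant with `u Φ'(j_p) = G(j_p)`; all three in `ℤ[j][X]`, and the identities
hold for every commutative ring `A` with a root `ζ` of the `p`-th cyclotomic polynomial. -/
def HasModEq : Prop :=
  ∃ Φ T G : Polynomial (Polynomial ℤ),
    Φ.Monic ∧ Φ.natDegree = p + 1 ∧ T.Monic ∧ T.natDegree = p + 1 ∧
    (T.coeff 0 = Polynomial.C ((p : ℤ) ^ 12) ∨ T.coeff 0 = Polynomial.C (-(p : ℤ) ^ 12)) ∧
    ∀ (A : Type) [CommRing A] (ζ : Aˣ), (Polynomial.cyclotomic p A).eval (ζ : A) = 0 →
      Φ.map (baseEval A p) = ∏ i : Option (Fin p), (X - Polynomial.C (xconj A p ζ i)) ∧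
      T.map (baseEval A p) = ∏ i : Option (Fin p), (X - Polynomial.C (yconj A p ζ i)) ∧
      G.map (baseEval A p) = ∑ i : Option (Fin p),
        Polynomial.C (yconj A p ζ i) * ∏ i' ∈ Finset.univ.erase i, (X - Polynomial.C (xconj A p ζ i'))

end Conjugates

section Degrees

variable (N : ℕ) [NeZero N]

/-- WP2 (characteristic 0): `[F_N : ℚ(j)] ≤ ψ(N)`, in the form: a family of elements of `F_N`
linearly independent over `ℚ(j)` has at most `ψ(N)` members. -/
def DegreeUpperBound : Prop :=
  ∀ s : Finset (LaurentSeries ℚ), (∀ x ∈ s, x ∈ modularFunctionFieldFull N) →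
    LinearIndependent (↥(IntermediateField.adjoin ℚ {jq})) (fun x : s => (x : LaurentSeries ℚ)) →
    s.card ≤ dedekindPsi N

/-- WP3 (characteristic `ℓ ∤ N`): `[𝔽_ℓ(J(q^d) : d ∣ N) : 𝔽_ℓ(J)] ≥ ψ(N)`, in the form: there are
`ψ(N)` elements of that field linearly independent over `𝔽_ℓ(J)`. -/
def DegreeLowerBound (ℓ : ℕ) [Fact ℓ.Prime] : Prop :=
  ∃ s : Finset (LaurentSeries (ZMod ℓ)),
    (∀ x ∈ s, x ∈ modularFunctionFieldFullC (ZMod ℓ) N) ∧
    LinearIndependent (↥(IntermediateField.adjoin (ZMod ℓ) {jqModC (ZMod ℓ)}))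
      (fun x : s => (x : LaurentSeries (ZMod ℓ))) ∧
    s.card = dedekindPsi N

end Degrees

end H28S28
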