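import Mathlib
import Fermat.Agent.S28.Interface

/-!
# S28 WP2 (helper10), series level

From the modular equation package `HasModEq p`: the root relations
`Φ_p(j(q^m), j(q^{pm})) = 0` and `Φ_p(j(q^{pm}), j(q^m)) = 0` over every commutative ring.
-/

set_option autoImplicit false
set_option linter.style.haveILetI false
open ModularCurve HahnSeries Polynomial

noncomputable section

namespace H28S28

section Ev

variable {A B : Type} [CommRing A] [CommRing B]

/-- evaluation `ℤ[j] → A((q))`, `j ↦ a`. -/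
def h10ev (a : LaurentSeries A) : Polynomial ℤ →+* LaurentSeries A :=
  Polynomial.eval₂RingHom (Int.castRingHom (LaurentSeries A)) a

@[simp] theorem h10ev_X (a : LaurentSeries A) : h10ev a Polynomial.X = a := by
  simp [h10ev]

theorem h10ev_comp (φ : LaurentSeries A →+* LaurentSeries B) (a : LaurentSeries A) :
    φ.comp (h10ev a) = h10ev (φ a) := by
  refine Polynomial.ringHom_ext' (Subsingleton.elim _ _) ?_
  simp

theorem h10_baseEval_eq (p : ℕ) [NeZero p] :
    baseEval A p = h10ev (qExpand A p (jqModC A)) := rfl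

theorem h10_tw_one_apply (x : LaurentSeries A) : tw (1 : Aˣ) x = x := by
  ext n
  simp

/-- the two-variable evaluation `Φ(a, b)`. -/
def h10ev2 (Φ : Polynomial (Polynomial ℤ)) (a b : LaurentSeries A) : LaurentSeries A :=
  Φ.eval₂ (h10ev a) b

theorem h10ev2_hom (φ : LaurentSeries A →+* LaurentSeries B) (Φ : Polynomial (Polynomial ℤ))
    (a b : LaurentSeries A) : φ (h10ev2 Φ a b) = h10ev2 Φ (φ a) (φ b) := by
  unfold h10ev2
  rw [Polynomial.hom_eval₂, h10ev_comp]

theorem h10ev2_eq_eval_map (Φ : Polynomial (Polynomial ℤ)) (a b : LaurentSeries A) :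
    h10ev2 Φ a b = (Φ.map (h10ev a)).eval b := by
  unfold h10ev2
  rw [Polynomial.eval_map]

end Ev

/-- The part of `HasModEq` concerning the modular polynomial. -/
def h10IsModPoly (p : ℕ) [NeZero p] (Φ : Polynomial (Polynomial ℤ)) : Prop :=
  Φ.Monic ∧ Φ.natDegree = p + 1 ∧
    ∀ (A : Type) [CommRing A] (ζ : Aˣ), (Polynomial.cyclotomic p A).eval (ζ : A) = 0 →
      Φ.map (baseEval A p) = ∏ i : Option (Fin p), (X - Polynomial.C (xconj A p ζ i))

theorem h10_exists_modPoly (p : ℕ) [NeZero p] (h : HasModEq p) : ∃ Φ, h10IsModPoly p Φ := by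
  obtain ⟨Φ, T, G, h1, h2, -, -, -, h3⟩ := h
  exact ⟨Φ, h1, h2, fun A _ ζ hζ => (h3 A ζ hζ).1⟩

/-- the coefficient field used to split the modular equation -/
abbrev h10Qbar : Type := AlgebraicClosure ℚ

theorem h10_exists_zeta (p : ℕ) [NeZero p] :
    ∃ ζ : h10Qbarˣ, (Polynomial.cyclotomic p h10Qbar).eval (ζ : h10Qbar) = 0 := by
  have hdeg : (Polynomial.cyclotomic p h10Qbar).degree ≠ 0 :=
    (Polynomial.degree_cyclotomic_pos p h10Qbar (Nat.pos_of_ne_zero (NeZero.ne p))).ne'
  obtain ⟨z, hz⟩ := IsAlgClosed.exists_root _ hdeg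
  have hpow : z ^ p = 1 := by
    have hdvd : Polynomial.cyclotomic p h10Qbar ∣ X ^ p - 1 :=
      Polynomial.cyclotomic.dvd_X_pow_sub_one p h10Qbar
    obtain ⟨c, hc⟩ := hdvd
    have := congrArg (Polynomial.eval z) hc
    rw [Polynomial.eval_mul, hz.eq_zero, zero_mul] at this
    simp only [Polynomial.eval_sub, Polynomial.eval_pow, Polynomial.eval_X,
      Polynomial.eval_one] at this
    exact sub_eq_zero.mp this
  have hu : IsUnit z := IsUnit.of_pow_eq_one hpow (NeZero.ne p)
  exact ⟨hu.unit, by simpa using hz.eq_zero⟩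

theorem h10_coeffMap_injective {R S : Type} [CommRing R] [CommRing S] (f : R →+* S)
    (hf : Function.Injective f) : Function.Injective (coeffMap f) := by
  intro x y h
  ext k
  apply hf
  have := congrArg (fun z => z.coeff k) h
  simpa using this

theorem h10_intCast_Qbar_injective : Function.Injective (Int.castRingHom h10Qbar) :=
  (Int.castRingHom h10Qbar).injective_int

section Roots

variable (p : ℕ) [NeZero p] (Φ : Polynomial (Polynomial ℤ)) (hΦ : h10IsModPoly p Φ)

include hΦ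

/-- `Φ_p(j(q), j(q^p)) = 0` over `ℤ`. -/
theorem h10_root_int :
    h10ev2 Φ (jqModC ℤ) (qExpand ℤ p (jqModC ℤ)) = 0 := by
  obtain ⟨ζ, hζ⟩ := h10_exists_zeta p
  have hfac := hΦ.2.2 h10Qbar ζ hζ
  set ι : LaurentSeries ℤ →+* LaurentSeries h10Qbar :=
    (qExpand h10Qbar p).comp (coeffMap (Int.castRingHom h10Qbar)) with hι
  have hinj : Function.Injective ι := by
    rw [hι, RingHom.coe_comp]
    exact (qExpand_injective p).comp (h10_coeffMap_injective _ h10_intCast_Qbar_injective)
  apply hinj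
  rw [map_zero, h10ev2_hom]
  have h1 : ι (jqModC ℤ) = qExpand h10Qbar p (jqModC h10Qbar) := by
    rw [hι, RingHom.comp_apply, coeffMap_jqModC]
  have h2 : ι (qExpand ℤ p (jqModC ℤ)) = xconj h10Qbar p ζ none := by
    rw [hι, RingHom.comp_apply, coeffMap_qExpand, coeffMap_jqModC, qExpand_qExpand]
    rfl
  rw [h1, h2, h10ev2_eq_eval_map, ← h10_baseEval_eq, hfac, Polynomial.eval_prod]
  apply Finset.prod_eq_zero (Finset.mem_univ none)
  simp

/-- `Φ_p(j(q^p), j(q)) = 0` over `ℤ`. -/
theorem h10_root_int' :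
    h10ev2 Φ (qExpand ℤ p (jqModC ℤ)) (jqModC ℤ) = 0 := by
  obtain ⟨ζ, hζ⟩ := h10_exists_zeta p
  have hfac := hΦ.2.2 h10Qbar ζ hζ
  set ι : LaurentSeries ℤ →+* LaurentSeries h10Qbar :=
    coeffMap (Int.castRingHom h10Qbar) with hι
  have hinj : Function.Injective ι := h10_coeffMap_injective _ h10_intCast_Qbar_injective
  apply hinj
  rw [map_zero, h10ev2_hom]
  have h1 : ι (qExpand ℤ p (jqModC ℤ)) = qExpand h10Qbar p (jqModC h10Qbar) := by
    rw [hι, coeffMap_qExpand, coeffMap_jqModC]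
  have h2 : ι (jqModC ℤ) = xconj h10Qbar p ζ (some ⟨0, Nat.pos_of_ne_zero (NeZero.ne p)⟩) := by
    rw [hι, coeffMap_jqModC]
    show _ = tw (ζ ^ ((⟨0, Nat.pos_of_ne_zero (NeZero.ne p)⟩ : Fin p) : ℕ)) (jqModC h10Qbar)
    simp only [pow_zero]
    rw [h10_tw_one_apply]
  rw [h1, h2, h10ev2_eq_eval_map, ← h10_baseEval_eq, hfac, Polynomial.eval_prod]
  apply Finset.prod_eq_zero (Finset.mem_univ (some ⟨0, Nat.pos_of_ne_zero (NeZero.ne p)⟩))
  simp

/-- `Φ_p(j(q^m), j(q^{pm})) = 0` over any commutative ring. -/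
theorem h10_root (R : Type) [CommRing R] (m : ℕ) [NeZero m] [NeZero (m * p)] :
    h10ev2 Φ (qExpand R m (jqModC R)) (qExpand R (m * p) (jqModC R)) = 0 := by
  have h := h10_root_int p Φ hΦ
  have h' := congrArg ((qExpand R m).comp (coeffMap (Int.castRingHom R))) h
  rw [map_zero, h10ev2_hom] at h'
  simpa [coeffMap_jqModC, coeffMap_qExpand, qExpand_qExpand] using h'

/-- `Φ_p(j(q^{pm}), j(q^m)) = 0` over any commutative ring. -/
theorem h10_root' (R : Type) [CommRing R] (m : ℕ) [NeZero m] [NeZero (m * p)] :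
    h10ev2 Φ (qExpand R (m * p) (jqModC R)) (qExpand R m (jqModC R)) = 0 := by
  have h := h10_root_int' p Φ hΦ
  have h' := congrArg ((qExpand R m).comp (coeffMap (Int.castRingHom R))) h
  rw [map_zero, h10ev2_hom] at h'
  simpa [coeffMap_jqModC, coeffMap_qExpand, qExpand_qExpand] using h'

end Roots

end H28S28
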