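import Mathlib
import Fermat.Agent.S28.WP2Series

/-!
# S28 WP2 (helper10): the series `j(q^d)`, total in `d`; distinctness; root relations
-/

set_option autoImplicit false
set_option linter.style.haveILetI false
open ModularCurve HahnSeries Polynomial

noncomputable section

namespace H28S28

/-- `j(q^d)` over `k`, total in `d` (junk value `0` at `d = 0`). -/
def h10j (k : Type) [CommRing k] (d : ℕ) : LaurentSeries k :=
  if h : d = 0 then 0 else @qExpand k _ d ⟨h⟩ (jqModC k)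

theorem h10j_eq (k : Type) [CommRing k] (d : ℕ) [NeZero d] :
    h10j k d = qExpand k d (jqModC k) := by
  unfold h10j
  rw [dif_neg (NeZero.ne d)]

theorem h10_exists_zeta' (A : Type) [Field A] [IsAlgClosed A] (p : ℕ) [NeZero p] :
    ∃ ζ : Aˣ, (Polynomial.cyclotomic p A).eval (ζ : A) = 0 := by
  have hdeg : (Polynomial.cyclotomic p A).degree ≠ 0 :=
    (Polynomial.degree_cyclotomic_pos p A (Nat.pos_of_ne_zero (NeZero.ne p))).ne'
  obtain ⟨z, hz⟩ := IsAlgClosed.exists_root _ hdeg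
  have hpow : z ^ p = 1 := by
    have hdvd : Polynomial.cyclotomic p A ∣ X ^ p - 1 :=
      Polynomial.cyclotomic.dvd_X_pow_sub_one p A
    obtain ⟨c, hc⟩ := hdvd
    have := congrArg (Polynomial.eval z) hc
    rw [Polynomial.eval_mul, hz.eq_zero, zero_mul] at this
    simp only [Polynomial.eval_sub, Polynomial.eval_pow, Polynomial.eval_X,
      Polynomial.eval_one] at this
    exact sub_eq_zero.mp this
  have hu : IsUnit z := IsUnit.of_pow_eq_one hpow (NeZero.ne p)
  exact ⟨hu.unit, by simpa using hz.eq_zero⟩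

section Coeff

variable {A : Type} [CommRing A]

/-- coefficient of `qExpand n x` at `-(n)` is the coefficient of `x` at `-1`. -/
theorem h10_qExpand_coeff_neg (n : ℕ) [NeZero n] (x : LaurentSeries A) :
    (qExpand A n x).coeff (-(n : ℤ)) = x.coeff (-1) := by
  have h : (-(n : ℤ)) = (n : ℤ) * (-1) := by ring
  rw [h, qExpand_coeff_mul]

theorem h10_tw_jq_coeff_neg_one (ζ : Aˣ) :
    (tw ζ (jqModC A)).coeff (-1) = ((ζ⁻¹ : Aˣ) : A) := by
  rw [tw_coeff, coeff_jqModC_neg_one, mul_one]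
  simp

/-- `j(q^a)` in terms of `h10j`, with coefficient at `-a` equal to `1`. -/
theorem h10j_coeff_neg (d : ℕ) (hd : d ≠ 0) : (h10j A d).coeff (-(d : ℤ)) = 1 := by
  haveI : NeZero d := ⟨hd⟩
  rw [h10j_eq, h10_qExpand_coeff_neg, coeff_jqModC_neg_one]

theorem h10j_coeff_of_lt (d : ℕ) (hd : d ≠ 0) {e : ℤ} (he : e < -(d : ℤ)) :
    (h10j A d).coeff e = 0 := by
  haveI : NeZero d := ⟨hd⟩
  rw [h10j_eq]
  by_cases hdv : (d : ℤ) ∣ e
  · obtain ⟨c, rfl⟩ := hdv
    rw [qExpand_coeff_mul]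
    apply coeff_jqModC_of_lt
    have hdpos : (0 : ℤ) < d := by exact_mod_cast Nat.pos_of_ne_zero hd
    by_contra hc
    push Not at hc
    have : (d : ℤ) * (-1) ≤ (d : ℤ) * c := mul_le_mul_of_nonneg_left hc hdpos.le
    linarith
  · exact qExpand_coeff_of_not_dvd d _ hdv

theorem h10j_ne_of_lt [Nontrivial A] {a b : ℕ} (ha : a ≠ 0) (hab : a < b) :
    h10j A a ≠ h10j A b := by
  intro h
  have h1 := h10j_coeff_neg (A := A) b (by omega)
  rw [← h, h10j_coeff_of_lt a ha (by exact_mod_cast (by omega : -(b : ℤ) < -(a : ℤ)))] at h1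
  exact zero_ne_one h1

theorem h10j_ne [Nontrivial A] {a b : ℕ} (ha : a ≠ 0) (hb : b ≠ 0) (hab : a ≠ b) :
    h10j A a ≠ h10j A b := by
  rcases Nat.lt_or_gt_of_ne hab with h | h
  · exact h10j_ne_of_lt ha h
  · exact (h10j_ne_of_lt hb h).symm

end Coeff

section RootJ

variable (p : ℕ) [NeZero p] (Φ : Polynomial (Polynomial ℤ)) (hΦ : h10IsModPoly p Φ)
include hΦ

theorem h10_root_j (R : Type) [CommRing R] (m : ℕ) (hm : m ≠ 0) :
    h10ev2 Φ (h10j R m) (h10j R (m * p)) = 0 := by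
  haveI : NeZero m := ⟨hm⟩
  haveI : NeZero (m * p) := ⟨Nat.mul_ne_zero hm (NeZero.ne p)⟩
  rw [h10j_eq, h10j_eq]
  exact h10_root p Φ hΦ R m

theorem h10_root_j' (R : Type) [CommRing R] (m : ℕ) (hm : m ≠ 0) :
    h10ev2 Φ (h10j R (m * p)) (h10j R m) = 0 := by
  haveI : NeZero m := ⟨hm⟩
  haveI : NeZero (m * p) := ⟨Nat.mul_ne_zero hm (NeZero.ne p)⟩
  rw [h10j_eq, h10j_eq]
  exact h10_root' p Φ hΦ R m

end RootJ

end H28S28
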