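import Mathlib
import Fermat.Agent.S28.WP2J

/-!
# S28 WP2 (helper10): mixed divisors

`j(q^{prm}) ∈ k(j(q^{rm}), j(q^{pm}))` for primes `p ≠ r`, over any field `k`.
-/

set_option autoImplicit false
set_option linter.style.haveILetI false
open ModularCurve HahnSeries Polynomial

noncomputable section

namespace H28S28

section EvE

variable {k : Type} [Field k] {F : Type*} [Field F] [Algebra F (LaurentSeries k)]
  (E : IntermediateField F (LaurentSeries k))

/-- evaluation `ℤ[j] → E`, `j ↦ a`. -/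
def h10evE (a : E) : Polynomial ℤ →+* E :=
  Polynomial.eval₂RingHom (Int.castRingHom E) a

theorem h10evE_comp {B : Type} [CommRing B] (φ : E →+* LaurentSeries B) (a : E) :
    φ.comp (h10evE E a) = h10ev (φ a) := by
  refine Polynomial.ringHom_ext' (Subsingleton.elim _ _) ?_
  simp [h10evE]

theorem h10_aeval_map_evE (Φ : Polynomial (Polynomial ℤ)) (a : E) (x : LaurentSeries k) :
    Polynomial.aeval x (Φ.map (h10evE E a)) = h10ev2 Φ (a : LaurentSeries k) x := by
  rw [Polynomial.aeval_def, Polynomial.eval₂_map, h10evE_comp]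
  rfl

end EvE

section Iota

variable (k : Type) [Field k]

/-- the embedding `k((q)) → A((t))`, `q ↦ t^c`, `A` an algebraic closure of `k`. -/
def h10iota (c : ℕ) [NeZero c] : LaurentSeries k →+* LaurentSeries (AlgebraicClosure k) :=
  (qExpand (AlgebraicClosure k) c).comp (coeffMap (algebraMap k (AlgebraicClosure k)))

theorem h10iota_j (c : ℕ) [NeZero c] (d : ℕ) (hd : d ≠ 0) :
    h10iota k c (h10j k d) = h10j (AlgebraicClosure k) (c * d) := by
  haveI : NeZero d := ⟨hd⟩
  haveI : NeZero (c * d) := ⟨Nat.mul_ne_zero (NeZero.ne c) hd⟩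
  rw [h10j_eq, h10j_eq, h10iota, RingHom.comp_apply, coeffMap_qExpand, coeffMap_jqModC,
    qExpand_qExpand]

end Iota

section Mixed

variable (k : Type) [Field k] {F : Type*} [Field F] [Algebra F (LaurentSeries k)]

/-- **Mixed divisors.** If `E` contains `j(q^{rm})` and `j(q^{pm})` for primes `p ≠ r`, then it
contains `j(q^{prm})`: it is the only common root of `Φ_p(j(q^{rm}), X)` and
`Φ_r(j(q^{pm}), X)`. -/
theorem h10_mixed (E : IntermediateField F (LaurentSeries k))
    (p r : ℕ) (hp : p.Prime) (hr : r.Prime) (hpr : p ≠ r)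
    (Φp Φr : Polynomial (Polynomial ℤ))
    (hΦp : @h10IsModPoly p ⟨hp.ne_zero⟩ Φp) (hΦr : @h10IsModPoly r ⟨hr.ne_zero⟩ Φr)
    (m : ℕ) (hm : m ≠ 0)
    (h1 : h10j k (r * m) ∈ E) (h2 : h10j k (p * m) ∈ E) :
    h10j k (p * r * m) ∈ E := by
  classical
  haveI : NeZero p := ⟨hp.ne_zero⟩
  haveI : NeZero r := ⟨hr.ne_zero⟩
  haveI : NeZero m := ⟨hm⟩
  haveI hprne : NeZero (p * r) := ⟨Nat.mul_ne_zero hp.ne_zero hr.ne_zero⟩
  set A : Type := AlgebraicClosure k with hA
  set x : LaurentSeries k := h10j k (p * r * m) with hx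
  -- the two polynomials over `E`
  set f : Polynomial E := Φp.map (h10evE E ⟨h10j k (r * m), h1⟩) with hf
  set g : Polynomial E := Φr.map (h10evE E ⟨h10j k (p * m), h2⟩) with hg
  have hfmonic : f.Monic := hΦp.1.map _
  have hfroot : Polynomial.aeval x f = 0 := by
    rw [hf, h10_aeval_map_evE]
    have := h10_root_j p Φp hΦp k (r * m) (Nat.mul_ne_zero hr.ne_zero hm)
    rwa [show r * m * p = p * r * m by ring] at this
  have hgroot : Polynomial.aeval x g = 0 := by
    rw [hg, h10_aeval_map_evE]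
    have := h10_root_j r Φr hΦr k (p * m) (Nat.mul_ne_zero hp.ne_zero hm)
    rwa [show p * m * r = p * r * m by ring] at this
  have hint : IsIntegral E x := ⟨f, hfmonic, hfroot⟩
  have hμf : minpoly E x ∣ f := minpoly.dvd E x hfroot
  have hμg : minpoly E x ∣ g := minpoly.dvd E x hgroot
  -- pass to `A((t))`
  set φ : E →+* LaurentSeries A := (h10iota k (p * r)).comp (algebraMap E (LaurentSeries k))
    with hφ
  obtain ⟨ζp, hζp⟩ := h10_exists_zeta' A p
  obtain ⟨ζr, hζr⟩ := h10_exists_zeta' A r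
  have hfacp := hΦp.2.2 A ζp hζp
  have hfacr := hΦr.2.2 A ζr hζr
  haveI hne1 : NeZero (r * r * m) := ⟨Nat.mul_ne_zero (Nat.mul_ne_zero hr.ne_zero hr.ne_zero) hm⟩
  haveI hne2 : NeZero (p * p * m) := ⟨Nat.mul_ne_zero (Nat.mul_ne_zero hp.ne_zero hp.ne_zero) hm⟩
  set τ : LaurentSeries A →+* LaurentSeries A := qExpand A (r * r * m) with hτ
  set τ' : LaurentSeries A →+* LaurentSeries A := qExpand A (p * p * m) with hτ'
  -- images of the base points
  have hφa : φ ⟨h10j k (r * m), h1⟩ = τ (qExpand A p (jqModC A)) := by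
    show h10iota k (p * r) (h10j k (r * m)) = _
    rw [h10iota_j k (p * r) (r * m) (Nat.mul_ne_zero hr.ne_zero hm), hτ, qExpand_qExpand]
    haveI : NeZero (r * r * m * p) := ⟨Nat.mul_ne_zero (NeZero.ne _) hp.ne_zero⟩
    rw [← h10j_eq, show p * r * (r * m) = r * r * m * p by ring]
  have hφb : φ ⟨h10j k (p * m), h2⟩ = τ' (qExpand A r (jqModC A)) := by
    show h10iota k (p * r) (h10j k (p * m)) = _
    rw [h10iota_j k (p * r) (p * m) (Nat.mul_ne_zero hp.ne_zero hm), hτ', qExpand_qExpand]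
    haveI : NeZero (p * p * m * r) := ⟨Nat.mul_ne_zero (NeZero.ne _) hr.ne_zero⟩
    rw [← h10j_eq, show p * r * (p * m) = p * p * m * r by ring]
  -- factorisations
  have hf' : f.map φ = ∏ i : Option (Fin p), (X - Polynomial.C (τ (xconj A p ζp i))) := by
    rw [hf, Polynomial.map_map, h10evE_comp, hφa, ← h10ev_comp, ← h10_baseEval_eq,
      ← Polynomial.map_map, hfacp, Polynomial.map_prod]
    refine Finset.prod_congr rfl (fun i _ => ?_)
    rw [Polynomial.map_sub, Polynomial.map_X, Polynomial.map_C]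
  have hg' : g.map φ = ∏ i : Option (Fin r), (X - Polynomial.C (τ' (xconj A r ζr i))) := by
    rw [hg, Polynomial.map_map, h10evE_comp, hφb, ← h10ev_comp, ← h10_baseEval_eq,
      ← Polynomial.map_map, hfacr, Polynomial.map_prod]
    refine Finset.prod_congr rfl (fun i _ => ?_)
    rw [Polynomial.map_sub, Polynomial.map_X, Polynomial.map_C]
  -- the distinguishing coefficient
  have hcoefα : ∀ b : Fin p, (τ (xconj A p ζp (some b))).coeff (-((r * r * m : ℕ) : ℤ)) ≠ 0 := by
    intro b
    show (qExpand A (r * r * m) (tw (ζp ^ (b : ℕ)) (jqModC A))).coeff _ ≠ 0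
    rw [h10_qExpand_coeff_neg, h10_tw_jq_coeff_neg_one]
    exact Units.ne_zero _
  have hcoefβ : ∀ j : Option (Fin r),
      (τ' (xconj A r ζr j)).coeff (-((r * r * m : ℕ) : ℤ)) = 0 := by
    intro j
    have hndvd : ¬ ((p * p * m : ℕ) : ℤ) ∣ (-((r * r * m : ℕ) : ℤ)) := by
      rw [Int.dvd_neg, Int.natCast_dvd_natCast]
      intro hdv
      have h3 : p * p ∣ r * r := by
        have : p * p * m ∣ r * r * m := hdv
        exact (Nat.mul_dvd_mul_iff_right (Nat.pos_of_ne_zero hm)).mp this
      have h4 : p ∣ r * r := (Dvd.intro _ rfl).trans h3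
      have h5 : p ∣ r := by
        rcases (Nat.Prime.dvd_mul hp).mp h4 with h | h <;> exact h
      exact hpr ((Nat.prime_dvd_prime_iff_eq hp hr).mp h5)
    cases j with
    | none =>
      show (qExpand A (p * p * m) (qExpand A (r * r) (jqModC A))).coeff _ = 0
      exact qExpand_coeff_of_not_dvd _ _ hndvd
    | some c =>
      show (qExpand A (p * p * m) (tw (ζr ^ (c : ℕ)) (jqModC A))).coeff _ = 0
      exact qExpand_coeff_of_not_dvd _ _ hndvd
  have hne : ∀ (b : Fin p) (j : Option (Fin r)),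
      τ (xconj A p ζp (some b)) - τ' (xconj A r ζr j) ≠ 0 := by
    intro b j h0
    have h : (τ (xconj A p ζp (some b))).coeff (-((r * r * m : ℕ) : ℤ)) =
        (τ' (xconj A r ζr j)).coeff (-((r * r * m : ℕ) : ℤ)) :=
      congrArg (fun z => z.coeff (-((r * r * m : ℕ) : ℤ))) (sub_eq_zero.mp h0)
    rw [hcoefβ j] at h
    exact hcoefα b h
  -- `μ'` does not vanish at the `α_b`
  set μ' : Polynomial (LaurentSeries A) := (minpoly E x).map φ with hμ'
  have hμ'f : μ' ∣ f.map φ := Polynomial.map_dvd φ hμf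
  have hμ'g : μ' ∣ g.map φ := Polynomial.map_dvd φ hμg
  have hgα : ∀ b : Fin p, (g.map φ).eval (τ (xconj A p ζp (some b))) ≠ 0 := by
    intro b
    rw [hg', Polynomial.eval_prod]
    refine Finset.prod_ne_zero_iff.mpr (fun j _ => ?_)
    simpa using hne b j
  have hμα : ∀ b : Fin p, ¬ (X - Polynomial.C (τ (xconj A p ζp (some b)))) ∣ μ' := by
    intro b hdv
    have : (X - Polynomial.C (τ (xconj A p ζp (some b)))) ∣ g.map φ := hdv.trans hμ'g
    exact hgα b (Polynomial.dvd_iff_isRoot.mp this)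
  have hcop : IsCoprime (∏ b : Fin p, (X - Polynomial.C (τ (xconj A p ζp (some b))))) μ' := by
    refine IsCoprime.prod_left (fun b _ => ?_)
    exact ((Polynomial.irreducible_X_sub_C _).coprime_iff_not_dvd).mpr (hμα b)
  have hdvd1 : μ' ∣ (X - Polynomial.C (τ (xconj A p ζp none))) := by
    rw [hf', Fintype.prod_option] at hμ'f
    exact hcop.symm.dvd_of_dvd_mul_right hμ'f
  have hdeg' : μ'.natDegree ≤ 1 := by
    have := Polynomial.natDegree_le_of_dvd hdvd1 (Polynomial.X_sub_C_ne_zero _)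
    rwa [Polynomial.natDegree_X_sub_C] at this
  have hdeg : (minpoly E x).natDegree = 1 := by
    have h1' : (minpoly E x).natDegree ≤ 1 := by
      rwa [hμ', Polynomial.natDegree_map_eq_of_injective φ.injective] at hdeg'
    have h2' := minpoly.natDegree_pos hint
    omega
  obtain ⟨e, he⟩ := minpoly.natDegree_eq_one_iff.mp hdeg
  rw [← he]
  exact e.2

end Mixed

end H28S28
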