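import Mathlib
import Fermat.Prelude.Def_ModularCurve_X0

/-!
# S28 WP2 (helper10): arithmetic of the Dedekind `ψ` function

`ψ(pM) = p ψ(M)` if `p ∣ M`, and `ψ(pM) = (p+1) ψ(M)` if `p ∤ M`.
-/

set_option autoImplicit false
open ModularCurve

namespace H28S28

theorem h10_sqf_dvd_of_dvd_mul {p M d : ℕ} (hp : p.Prime) (hpM : p ∣ M) (hd : Squarefree d)
    (hdv : d ∣ p * M) : d ∣ M := by
  by_cases hpd : p ∣ d
  · obtain ⟨e, rfl⟩ := hpd
    have he : e ∣ M := (Nat.mul_dvd_mul_iff_left hp.pos).mp hdv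
    have hcop : Nat.Coprime p e := by
      rw [Nat.Prime.coprime_iff_not_dvd hp]
      intro hpe
      obtain ⟨e', rfl⟩ := hpe
      have : p * p ∣ p * (p * e') := ⟨e', by ring⟩
      have h1 := hd p this
      exact hp.one_lt.ne' (Nat.isUnit_iff.mp h1)
    exact Nat.Coprime.mul_dvd_of_dvd_of_dvd hcop hpM he
  · exact (Nat.Coprime.dvd_mul_left ((Nat.Prime.coprime_iff_not_dvd hp).mpr hpd).symm).mp hdv

theorem h10_psi_mul_of_dvd {p M : ℕ} (hp : p.Prime) (hM : M ≠ 0) (hpM : p ∣ M) :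
    dedekindPsi (p * M) = p * dedekindPsi M := by
  unfold dedekindPsi
  have hset : (Finset.filter (fun d => Squarefree d) (p * M).divisors) =
      (Finset.filter (fun d => Squarefree d) M.divisors) := by
    ext d
    simp only [Finset.mem_filter, Nat.mem_divisors]
    constructor
    · rintro ⟨⟨hdv, -⟩, hsq⟩
      exact ⟨⟨h10_sqf_dvd_of_dvd_mul hp hpM hsq hdv, hM⟩, hsq⟩
    · rintro ⟨⟨hdv, -⟩, hsq⟩
      exact ⟨⟨Dvd.dvd.mul_left hdv p, Nat.mul_ne_zero hp.ne_zero hM⟩, hsq⟩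
  rw [hset, Finset.mul_sum]
  refine Finset.sum_congr rfl (fun d hd => ?_)
  simp only [Finset.mem_filter, Nat.mem_divisors] at hd
  exact Nat.mul_div_assoc p hd.1.1

theorem h10_psi_mul_of_not_dvd {p M : ℕ} (hp : p.Prime) (hM : M ≠ 0) (hpM : ¬ p ∣ M) :
    dedekindPsi (p * M) = (p + 1) * dedekindPsi M := by
  unfold dedekindPsi
  set A := Finset.filter (fun d => Squarefree d) M.divisors with hA
  have hcopM : Nat.Coprime p M := (Nat.Prime.coprime_iff_not_dvd hp).mpr hpM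
  have hset : (Finset.filter (fun d => Squarefree d) (p * M).divisors) =
      A ∪ A.image (fun d => p * d) := by
    ext d
    simp only [Finset.mem_filter, Nat.mem_divisors, Finset.mem_union, Finset.mem_image, hA]
    constructor
    · rintro ⟨⟨hdv, -⟩, hsq⟩
      by_cases hpd : p ∣ d
      · right
        obtain ⟨e, rfl⟩ := hpd
        have he : e ∣ M := (Nat.mul_dvd_mul_iff_left hp.pos).mp hdv
        exact ⟨e, ⟨⟨he, hM⟩, hsq.of_mul_right⟩, rfl⟩
      · left
        exact ⟨⟨(Nat.Coprime.dvd_mul_left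
          ((Nat.Prime.coprime_iff_not_dvd hp).mpr hpd).symm).mp hdv, hM⟩, hsq⟩
    · rintro (⟨⟨hdv, -⟩, hsq⟩ | ⟨e, ⟨⟨hdv, -⟩, hsq⟩, rfl⟩)
      · exact ⟨⟨Dvd.dvd.mul_left hdv p, Nat.mul_ne_zero hp.ne_zero hM⟩, hsq⟩
      · refine ⟨⟨Nat.mul_dvd_mul_left p hdv, Nat.mul_ne_zero hp.ne_zero hM⟩, ?_⟩
        have hcop : Nat.Coprime p e := Nat.Coprime.coprime_dvd_right hdv hcopM
        exact (Nat.squarefree_mul hcop).mpr ⟨hp.squarefree, hsq⟩
  have hdisj : Disjoint A (A.image (fun d => p * d)) := by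
    rw [Finset.disjoint_left]
    intro d hdA hdB
    simp only [Finset.mem_filter, Nat.mem_divisors, Finset.mem_image, hA] at hdA hdB
    obtain ⟨e, -, rfl⟩ := hdB
    exact hpM ((Dvd.intro e rfl).trans hdA.1.1)
  rw [hset, Finset.sum_union hdisj, Finset.sum_image
    (fun x _ y _ h => Nat.eq_of_mul_eq_mul_left hp.pos h), add_mul, one_mul, Finset.mul_sum]
  congr 1
  · refine Finset.sum_congr rfl (fun d hd => ?_)
    simp only [Finset.mem_filter, Nat.mem_divisors, hA] at hd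
    exact Nat.mul_div_assoc p hd.1.1
  · refine Finset.sum_congr rfl (fun d hd => ?_)
    exact Nat.mul_div_mul_left M d hp.pos

end H28S28
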