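import Mathlib

/-!
# S28 WP2 (helper10): one step of a tower of fields

Adjoining a root of a monic polynomial of degree `≤ m` multiplies the degree bound by `m`.
Everything is phrased with intermediate fields of a fixed extension `L / K`, so that towers of
variable length need no dependent types.
-/

set_option autoImplicit false
set_option linter.style.haveILetI false
open Polynomial IntermediateField

namespace H28S28

section Step

variable {K L : Type*} [Field K] [Field L] [Algebra K L]

/-- One step of a tower: adjoining a root of a monic polynomial of degree `m` over `E`
multiplies the degree bound by `m`. -/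
theorem h10_step (E : IntermediateField K L) [FiniteDimensional K E] (n m : ℕ)
    (hE : Module.finrank K E ≤ n) (x : L) (f : Polynomial E) (hf : f.Monic)
    (hdeg : f.natDegree ≤ m) (hx : Polynomial.aeval x f = 0) :
    ∃ E' : IntermediateField K L, FiniteDimensional K E' ∧ Module.finrank K E' ≤ n * m ∧
      E ≤ E' ∧ x ∈ E' := by
  have hint : IsIntegral E x := ⟨f, hf, hx⟩
  set F : IntermediateField E L := IntermediateField.adjoin E {x} with hF
  haveI hfd : FiniteDimensional E F := IntermediateField.adjoin.finiteDimensional hint
  haveI hfr1 : Module.Free K E := Module.Free.of_divisionRing K E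
  haveI hfr2 : Module.Free E F := Module.Free.of_divisionRing E F
  have h1 : Module.finrank E F ≤ m := by
    rw [hF, IntermediateField.adjoin.finrank hint]
    exact (Polynomial.natDegree_le_of_dvd (minpoly.dvd E x hx) hf.ne_zero).trans hdeg
  have h2 : Module.finrank K F = Module.finrank K E * Module.finrank E F :=
    (Module.finrank_mul_finrank K E F).symm
  refine ⟨F.restrictScalars K, ?_, ?_, ?_, ?_⟩
  · exact FiniteDimensional.trans K E F
  · show Module.finrank K F ≤ n * m
    rw [h2]
    exact Nat.mul_le_mul hE h1
  · intro y hy
    show y ∈ F
    exact F.algebraMap_mem ⟨y, hy⟩
  · show x ∈ F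
    exact IntermediateField.mem_adjoin_simple_self E x

end Step

end H28S28
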