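import Mathlib
import Fermat.Agent.S28.WP2Mixed
import Fermat.Agent.S28.WP2Step
import Fermat.Agent.S28.WP2Psi

/-!
# S28 WP2 (helper10): the tower `k(j) ⊂ k(j(q^d) : d ∣ N)` has degree `≤ ψ(N)`, over any field `k`
-/

set_option autoImplicit false
set_option linter.style.haveILetI false
open ModularCurve HahnSeries Polynomial

noncomputable section

namespace H28S28

section Poly

variable (k : Type) [Field k] {F : Type*} [Field F] [Algebra F (LaurentSeries k)]

/-- First step at a prime: `j(q^{mp})` is a root of a monic polynomial of degree `p + 1` over any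
field containing `j(q^m)`. -/
theorem h10_poly_first (E : IntermediateField F (LaurentSeries k)) (p : ℕ) [NeZero p]
    (Φ : Polynomial (Polynomial ℤ)) (hΦ : h10IsModPoly p Φ) (m : ℕ) (hm : m ≠ 0)
    (h1 : h10j k m ∈ E) :
    ∃ f : Polynomial E, f.Monic ∧ f.natDegree ≤ p + 1 ∧
      Polynomial.aeval (h10j k (m * p)) f = 0 := by
  refine ⟨Φ.map (h10evE E ⟨h10j k m, h1⟩), hΦ.1.map _, ?_, ?_⟩
  · rw [hΦ.1.natDegree_map, hΦ.2.1]
  · rw [h10_aeval_map_evE]
    exact h10_root_j p Φ hΦ k m hm

/-- Higher steps at a prime: `j(q^{mpp})` is a root of a monic polynomial of degree `p` over any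
field containing `j(q^m)` and `j(q^{mp})`. -/
theorem h10_poly_next (E : IntermediateField F (LaurentSeries k)) (p : ℕ) [NeZero p]
    (hp1 : 1 < p)
    (Φ : Polynomial (Polynomial ℤ)) (hΦ : h10IsModPoly p Φ) (m : ℕ) (hm : m ≠ 0)
    (h1 : h10j k m ∈ E) (h2 : h10j k (m * p) ∈ E) :
    ∃ f : Polynomial E, f.Monic ∧ f.natDegree ≤ p ∧
      Polynomial.aeval (h10j k (m * p * p)) f = 0 := by
  have hmp : m * p ≠ 0 := Nat.mul_ne_zero hm (NeZero.ne p)
  set f : Polynomial E := Φ.map (h10evE E ⟨h10j k (m * p), h2⟩) with hf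
  have hfmonic : f.Monic := hΦ.1.map _
  have hfdeg : f.natDegree = p + 1 := by rw [hf, hΦ.1.natDegree_map, hΦ.2.1]
  set c : E := ⟨h10j k m, h1⟩ with hc
  have hrootc : f.IsRoot c := by
    have h := h10_root_j' p Φ hΦ k m hm
    have h' : Polynomial.aeval (c : LaurentSeries k) f = 0 := by
      rw [hf, h10_aeval_map_evE]; exact h
    have h'' : algebraMap E (LaurentSeries k) (f.eval c) = 0 := by
      rw [← Polynomial.aeval_algebraMap_apply_eq_algebraMap_eval]
      exact h'
    exact (map_eq_zero_iff _ (algebraMap E (LaurentSeries k)).injective).mp h''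
  have hfac : (X - Polynomial.C c) * (f /ₘ (X - Polynomial.C c)) = f :=
    Polynomial.mul_divByMonic_eq_iff_isRoot.mpr hrootc
  set g : Polynomial E := f /ₘ (X - Polynomial.C c) with hg
  have hgne : g ≠ 0 := by
    intro h0
    rw [h0, mul_zero] at hfac
    exact hfmonic.ne_zero hfac.symm
  have hgmonic : g.Monic := by
    have h := congrArg Polynomial.leadingCoeff hfac
    rw [Polynomial.leadingCoeff_mul, Polynomial.leadingCoeff_X_sub_C, one_mul,
      hfmonic.leadingCoeff] at h
    exact h
  have hgdeg : g.natDegree = p := by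
    have h := congrArg Polynomial.natDegree hfac
    rw [Polynomial.natDegree_mul (Polynomial.X_sub_C_ne_zero c) hgne,
      Polynomial.natDegree_X_sub_C, hfdeg] at h
    omega
  refine ⟨g, hgmonic, hgdeg.le, ?_⟩
  have hx : Polynomial.aeval (h10j k (m * p * p)) f = 0 := by
    rw [hf, h10_aeval_map_evE]
    exact h10_root_j p Φ hΦ k (m * p) hmp
  rw [← hfac, map_mul, map_sub, Polynomial.aeval_X, Polynomial.aeval_C] at hx
  rcases mul_eq_zero.mp hx with h | h
  · exfalso
    have hne : h10j k (m * p * p) ≠ h10j k m := by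
      apply (h10j_ne (A := k) hm (Nat.mul_ne_zero hmp (NeZero.ne p)) ?_).symm
      have h3 : m * 2 ≤ m * p := Nat.mul_le_mul_left m hp1
      have h4 : m * p * 2 ≤ m * p * p := Nat.mul_le_mul_left _ hp1
      have h5 : 0 < m := Nat.pos_of_ne_zero hm
      omega
    exact hne (sub_eq_zero.mp h)
  · exact h

end Poly

section Tower

variable (k : Type) [Field k]

/-- the base field `k(j)` -/
abbrev h10K0 : IntermediateField k (LaurentSeries k) := IntermediateField.adjoin k {jqModC k}

/-- the tower statement: a finite extension of `k(j)` of degree `≤ ψ(N)` inside `k((q))`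
containing all `j(q^d)`, `d ∣ N`. -/
def h10Tower (N : ℕ) : Prop :=
  ∃ E : IntermediateField (h10K0 k) (LaurentSeries k),
    FiniteDimensional (h10K0 k) E ∧ Module.finrank (h10K0 k) E ≤ dedekindPsi N ∧
    ∀ d : ℕ, d ∣ N → h10j k d ∈ E

/-- modular polynomials are available for all primes dividing `N`. -/
def h10HasPolys (N : ℕ) : Prop :=
  ∀ p : ℕ, ∀ hp : p.Prime, p ∣ N → ∃ Φ, @h10IsModPoly p ⟨hp.ne_zero⟩ Φ

theorem h10j_one : h10j k 1 = jqModC k := by
  rw [h10j_eq, qExpand_one_apply]

theorem h10_tower_one : h10Tower k 1 := by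
  refine ⟨⊥, ?_, ?_, ?_⟩
  · infer_instance
  · rw [IntermediateField.finrank_bot, dedekindPsi_one]
  · intro d hd
    rw [Nat.dvd_one] at hd
    subst hd
    rw [h10j_one, IntermediateField.mem_bot]
    exact ⟨⟨jqModC k, IntermediateField.mem_adjoin_simple_self k _⟩, rfl⟩

theorem h10_tower_step (p a : ℕ) (hp : p.Prime) (ha : a ≠ 0) (hpolys : h10HasPolys (p * a))
    (h : h10Tower k a) : h10Tower k (p * a) := by
  classical
  haveI : NeZero p := ⟨hp.ne_zero⟩
  obtain ⟨E, hfd, hrank, hmem⟩ := h
  haveI := hfd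
  obtain ⟨Φ, hΦ⟩ := hpolys p hp (dvd_mul_right p a)
  set kk : ℕ := a.factorization p with hkk
  have hpow_dvd : p ^ kk ∣ a := Nat.ordProj_dvd a p
  -- adjoin the new generator
  have key : ∃ E' : IntermediateField (h10K0 k) (LaurentSeries k),
      FiniteDimensional (h10K0 k) E' ∧ Module.finrank (h10K0 k) E' ≤ dedekindPsi (p * a) ∧
        E ≤ E' ∧ h10j k (p ^ kk * p) ∈ E' := by
    by_cases hpa : p ∣ a
    · have hkpos : 0 < kk := Nat.Prime.factorization_pos_of_dvd hp ha hpa
      obtain ⟨e, he⟩ : ∃ e, kk = e + 1 := ⟨kk - 1, by omega⟩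
      have h1 : h10j k (p ^ e) ∈ E :=
        hmem _ ((pow_dvd_pow p (by omega : e ≤ kk)).trans hpow_dvd)
      have h2 : h10j k (p ^ e * p) ∈ E := by
        rw [← pow_succ, ← he]
        exact hmem _ hpow_dvd
      obtain ⟨f, hfm, hfd', hfr⟩ := h10_poly_next k E p hp.one_lt Φ hΦ (p ^ e)
        (pow_ne_zero _ hp.ne_zero) h1 h2
      obtain ⟨E', h1', h2', h3', h4'⟩ := h10_step E (dedekindPsi a) p hrank _ f hfm hfd' hfr
      refine ⟨E', h1', ?_, h3', ?_⟩
      · rw [h10_psi_mul_of_dvd hp ha hpa, mul_comm]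
        exact h2'
      · rw [he, pow_succ]
        exact h4'
    · have hk0 : kk = 0 := Nat.factorization_eq_zero_of_not_dvd hpa
      have h1 : h10j k 1 ∈ E := hmem 1 (one_dvd a)
      obtain ⟨f, hfm, hfd', hfr⟩ := h10_poly_first k E p Φ hΦ 1 one_ne_zero h1
      obtain ⟨E', h1', h2', h3', h4'⟩ :=
        h10_step E (dedekindPsi a) (p + 1) hrank _ f hfm hfd' hfr
      refine ⟨E', h1', ?_, h3', ?_⟩
      · rw [h10_psi_mul_of_not_dvd hp ha hpa, mul_comm]
        exact h2'
      · rw [hk0, pow_zero]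
        exact h4'
  obtain ⟨E', hfd', hrank', hEE', hgen⟩ := key
  refine ⟨E', hfd', hrank', ?_⟩
  intro d
  induction d using Nat.strong_induction_on with
  | _ d ih =>
    intro hd
    by_cases hda : d ∣ a
    · exact hEE' (hmem d hda)
    have hpane : p * a ≠ 0 := Nat.mul_ne_zero hp.ne_zero ha
    have hd0 : d ≠ 0 := fun h0 => hpane (Nat.eq_zero_of_zero_dvd (h0 ▸ hd))
    have hpd : p ∣ d := by
      by_contra hnp
      have hcop : Nat.Coprime d p := ((Nat.Prime.coprime_iff_not_dvd hp).mpr hnp).symm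
      exact hda (hcop.dvd_of_dvd_mul_left hd)
    by_cases hex : ∃ r : ℕ, r.Prime ∧ r ≠ p ∧ r ∣ d
    · obtain ⟨r, hr, hrp, hrd⟩ := hex
      have hcop : Nat.Coprime p r := (Nat.coprime_primes hp hr).mpr (Ne.symm hrp)
      obtain ⟨m, hm⟩ : p * r ∣ d := hcop.mul_dvd_of_dvd_of_dvd hpd hrd
      have hm0 : m ≠ 0 := by
        rintro rfl
        exact hd0 (by rw [hm, mul_zero])
      obtain ⟨Φr, hΦr⟩ := hpolys r hr (hrd.trans hd)
      rw [hm]
      have hrm : r * m ∣ a := by
        have : p * (r * m) ∣ p * a := by rwa [← mul_assoc, ← hm]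
        exact (Nat.mul_dvd_mul_iff_left hp.pos).mp this
      have hpm : p * m ∣ p * a := by
        refine Dvd.dvd.trans ?_ hd
        rw [hm]
        exact ⟨r, by ring⟩
      have hlt : p * m < d := by
        rw [hm]
        have h1 : p * m * 2 ≤ p * m * r := Nat.mul_le_mul_left _ hr.two_le
        have h2 : 0 < p * m := Nat.mul_pos hp.pos (Nat.pos_of_ne_zero hm0)
        have h3 : p * r * m = p * m * r := by ring
        omega
      exact h10_mixed k E' p r hp hr (Ne.symm hrp) Φ Φr hΦ hΦr m hm0 (hEE' (hmem _ hrm))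
        (ih (p * m) hlt hpm)
    · push Not at hex
      have hpw : d = p ^ d.primeFactorsList.length :=
        Nat.eq_prime_pow_of_unique_prime_dvd hd0 (fun {r} hr hrd => by
          by_contra hne
          exact hex r hr hne hrd)
      set e := d.primeFactorsList.length with he
      have h1 : ¬ e ≤ kk := by
        intro hle
        apply hda
        rw [hpw]
        exact (hp.pow_dvd_iff_le_factorization ha).mpr hle
      have h2 : e ≤ kk + 1 := by
        have h3 : p ^ e ∣ p * a := by rw [← hpw]; exact hd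
        have h4 := (hp.pow_dvd_iff_le_factorization hpane).mp h3
        rw [Nat.factorization_mul hp.ne_zero ha] at h4
        simp only [Finsupp.coe_add, Pi.add_apply, hp.factorization_self] at h4
        omega
      have h3 : e = kk + 1 := by omega
      rw [hpw, h3, pow_succ]
      exact hgen

theorem h10_tower (N : ℕ) (hN : N ≠ 0) (hpolys : h10HasPolys N) : h10Tower k N := by
  induction N using induction_on_primes with
  | zero => exact absurd rfl hN
  | one => exact h10_tower_one k
  | prime_mul p a hp ih =>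
    have ha : a ≠ 0 := fun h0 => hN (by rw [h0, mul_zero])
    refine h10_tower_step k p a hp ha hpolys (ih ha ?_)
    intro r hr hra
    exact hpolys r hr (Dvd.dvd.mul_left hra p)

end Tower

end H28S28
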