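import Mathlib
import Fermat.Agent.S28.WP2Tower

/-!
# S28 WP2 (helper10): `[k(j(q^d) : d ∣ N) : k(j)] ≤ ψ(N)` over any field `k`

Main results (all from the modular equations `HasModEq p`, `p ∣ N` prime):

* `h10_tower` (in `WP2Tower`): an intermediate field `E` of `k((q)) / k(j)`, finite of degree
  `≤ ψ(N)`, containing all `j(q^d)`, `d ∣ N`.
* `h10_finrank_le`: `finrank k(j) (k(j)(j(q^d) : d ∣ N)) ≤ ψ(N)`, with finite-dimensionality.
* `h10_degreeUpperBoundC`: the linear-independence form over any field `k`.
* `h10_degreeUpperBound`: `DegreeUpperBound N` (the case `k = ℚ`).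
-/

set_option autoImplicit false
set_option linter.style.haveILetI false
open ModularCurve HahnSeries Polynomial

noncomputable section

namespace H28S28

theorem h10_hasPolys_of_hasModEq (N : ℕ)
    (h : ∀ p : ℕ, ∀ hp : p.Prime, p ∣ N → @HasModEq p ⟨hp.ne_zero⟩) : h10HasPolys N := by
  intro p hp hpN
  exact @h10_exists_modPoly p ⟨hp.ne_zero⟩ (h p hp hpN)

section Final

variable (k : Type) [Field k] (N : ℕ) [NeZero N]

omit [NeZero N] in
/-- The full function field of level `N` lies in the tower field. -/
theorem h10_full_le (E : IntermediateField (h10K0 k) (LaurentSeries k))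
    (hmem : ∀ d : ℕ, d ∣ N → h10j k d ∈ E) :
    modularFunctionFieldFullC k N ≤ E.restrictScalars k := by
  rw [modularFunctionFieldFullC, IntermediateField.adjoin_le_iff]
  rintro x ⟨d, hne, hdvd, rfl⟩
  haveI := hne
  show qExpand k d (jqModC k) ∈ E
  rw [← h10j_eq]
  exact hmem d hdvd

/-- **WP2 over any field**, linear-independence form. -/
theorem h10_degreeUpperBoundC (hpolys : h10HasPolys N)
    (s : Finset (LaurentSeries k)) (hs : ∀ x ∈ s, x ∈ modularFunctionFieldFullC k N)
    (hli : LinearIndependent (↥(IntermediateField.adjoin k {jqModC k}))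
      (fun x : s => (x : LaurentSeries k))) :
    s.card ≤ dedekindPsi N := by
  obtain ⟨E, hfd, hrank, hmem⟩ := h10_tower k N (NeZero.ne N) hpolys
  haveI := hfd
  have hle := h10_full_le k N E hmem
  have hsE : ∀ x : s, (x : LaurentSeries k) ∈ E := fun x => hle (hs x x.2)
  set v : s → E := fun x => ⟨(x : LaurentSeries k), hsE x⟩ with hv
  have hli' : LinearIndependent (h10K0 k) v := by
    apply LinearIndependent.of_comp E.val.toLinearMap
    exact hli
  have hcard := hli'.fintype_card_le_finrank
  rw [Fintype.card_coe] at hcard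
  exact hcard.trans hrank

/-- **WP2**: `[F_N : ℚ(j)] ≤ ψ(N)`. -/
theorem h10_degreeUpperBound
    (h : ∀ p : ℕ, ∀ hp : p.Prime, p ∣ N → @HasModEq p ⟨hp.ne_zero⟩) : DegreeUpperBound N := by
  intro s hs hli
  exact h10_degreeUpperBoundC ℚ N (h10_hasPolys_of_hasModEq N h) s hs hli

/-- **WP2 over any field** in the form used by `DegreeLowerBound`-type statements: every finite
family in `k(j(q^d) : d ∣ N)` that is linearly independent over `k(j)` has at most `ψ(N)`
members; stated with `HasModEq`. -/
theorem h10_degreeUpperBoundC'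
    (h : ∀ p : ℕ, ∀ hp : p.Prime, p ∣ N → @HasModEq p ⟨hp.ne_zero⟩)
    (s : Finset (LaurentSeries k)) (hs : ∀ x ∈ s, x ∈ modularFunctionFieldFullC k N)
    (hli : LinearIndependent (↥(IntermediateField.adjoin k {jqModC k}))
      (fun x : s => (x : LaurentSeries k))) :
    s.card ≤ dedekindPsi N :=
  h10_degreeUpperBoundC k N (h10_hasPolys_of_hasModEq N h) s hs hli

end Final

end H28S28
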