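import Mathlib
import Fermat.Prelude.Def_GaloisRep_Flat

/-!
# S28, V1 (helper28 version, used by Val.lean): basics on `ℤ_(ℓ) = GaloisRep.ratLocalizedAt ℓ`
-/

set_option autoImplicit false

noncomputable section

namespace H28S28

variable (ℓ : ℕ) [Fact ℓ.Prime]

omit [Fact ℓ.Prime] in
theorem zl_mem_iff (x : ℚ) : x ∈ GaloisRep.ratLocalizedAt ℓ ↔ x.den.Coprime ℓ := Iff.rfl

theorem zl_den_ne_zero_of_coprime {n : ℕ} (h : n.Coprime ℓ) : ((n : ℕ) : ZMod ℓ) ≠ 0 := by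
  rw [Ne, ZMod.natCast_eq_zero_iff]
  intro hd
  have h1 : ℓ = 1 := Nat.Coprime.eq_one_of_dvd h.symm hd
  exact (Fact.out : ℓ.Prime).one_lt.ne' h1

theorem zl_den_ne_zero (x : ↥(GaloisRep.ratLocalizedAt ℓ)) : (((x : ℚ).den : ℕ) : ZMod ℓ) ≠ 0 :=
  zl_den_ne_zero_of_coprime ℓ x.2

/-- reduction `ℤ_(ℓ) → 𝔽_ℓ` -/
def zlRed : ↥(GaloisRep.ratLocalizedAt ℓ) →+* ZMod ℓ where
  toFun x := ((x : ℚ) : ZMod ℓ)
  map_one' := by simp
  map_mul' x y := by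
    show (((x * y : ↥(GaloisRep.ratLocalizedAt ℓ)) : ℚ) : ZMod ℓ) = _
    rw [Subring.coe_mul]
    exact Rat.cast_mul_of_ne_zero (zl_den_ne_zero ℓ x) (zl_den_ne_zero ℓ y)
  map_zero' := by simp
  map_add' x y := by
    show (((x + y : ↥(GaloisRep.ratLocalizedAt ℓ)) : ℚ) : ZMod ℓ) = _
    rw [Subring.coe_add]
    exact Rat.cast_add_of_ne_zero (zl_den_ne_zero ℓ x) (zl_den_ne_zero ℓ y)

theorem zlRed_apply (x : ↥(GaloisRep.ratLocalizedAt ℓ)) : zlRed ℓ x = ((x : ℚ) : ZMod ℓ) := rfl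

omit [Fact ℓ.Prime] in
theorem int_mem_zl (n : ℤ) : (n : ℚ) ∈ GaloisRep.ratLocalizedAt ℓ := by
  rw [zl_mem_iff]
  simp

theorem zlRed_intCast (n : ℤ) : zlRed ℓ (n : ↥(GaloisRep.ratLocalizedAt ℓ)) = (n : ZMod ℓ) :=
  map_intCast _ n

theorem zlRed_surjective : Function.Surjective (zlRed ℓ) := by
  intro a
  refine ⟨((ZMod.val a : ℕ) : ↥(GaloisRep.ratLocalizedAt ℓ)), ?_⟩
  rw [map_natCast]
  exact ZMod.natCast_zmod_val a

theorem zlRed_eq_zero_iff_dvd_num (x : ↥(GaloisRep.ratLocalizedAt ℓ)) :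
    zlRed ℓ x = 0 ↔ (ℓ : ℤ) ∣ (x : ℚ).num := by
  rw [zlRed_apply, Rat.cast_def, div_eq_zero_iff]
  constructor
  · rintro (h | h)
    · exact (ZMod.intCast_zmod_eq_zero_iff_dvd _ _).mp h
    · exact absurd h (zl_den_ne_zero ℓ x)
  · intro h
    exact Or.inl ((ZMod.intCast_zmod_eq_zero_iff_dvd _ _).mpr h)

theorem zlRed_eq_zero_iff (x : ↥(GaloisRep.ratLocalizedAt ℓ)) :
    zlRed ℓ x = 0 ↔ ∃ y : ↥(GaloisRep.ratLocalizedAt ℓ), x = (ℓ : ↥(GaloisRep.ratLocalizedAt ℓ)) * y := by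
  constructor
  · intro h
    rw [zlRed_eq_zero_iff_dvd_num] at h
    obtain ⟨m, hm⟩ := h
    have hy : ((m : ℚ) / ((x : ℚ).den : ℚ)) ∈ GaloisRep.ratLocalizedAt ℓ := by
      rw [zl_mem_iff]
      have hd : ((m : ℚ) / ((x : ℚ).den : ℚ)).den ∣ (x : ℚ).den := by
        have := Rat.den_dvd m ((x : ℚ).den : ℤ)
        rw [Rat.divInt_eq_div] at this
        exact_mod_cast this
      exact Nat.Coprime.coprime_dvd_left hd x.2
    refine ⟨⟨_, hy⟩, Subtype.ext ?_⟩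
    rw [Subring.coe_mul]
    have hx : (x : ℚ) = ((x : ℚ).num : ℚ) / ((x : ℚ).den : ℚ) := (Rat.num_div_den _).symm
    have hden : (((x : ℚ).den : ℕ) : ℚ) ≠ 0 := by exact_mod_cast (x : ℚ).den_nz
    show (x : ℚ) = ((ℓ : ↥(GaloisRep.ratLocalizedAt ℓ)) : ℚ) * ((m : ℚ) / ((x : ℚ).den : ℚ))
    rw [show ((ℓ : ↥(GaloisRep.ratLocalizedAt ℓ)) : ℚ) = (ℓ : ℚ) from by simp]
    conv_lhs => rw [hx, hm]
    push_cast
    ring
  · rintro ⟨y, rfl⟩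
    rw [map_mul, map_natCast, ZMod.natCast_self, zero_mul]

/-- `ℓ`-adic decomposition of a nonzero rational: `x = ℓ^n u` with `u` a unit of `ℤ_(ℓ)`. -/
theorem rat_exists_zpow_mul (x : ℚ) (hx : x ≠ 0) :
    ∃ (n : ℤ) (u : ↥(GaloisRep.ratLocalizedAt ℓ)), zlRed ℓ u ≠ 0 ∧ x = (ℓ : ℚ) ^ n * (u : ℚ) := by
  have hℓ : (ℓ : ℚ) ≠ 0 := by exact_mod_cast (Fact.out : ℓ.Prime).ne_zero
  set n := padicValRat ℓ x with hn
  set u : ℚ := x * (ℓ : ℚ) ^ (-n) with hu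
  have hu0 : u ≠ 0 := mul_ne_zero hx (zpow_ne_zero _ hℓ)
  have hval : padicValRat ℓ u = 0 := by
    rw [hu, padicValRat.mul hx (zpow_ne_zero _ hℓ), padicValRat.zpow, padicValRat.self
      (Fact.out : ℓ.Prime).one_lt]
    simp [hn]
  have hnum0 : u.num ≠ 0 := Rat.num_ne_zero.mpr hu0
  have hsub : (padicValInt ℓ u.num : ℤ) - (padicValNat ℓ u.den : ℤ) = 0 := by
    rw [← hval]; rfl
  have hcop : Nat.Coprime u.num.natAbs u.den := u.reduced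
  have hden : ¬ ℓ ∣ u.den := by
    intro hd
    have h1 : 1 ≤ padicValNat ℓ u.den :=
      one_le_padicValNat_of_dvd (Nat.pos_of_ne_zero u.den_nz).ne' hd
    have h2 : 1 ≤ padicValInt ℓ u.num := by omega
    have h3 : ℓ ∣ u.num.natAbs := by
      have : padicValNat ℓ u.num.natAbs ≠ 0 := by
        unfold padicValInt at h2; omega
      exact dvd_of_one_le_padicValNat (by omega)
    have h4 : ℓ ∣ Nat.gcd u.num.natAbs u.den := Nat.dvd_gcd h3 hd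
    rw [hcop] at h4
    exact (Fact.out : ℓ.Prime).one_lt.ne' (Nat.dvd_one.mp h4)
  have hnum : ¬ (ℓ : ℤ) ∣ u.num := by
    intro hd
    have h1 : 1 ≤ padicValInt ℓ u.num := by
      unfold padicValInt
      apply one_le_padicValNat_of_dvd (Int.natAbs_ne_zero.mpr hnum0)
      exact Int.natCast_dvd.mp hd
    have h2 : 1 ≤ padicValNat ℓ u.den := by omega
    exact hden (dvd_of_one_le_padicValNat h2)
  have hmem : u ∈ GaloisRep.ratLocalizedAt ℓ := by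
    rw [zl_mem_iff]
    exact ((Nat.Prime.coprime_iff_not_dvd (Fact.out : ℓ.Prime)).mpr hden).symm
  refine ⟨n, ⟨u, hmem⟩, ?_, ?_⟩
  · rw [Ne, zlRed_eq_zero_iff_dvd_num]
    exact hnum
  · show x = (ℓ : ℚ) ^ n * u
    rw [hu, mul_comm x, ← mul_assoc, ← zpow_add₀ hℓ]
    simp

/-- `ℓ`-adic decomposition of a nonzero element of `ℤ_(ℓ)`. -/
theorem zl_exists_pow_mul (x : ↥(GaloisRep.ratLocalizedAt ℓ)) (hx : x ≠ 0) :
    ∃ (n : ℕ) (u : ↥(GaloisRep.ratLocalizedAt ℓ)), zlRed ℓ u ≠ 0 ∧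
      x = (ℓ : ↥(GaloisRep.ratLocalizedAt ℓ)) ^ n * u := by
  have hx' : (x : ℚ) ≠ 0 := fun h => hx (Subtype.ext h)
  obtain ⟨n, u, hu, hxu⟩ := rat_exists_zpow_mul ℓ (x : ℚ) hx'
  have hℓ : (ℓ : ℚ) ≠ 0 := by exact_mod_cast (Fact.out : ℓ.Prime).ne_zero
  have hn : 0 ≤ n := by
    by_contra hneg
    rw [not_le] at hneg
    -- then ℓ^(-n) * x = u, so zlRed u = 0
    obtain ⟨m, hm⟩ : ∃ m : ℕ, -n = (m : ℤ) + 1 := ⟨(-n - 1).toNat, by omega⟩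
    have h1 : (u : ℚ) = (ℓ : ℚ) ^ (m + 1) * (x : ℚ) := by
      rw [hxu, ← mul_assoc, ← zpow_natCast, ← zpow_add₀ hℓ]
      have : ((m + 1 : ℕ) : ℤ) + n = 0 := by push_cast; omega
      rw [this, zpow_zero, one_mul]
    have h2 : u = (ℓ : ↥(GaloisRep.ratLocalizedAt ℓ)) * ((ℓ : ↥(GaloisRep.ratLocalizedAt ℓ)) ^ m * x) := by
      apply Subtype.ext
      rw [h1]
      push_cast
      ring
    exact hu ((zlRed_eq_zero_iff ℓ u).mpr ⟨_, h2⟩)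
  obtain ⟨m, rfl⟩ := Int.eq_ofNat_of_zero_le hn
  refine ⟨m, u, hu, Subtype.ext ?_⟩
  rw [hxu]
  push_cast
  rfl

end H28S28
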