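import Mathlib
import Fermat.Prelude.Def_ModularCurve_IgusaScheme
import Fermat.Prelude.Def_ModularCurve_X0ModL
import Fermat.Agent.S28.ZlRed

/-!
# S28, valuation step, part 1: `ℓ`-integral Laurent series and the valuation ring `O`

`LR = LaurentSeries ℤ_(ℓ)`, `ε : LR → LaurentSeries ℚ`, `ρ : LR → LaurentSeries 𝔽_ℓ`.
`Obig = { f / g : f, g ∈ LR, ρ g ≠ 0 } ⊂ LaurentSeries ℚ` with its reduction map.
-/

set_option autoImplicit false
open ModularCurve HahnSeries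

noncomputable section

namespace H28S28

variable (ℓ : ℕ) [Fact ℓ.Prime]

/-- embedding of `ℓ`-integral series into rational series -/
def epsL : LaurentSeries ↥(GaloisRep.ratLocalizedAt ℓ) →+* LaurentSeries ℚ :=
  coeffMap (GaloisRep.ratLocalizedAt ℓ).subtype

/-- reduction of `ℓ`-integral series mod `ℓ` -/
def rhoL : LaurentSeries ↥(GaloisRep.ratLocalizedAt ℓ) →+* LaurentSeries (ZMod ℓ) :=
  coeffMap (zlRed ℓ)

omit [Fact ℓ.Prime] in
@[simp] theorem epsL_coeff (f : LaurentSeries ↥(GaloisRep.ratLocalizedAt ℓ)) (n : ℤ) :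
    (epsL ℓ f).coeff n = ((f.coeff n : ↥(GaloisRep.ratLocalizedAt ℓ)) : ℚ) := rfl

@[simp] theorem rhoL_coeff (f : LaurentSeries ↥(GaloisRep.ratLocalizedAt ℓ)) (n : ℤ) :
    (rhoL ℓ f).coeff n = zlRed ℓ (f.coeff n) := rfl

omit [Fact ℓ.Prime] in
theorem epsL_injective : Function.Injective (epsL ℓ) := by
  intro f g h
  ext n
  have := congrArg (fun x => x.coeff n) h
  simp only [epsL_coeff] at this
  exact_mod_cast this

omit [Fact ℓ.Prime] in
/-- lifting a rational series with `ℓ`-integral coefficients -/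
theorem exists_epsL_eq (x : LaurentSeries ℚ) (h : ∀ n, x.coeff n ∈ GaloisRep.ratLocalizedAt ℓ) :
    ∃ f : LaurentSeries ↥(GaloisRep.ratLocalizedAt ℓ), epsL ℓ f = x := by
  refine ⟨⟨fun n => ⟨x.coeff n, h n⟩, x.isPWO_support.mono ?_⟩, ?_⟩
  · intro n hn
    rw [Function.mem_support] at hn
    rw [HahnSeries.mem_support]
    intro h0
    exact hn (Subtype.ext h0)
  · ext n
    rfl

theorem rhoL_eq_zero_iff (f : LaurentSeries ↥(GaloisRep.ratLocalizedAt ℓ)) :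
    rhoL ℓ f = 0 ↔ ∃ g : LaurentSeries ↥(GaloisRep.ratLocalizedAt ℓ),
      f = (ℓ : LaurentSeries ↥(GaloisRep.ratLocalizedAt ℓ)) * g := by
  have hℓ : (ℓ : ℚ) ≠ 0 := by exact_mod_cast (Fact.out : ℓ.Prime).ne_zero
  constructor
  · intro h
    have hc : ∀ n, zlRed ℓ (f.coeff n) = 0 := fun n => by
      have := congrArg (fun x => x.coeff n) h
      simpa using this
    have hmem : ∀ n, ((ℓ : ℚ)⁻¹ • epsL ℓ f).coeff n ∈ GaloisRep.ratLocalizedAt ℓ := by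
      intro n
      obtain ⟨y, hy⟩ := (zlRed_eq_zero_iff ℓ (f.coeff n)).mp (hc n)
      have : ((ℓ : ℚ)⁻¹ • epsL ℓ f).coeff n = (y : ℚ) := by
        rw [HahnSeries.coeff_smul, epsL_coeff, hy]
        push_cast
        rw [smul_eq_mul, ← mul_assoc, inv_mul_cancel₀ hℓ, one_mul]
      rw [this]
      exact y.2
    obtain ⟨g, hg⟩ := exists_epsL_eq ℓ _ hmem
    refine ⟨g, epsL_injective ℓ ?_⟩
    rw [map_mul, hg, map_natCast]
    ext n
    rw [show ((ℓ : LaurentSeries ℚ)) = HahnSeries.C (ℓ : ℚ) from (map_natCast _ ℓ).symm,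
      HahnSeries.C_mul_eq_smul, HahnSeries.coeff_smul, HahnSeries.coeff_smul, smul_eq_mul,
      smul_eq_mul, ← mul_assoc, mul_inv_cancel₀ hℓ, one_mul]
  · rintro ⟨g, rfl⟩
    rw [map_mul, map_natCast]
    have : ((ℓ : ℕ) : LaurentSeries (ZMod ℓ)) = 0 := by
      rw [show ((ℓ : LaurentSeries (ZMod ℓ))) = HahnSeries.C (ℓ : ZMod ℓ) from
        (map_natCast _ ℓ).symm, ZMod.natCast_self, map_zero]
    rw [this, zero_mul]

/-- primitive decomposition of a nonzero `ℓ`-integral series -/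
theorem exists_pow_mul_primitive (f : LaurentSeries ↥(GaloisRep.ratLocalizedAt ℓ)) (hf : f ≠ 0) :
    ∃ (a : ℕ) (f₀ : LaurentSeries ↥(GaloisRep.ratLocalizedAt ℓ)), rhoL ℓ f₀ ≠ 0 ∧
      f = (ℓ : LaurentSeries ↥(GaloisRep.ratLocalizedAt ℓ)) ^ a * f₀ := by
  -- pick a nonzero coefficient and induct on its valuation
  obtain ⟨n₀, hn₀⟩ : ∃ n₀, f.coeff n₀ ≠ 0 := by
    by_contra h
    push Not at h
    exact hf (HahnSeries.ext (funext h))
  obtain ⟨m, u, hu, hmu⟩ := zl_exists_pow_mul ℓ (f.coeff n₀) hn₀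
  induction m generalizing f u with
  | zero =>
    refine ⟨0, f, ?_, by simp⟩
    intro h0
    have := congrArg (fun x => x.coeff n₀) h0
    simp only [rhoL_coeff, HahnSeries.coeff_zero] at this
    rw [hmu, pow_zero, one_mul] at this
    exact hu this
  | succ m ih =>
    by_cases h0 : rhoL ℓ f = 0
    · obtain ⟨g, hg⟩ := (rhoL_eq_zero_iff ℓ f).mp h0
      have hℓR : (ℓ : ↥(GaloisRep.ratLocalizedAt ℓ)) ≠ 0 := by
        intro h
        have := congrArg (fun x : ↥(GaloisRep.ratLocalizedAt ℓ) => (x : ℚ)) h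
        simp only [Subring.coe_natCast, ZeroMemClass.coe_zero] at this
        exact (by exact_mod_cast (Fact.out : ℓ.Prime).ne_zero : (ℓ : ℚ) ≠ 0) this
      have hcoeff : f.coeff n₀ = (ℓ : ↥(GaloisRep.ratLocalizedAt ℓ)) * g.coeff n₀ := by
        rw [hg, show ((ℓ : LaurentSeries ↥(GaloisRep.ratLocalizedAt ℓ))) =
          HahnSeries.C (ℓ : ↥(GaloisRep.ratLocalizedAt ℓ)) from (map_natCast _ ℓ).symm,
          HahnSeries.C_mul_eq_smul, HahnSeries.coeff_smul, smul_eq_mul]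
      have hg0 : g.coeff n₀ = (ℓ : ↥(GaloisRep.ratLocalizedAt ℓ)) ^ m * u := by
        have h1 : (ℓ : ↥(GaloisRep.ratLocalizedAt ℓ)) * g.coeff n₀ =
            (ℓ : ↥(GaloisRep.ratLocalizedAt ℓ)) * ((ℓ : ↥(GaloisRep.ratLocalizedAt ℓ)) ^ m * u) := by
          rw [← hcoeff, hmu, pow_succ]; ring
        exact mul_left_cancel₀ hℓR h1
      have hgne : g ≠ 0 := by
        rintro rfl
        rw [mul_zero] at hg
        exact hf hg
      have hgc : g.coeff n₀ ≠ 0 := by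
        intro h
        rw [h, mul_zero] at hcoeff
        exact hn₀ hcoeff
      obtain ⟨a, f₀, hf₀, hgf⟩ := ih g hgne hgc u hu hg0
      exact ⟨a + 1, f₀, hf₀, by rw [hg, hgf, pow_succ]; ring⟩
    · exact ⟨0, f, h0, by simp⟩


/-! ### The valuation ring -/

/-- the valuation ring of the `ℓ`-adic Gauss valuation on (the fraction field of) `ℓ`-integral
Laurent series, inside `ℚ((q))` -/
def Obig : Subring (LaurentSeries ℚ) where
  carrier := {x | ∃ f g : LaurentSeries ↥(GaloisRep.ratLocalizedAt ℓ),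
    rhoL ℓ g ≠ 0 ∧ x * epsL ℓ g = epsL ℓ f}
  mul_mem' := by
    rintro x y ⟨f, g, hg, h⟩ ⟨f', g', hg', h'⟩
    refine ⟨f * f', g * g', ?_, ?_⟩
    · rw [map_mul]; exact mul_ne_zero hg hg'
    · rw [map_mul, map_mul, ← h, ← h']; ring
  one_mem' := ⟨1, 1, by rw [map_one]; exact one_ne_zero, by simp⟩
  add_mem' := by
    rintro x y ⟨f, g, hg, h⟩ ⟨f', g', hg', h'⟩
    refine ⟨f * g' + f' * g, g * g', ?_, ?_⟩
    · rw [map_mul]; exact mul_ne_zero hg hg'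
    · rw [map_add, map_mul, map_mul, map_mul, ← h, ← h']; ring
  zero_mem' := ⟨0, 1, by rw [map_one]; exact one_ne_zero, by simp⟩
  neg_mem' := by
    rintro x ⟨f, g, hg, h⟩
    exact ⟨-f, g, hg, by rw [map_neg, ← h]; ring⟩

theorem mem_Obig_iff (x : LaurentSeries ℚ) : x ∈ Obig ℓ ↔
    ∃ f g : LaurentSeries ↥(GaloisRep.ratLocalizedAt ℓ),
      rhoL ℓ g ≠ 0 ∧ x * epsL ℓ g = epsL ℓ f := Iff.rfl

theorem epsL_mem_Obig (f : LaurentSeries ↥(GaloisRep.ratLocalizedAt ℓ)) : epsL ℓ f ∈ Obig ℓ :=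
  ⟨f, 1, by rw [map_one]; exact one_ne_zero, by simp⟩

/-- the reduction map as a function -/
def redFun (x : Obig ℓ) : LaurentSeries (ZMod ℓ) :=
  rhoL ℓ (Classical.choose x.2) / rhoL ℓ (Classical.choose (Classical.choose_spec x.2))

theorem rho_div_eq_of_rep (x : LaurentSeries ℚ)
    (f g f' g' : LaurentSeries ↥(GaloisRep.ratLocalizedAt ℓ))
    (hg : rhoL ℓ g ≠ 0) (h : x * epsL ℓ g = epsL ℓ f)
    (hg' : rhoL ℓ g' ≠ 0) (h' : x * epsL ℓ g' = epsL ℓ f') :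
    rhoL ℓ f' / rhoL ℓ g' = rhoL ℓ f / rhoL ℓ g := by
  rw [div_eq_div_iff hg' hg, ← map_mul, ← map_mul]
  congr 1
  apply epsL_injective ℓ
  rw [map_mul, map_mul, ← h, ← h']
  ring

theorem redFun_eq (x : Obig ℓ) (f g : LaurentSeries ↥(GaloisRep.ratLocalizedAt ℓ))
    (hg : rhoL ℓ g ≠ 0) (h : (x : LaurentSeries ℚ) * epsL ℓ g = epsL ℓ f) :
    redFun ℓ x = rhoL ℓ f / rhoL ℓ g := by
  have hs := Classical.choose_spec (Classical.choose_spec x.2)
  exact rho_div_eq_of_rep ℓ (x : LaurentSeries ℚ) f g _ _ hg h hs.1 hs.2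

/-- the reduction map `O → 𝔽_ℓ((q))` -/
def redHom : Obig ℓ →+* LaurentSeries (ZMod ℓ) where
  toFun := redFun ℓ
  map_one' := by
    rw [redFun_eq ℓ 1 1 1 (by rw [map_one]; exact one_ne_zero) (by simp), map_one, div_one]
  map_mul' := by
    rintro ⟨x, f, g, hg, h⟩ ⟨y, f', g', hg', h'⟩
    rw [redFun_eq ℓ ⟨x, f, g, hg, h⟩ f g hg h, redFun_eq ℓ ⟨y, f', g', hg', h'⟩ f' g' hg' h',
      redFun_eq ℓ _ (f * f') (g * g') (by rw [map_mul]; exact mul_ne_zero hg hg')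
        (by show x * y * _ = _; rw [map_mul, map_mul, ← h, ← h']; ring),
      map_mul, map_mul, div_mul_div_comm]
  map_zero' := by
    rw [redFun_eq ℓ 0 0 1 (by rw [map_one]; exact one_ne_zero) (by simp), map_zero, zero_div]
  map_add' := by
    rintro ⟨x, f, g, hg, h⟩ ⟨y, f', g', hg', h'⟩
    rw [redFun_eq ℓ ⟨x, f, g, hg, h⟩ f g hg h, redFun_eq ℓ ⟨y, f', g', hg', h'⟩ f' g' hg' h',
      redFun_eq ℓ _ (f * g' + f' * g) (g * g') (by rw [map_mul]; exact mul_ne_zero hg hg')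
        (by show (x + y) * _ = _; rw [map_add, map_mul, map_mul, map_mul, ← h, ← h']; ring),
      map_add, map_mul, map_mul, map_mul, div_add_div _ _ hg hg']
    congr 1
    ring

theorem redHom_eq (x : Obig ℓ) (f g : LaurentSeries ↥(GaloisRep.ratLocalizedAt ℓ))
    (hg : rhoL ℓ g ≠ 0) (h : (x : LaurentSeries ℚ) * epsL ℓ g = epsL ℓ f) :
    redHom ℓ x = rhoL ℓ f / rhoL ℓ g := redFun_eq ℓ x f g hg h

theorem redHom_epsL (f : LaurentSeries ↥(GaloisRep.ratLocalizedAt ℓ)) :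
    redHom ℓ ⟨epsL ℓ f, epsL_mem_Obig ℓ f⟩ = rhoL ℓ f := by
  rw [redHom_eq ℓ ⟨epsL ℓ f, epsL_mem_Obig ℓ f⟩ f 1 (by rw [map_one]; exact one_ne_zero)
    (by rw [map_one, mul_one]), map_one, div_one]

theorem natCast_ne_zero_LQ : ((ℓ : ℕ) : LaurentSeries ℚ) ≠ 0 := by
  have hℓ : (ℓ : ℚ) ≠ 0 := by exact_mod_cast (Fact.out : ℓ.Prime).ne_zero
  rw [show ((ℓ : LaurentSeries ℚ)) = HahnSeries.C (ℓ : ℚ) from (map_natCast _ ℓ).symm]
  exact fun h => hℓ (HahnSeries.C_injective (by rw [h, map_zero]))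

theorem natCast_eq_zero_Lk : ((ℓ : ℕ) : LaurentSeries (ZMod ℓ)) = 0 := by
  rw [show ((ℓ : LaurentSeries (ZMod ℓ))) = HahnSeries.C (ℓ : ZMod ℓ) from
    (map_natCast _ ℓ).symm, ZMod.natCast_self, map_zero]

theorem inv_natCast_mul_mem_Obig (x : Obig ℓ) (h0 : redHom ℓ x = 0) :
    ((ℓ : LaurentSeries ℚ))⁻¹ * (x : LaurentSeries ℚ) ∈ Obig ℓ := by
  obtain ⟨x, f, g, hg, h⟩ := x
  rw [redHom_eq ℓ ⟨x, f, g, hg, h⟩ f g hg h, div_eq_zero_iff] at h0
  rcases h0 with h0 | h0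
  · obtain ⟨f₁, hf₁⟩ := (rhoL_eq_zero_iff ℓ f).mp h0
    have hℓ := natCast_ne_zero_LQ ℓ
    refine ⟨f₁, g, hg, ?_⟩
    have h2 : x * epsL ℓ g = (ℓ : LaurentSeries ℚ) * epsL ℓ f₁ := by
      rw [h, hf₁, map_mul, map_natCast]
    calc (ℓ : LaurentSeries ℚ)⁻¹ * x * epsL ℓ g
        = (ℓ : LaurentSeries ℚ)⁻¹ * (x * epsL ℓ g) := by ring
      _ = epsL ℓ f₁ := by rw [h2, ← mul_assoc, inv_mul_cancel₀ hℓ, one_mul]
  · exact absurd h0 hg

/-- the kernel of the reduction map is `ℓ O` -/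
theorem redHom_eq_zero_iff (x : Obig ℓ) :
    redHom ℓ x = 0 ↔ ∃ y : Obig ℓ, (x : LaurentSeries ℚ) = (ℓ : LaurentSeries ℚ) * y := by
  constructor
  · intro h0
    refine ⟨⟨_, inv_natCast_mul_mem_Obig ℓ x h0⟩, ?_⟩
    have hℓ := natCast_ne_zero_LQ ℓ
    simp only
    rw [← mul_assoc, mul_inv_cancel₀ hℓ, one_mul]
  · rintro ⟨y, hy⟩
    have hx : x = (ℓ : Obig ℓ) * y := Subtype.ext (by rw [hy]; rfl)
    rw [hx, map_mul, map_natCast, natCast_eq_zero_Lk, zero_mul]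

/-- elements of `O` with nonzero reduction are units of `O` -/
theorem inv_mem_Obig (x : Obig ℓ) (hx : redHom ℓ x ≠ 0) : ((x : LaurentSeries ℚ))⁻¹ ∈ Obig ℓ := by
  obtain ⟨x, f, g, hg, h⟩ := x
  rw [redHom_eq ℓ ⟨x, f, g, hg, h⟩ f g hg h] at hx
  have hf : rhoL ℓ f ≠ 0 := fun h0 => hx (by rw [h0, zero_div])
  have hg0 : epsL ℓ g ≠ 0 := fun h0 => hg (by
    rw [(epsL_injective ℓ) (h0.trans (map_zero _).symm), map_zero])
  have hf0 : epsL ℓ f ≠ 0 := fun h0 => hf (by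
    rw [(epsL_injective ℓ) (h0.trans (map_zero _).symm), map_zero])
  have hx0 : x ≠ 0 := by
    rintro rfl
    rw [zero_mul] at h
    exact hf0 h.symm
  refine ⟨g, f, hf, ?_⟩
  show x⁻¹ * epsL ℓ f = epsL ℓ g
  rw [← h, ← mul_assoc, inv_mul_cancel₀ hx0, one_mul]

theorem redHom_inv (x : Obig ℓ) (hx : redHom ℓ x ≠ 0) :
    redHom ℓ ⟨_, inv_mem_Obig ℓ x hx⟩ = (redHom ℓ x)⁻¹ := by
  have h1 : redHom ℓ x * redHom ℓ ⟨_, inv_mem_Obig ℓ x hx⟩ = 1 := by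
    rw [← map_mul]
    have : x * ⟨_, inv_mem_Obig ℓ x hx⟩ = 1 := by
      apply Subtype.ext
      show (x : LaurentSeries ℚ) * (x : LaurentSeries ℚ)⁻¹ = 1
      apply mul_inv_cancel₀
      intro h0
      apply hx
      have : x = 0 := Subtype.ext h0
      rw [this, map_zero]
    rw [this, map_one]
  exact eq_inv_of_mul_eq_one_right h1

/-! ### The field of fractions of `ℓ`-integral series -/

/-- the subfield of `ℚ((q))` of quotients of `ℓ`-integral series -/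
def Fbig : Subfield (LaurentSeries ℚ) where
  carrier := {x | ∃ f g : LaurentSeries ↥(GaloisRep.ratLocalizedAt ℓ),
    g ≠ 0 ∧ x * epsL ℓ g = epsL ℓ f}
  mul_mem' := by
    rintro x y ⟨f, g, hg, h⟩ ⟨f', g', hg', h'⟩
    refine ⟨f * f', g * g', mul_ne_zero hg hg', ?_⟩
    rw [map_mul, map_mul, ← h, ← h']; ring
  one_mem' := ⟨1, 1, one_ne_zero, by simp⟩
  add_mem' := by
    rintro x y ⟨f, g, hg, h⟩ ⟨f', g', hg', h'⟩
    refine ⟨f * g' + f' * g, g * g', mul_ne_zero hg hg', ?_⟩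
    rw [map_add, map_mul, map_mul, map_mul, ← h, ← h']; ring
  zero_mem' := ⟨0, 1, one_ne_zero, by simp⟩
  neg_mem' := by
    rintro x ⟨f, g, hg, h⟩
    exact ⟨-f, g, hg, by rw [map_neg, ← h]; ring⟩
  inv_mem' := by
    rintro x ⟨f, g, hg, h⟩
    by_cases hx : x = 0
    · subst hx
      exact ⟨0, 1, one_ne_zero, by simp⟩
    · have hg0 : epsL ℓ g ≠ 0 := fun h0 => hg ((epsL_injective ℓ) (h0.trans (map_zero _).symm))
      have hf : f ≠ 0 := by
        rintro rfl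
        rw [map_zero] at h
        exact (mul_ne_zero hx hg0) h
      refine ⟨g, f, hf, ?_⟩
      rw [← h, ← mul_assoc, inv_mul_cancel₀ hx, one_mul]

omit [Fact ℓ.Prime] in
theorem mem_Fbig_iff (x : LaurentSeries ℚ) : x ∈ Fbig ℓ ↔
    ∃ f g : LaurentSeries ↥(GaloisRep.ratLocalizedAt ℓ), g ≠ 0 ∧ x * epsL ℓ g = epsL ℓ f :=
  Iff.rfl

omit [Fact ℓ.Prime] in
theorem epsL_mem_Fbig (f : LaurentSeries ↥(GaloisRep.ratLocalizedAt ℓ)) : epsL ℓ f ∈ Fbig ℓ :=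
  ⟨f, 1, one_ne_zero, by simp⟩

/-- `ℓ`-adic decomposition in `Fbig`: every nonzero element is `ℓ^n` times a unit of `O`. -/
theorem exists_zpow_mul_unit (x : LaurentSeries ℚ) (hx : x ∈ Fbig ℓ) (hx0 : x ≠ 0) :
    ∃ (n : ℤ) (o : Obig ℓ), redHom ℓ o ≠ 0 ∧ x = (ℓ : LaurentSeries ℚ) ^ n * (o : LaurentSeries ℚ) := by
  obtain ⟨f, g, hg, h⟩ := hx
  have hg0 : epsL ℓ g ≠ 0 := fun h0 => hg ((epsL_injective ℓ) (h0.trans (map_zero _).symm))
  have hf : f ≠ 0 := by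
    rintro rfl
    rw [map_zero] at h
    exact (mul_ne_zero hx0 hg0) h
  obtain ⟨a, f₀, hf₀, hff⟩ := exists_pow_mul_primitive ℓ f hf
  obtain ⟨b, g₀, hg₀, hgg⟩ := exists_pow_mul_primitive ℓ g hg
  have hℓ := natCast_ne_zero_LQ ℓ
  have hg₀' : epsL ℓ g₀ ≠ 0 := fun h0 => hg₀ (by
    rw [(epsL_injective ℓ) (h0.trans (map_zero _).symm), map_zero])
  have ho : epsL ℓ f₀ / epsL ℓ g₀ ∈ Obig ℓ :=
    ⟨f₀, g₀, hg₀, by rw [div_mul_cancel₀ _ hg₀']⟩
  refine ⟨(a : ℤ) - b, ⟨_, ho⟩, ?_, ?_⟩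
  · rw [redHom_eq ℓ ⟨_, ho⟩ f₀ g₀ hg₀ (div_mul_cancel₀ _ hg₀')]
    exact div_ne_zero hf₀ hg₀
  · show x = _ * (epsL ℓ f₀ / epsL ℓ g₀)
    have hx : x = epsL ℓ f / epsL ℓ g := by rw [← h, mul_div_cancel_right₀ _ hg0]
    rw [hx, hff, hgg, map_mul, map_mul, map_pow, map_pow, map_natCast, zpow_sub₀ hℓ,
      zpow_natCast, zpow_natCast]
    field_simp

end H28S28
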