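import Mathlib
import Fermat.Agent.S28.Interface
import Fermat.Agent.S28.Val
import Fermat.Prelude.Def_ModularCurve_IgusaScheme

/-!
# S28, WP4: the concrete objects (helper28)

`F = F_N = ℚ(j(q^d) : d ∣ N) ⊂ ℚ((q))`, and inside it
* `h28O N ℓ`    : the `ℓ`-adic Gauss valuation ring `O = F_N ∩ Obig ℓ` (a `Subring F`),
* `h28red N ℓ`  : the reduction `O → 𝔽_ℓ((q))`,
* `h28F0 N`     : the subfield `F₀ = F_N ∩ ℚ(j)` (a `Subfield F`),
* `h28k0 ℓ`     : the subfield `κ₀ = 𝔽_ℓ(J)` of `𝔽_ℓ((q))`,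
* `h28RQ N t`   : the subring `ℚ[t] ∩ F₀` of `F₀` (a `Subring ↥F₀`), for `t : F`,
* `h28R N ℓ t`  : the subring `ℤ_(ℓ)[t] ∩ F₀` of `F₀`,
* `h28V N ℓ`    : the subring `O ∩ F₀` of `F₀`.
All of them are defined by `comap`, so that membership unfolds by `Iff.rfl`.
-/

set_option autoImplicit false
set_option linter.unusedSectionVars false

open ModularCurve ModularCurve.IgusaScheme

noncomputable section

namespace H28S28

variable (N : ℕ) [NeZero N] (ℓ : ℕ) [Fact ℓ.Prime]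

/-- the inclusion `F_N → ℚ((q))` as a ring homomorphism -/
def h28incl : ↥(modularFunctionFieldFull N) →+* LaurentSeries ℚ where
  toFun x := (x : LaurentSeries ℚ)
  map_one' := rfl
  map_mul' _ _ := rfl
  map_zero' := rfl
  map_add' _ _ := rfl

omit [NeZero N] in
@[simp] theorem h28incl_apply (x : ↥(modularFunctionFieldFull N)) :
    h28incl N x = (x : LaurentSeries ℚ) := rfl

omit [NeZero N] in
theorem h28incl_injective : Function.Injective (h28incl N) := Subtype.val_injective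

/-- the Gauss valuation ring of `F_N` -/
def h28O : Subring ↥(modularFunctionFieldFull N) := (Obig ℓ).comap (h28incl N)

omit [NeZero N] in
theorem mem_h28O_iff (x : ↥(modularFunctionFieldFull N)) :
    x ∈ h28O N ℓ ↔ (x : LaurentSeries ℚ) ∈ Obig ℓ := Iff.rfl

/-- `O → Obig` -/
def h28toObig : ↥(h28O N ℓ) →+* ↥(Obig ℓ) :=
  (h28incl N).restrict (h28O N ℓ) (Obig ℓ) (fun _ hx => hx)

omit [NeZero N] in
@[simp] theorem coe_h28toObig (x : ↥(h28O N ℓ)) :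
    ((h28toObig N ℓ x : ↥(Obig ℓ)) : LaurentSeries ℚ) =
      ((x : ↥(modularFunctionFieldFull N)) : LaurentSeries ℚ) := rfl

/-- the reduction map `O → 𝔽_ℓ((q))` -/
def h28red : ↥(h28O N ℓ) →+* LaurentSeries (ZMod ℓ) := (redHom ℓ).comp (h28toObig N ℓ)

omit [NeZero N] in
theorem h28red_apply (x : ↥(h28O N ℓ)) :
    h28red N ℓ x = redHom ℓ ⟨((x : ↥(modularFunctionFieldFull N)) : LaurentSeries ℚ), x.2⟩ := rfl

/-- the subfield `ℚ(j)` of `F_N` -/
def h28F0 : Subfield ↥(modularFunctionFieldFull N) :=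
  (IntermediateField.adjoin ℚ {jq}).toSubfield.comap (h28incl N)

omit [NeZero N] in
theorem mem_h28F0_iff (x : ↥(modularFunctionFieldFull N)) :
    x ∈ h28F0 N ↔ (x : LaurentSeries ℚ) ∈ IntermediateField.adjoin ℚ {jq} := Iff.rfl

/-- the subfield `𝔽_ℓ(J)` of `𝔽_ℓ((q))` -/
def h28k0 : Subfield (LaurentSeries (ZMod ℓ)) :=
  (IntermediateField.adjoin (ZMod ℓ) {jqModC (ZMod ℓ)}).toSubfield

theorem mem_h28k0_iff (x : LaurentSeries (ZMod ℓ)) :
    x ∈ h28k0 ℓ ↔ x ∈ IntermediateField.adjoin (ZMod ℓ) {jqModC (ZMod ℓ)} := Iff.rfl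

/-- `ℚ[t] ∩ F₀` as a subring of `F₀` -/
def h28RQ (t : ↥(modularFunctionFieldFull N)) : Subring ↥(h28F0 N) :=
  (Algebra.adjoin ℚ {t}).toSubring.comap (h28F0 N).subtype

omit [NeZero N] in
theorem mem_h28RQ_iff (t : ↥(modularFunctionFieldFull N)) (c : ↥(h28F0 N)) :
    c ∈ h28RQ N t ↔ (c : ↥(modularFunctionFieldFull N)) ∈ Algebra.adjoin ℚ {t} := Iff.rfl

/-- `ℤ_(ℓ)[t] ∩ F₀` as a subring of `F₀` -/
def h28R (t : ↥(modularFunctionFieldFull N)) : Subring ↥(h28F0 N) :=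
  (Algebra.adjoin ↥(GaloisRep.ratLocalizedAt ℓ) {t}).toSubring.comap (h28F0 N).subtype

omit [NeZero N] in
theorem mem_h28R_iff (t : ↥(modularFunctionFieldFull N)) (c : ↥(h28F0 N)) :
    c ∈ h28R N ℓ t ↔
      (c : ↥(modularFunctionFieldFull N)) ∈ Algebra.adjoin ↥(GaloisRep.ratLocalizedAt ℓ) {t} :=
  Iff.rfl

/-- `O ∩ F₀` as a subring of `F₀` -/
def h28V : Subring ↥(h28F0 N) := (h28O N ℓ).comap (h28F0 N).subtype

omit [NeZero N] in
theorem mem_h28V_iff (c : ↥(h28F0 N)) :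
    c ∈ h28V N ℓ ↔ (c : ↥(modularFunctionFieldFull N)) ∈ h28O N ℓ := Iff.rfl

/-- the uniformizer `ℓ` of `O` -/
def h28pi : ↥(h28O N ℓ) := ⟨(ℓ : ↥(modularFunctionFieldFull N)), by
  rw [mem_h28O_iff]
  push_cast
  exact natCast_mem (Obig ℓ) ℓ⟩

omit [NeZero N] in
@[simp] theorem coe_h28pi :
    ((h28pi N ℓ : ↥(h28O N ℓ)) : ↥(modularFunctionFieldFull N)) = (ℓ : ↥(modularFunctionFieldFull N)) :=
  rfl

end H28S28
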