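import Mathlib
import Fermat.Agent.S28.Val

/-!
# S28, WP4: Gauss lemma for polynomials in a transcendental `ℓ`-integral series

For an `ℓ`-integral series `t` whose reduction is transcendental over `𝔽_ℓ` (e.g. `t = j` or
`t = j⁻¹`):

* `h13_exists_map_of_aeval_mem`: `P ∈ ℚ[X]` with `P(t) ∈ O` has coefficients in `ℤ_(ℓ)`
  (`ℚ[t] ∩ O = ℤ_(ℓ)[t]`);
* `h13_redHom_mem_adjoin`: the reduction of `O ∩ ℚ(t)` lies in `𝔽_ℓ(t̄)`.
-/

set_option autoImplicit false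
open ModularCurve HahnSeries

noncomputable section

namespace H28S28

variable (ℓ : ℕ) [Fact ℓ.Prime]

/-- the inclusion `ℤ_(ℓ) → ℚ` -/
abbrev h13incl : ↥(GaloisRep.ratLocalizedAt ℓ) →+* ℚ := (GaloisRep.ratLocalizedAt ℓ).subtype

/-- evaluation of a polynomial over `ℤ_(ℓ)` at an `ℓ`-integral series -/
def h13ev (t : LaurentSeries ↥(GaloisRep.ratLocalizedAt ℓ))
    (P : Polynomial ↥(GaloisRep.ratLocalizedAt ℓ)) : LaurentSeries ↥(GaloisRep.ratLocalizedAt ℓ) :=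
  P.eval₂ (HahnSeries.C : ↥(GaloisRep.ratLocalizedAt ℓ) →+* _) t

omit [Fact ℓ.Prime] in
theorem h13_epsL_ev (t : LaurentSeries ↥(GaloisRep.ratLocalizedAt ℓ))
    (P : Polynomial ↥(GaloisRep.ratLocalizedAt ℓ)) :
    epsL ℓ (h13ev ℓ t P) = Polynomial.aeval (epsL ℓ t) (P.map (h13incl ℓ)) := by
  rw [h13ev, Polynomial.hom_eval₂, Polynomial.aeval_def, Polynomial.eval₂_map]
  congr 1
  ext c : 1
  rw [RingHom.comp_apply, RingHom.comp_apply, algebraMap_laurentSeries_eq_single]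
  show coeffMap _ (HahnSeries.single 0 c) = _
  rw [coeffMap_single]

theorem h13_rhoL_ev (t : LaurentSeries ↥(GaloisRep.ratLocalizedAt ℓ))
    (P : Polynomial ↥(GaloisRep.ratLocalizedAt ℓ)) :
    rhoL ℓ (h13ev ℓ t P) = Polynomial.aeval (rhoL ℓ t) (P.map (zlRed ℓ)) := by
  rw [h13ev, Polynomial.hom_eval₂, Polynomial.aeval_def, Polynomial.eval₂_map]
  congr 1
  ext c : 1
  rw [RingHom.comp_apply, RingHom.comp_apply, algebraMap_laurentSeries_eq_single]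
  show coeffMap _ (HahnSeries.single 0 c) = _
  rw [coeffMap_single]

/-- Primitive decomposition of a nonzero rational polynomial. -/
theorem h13_exists_primitive (Q : Polynomial ℚ) (hQ : Q ≠ 0) :
    ∃ (b : ℤ) (Q₀ : Polynomial ↥(GaloisRep.ratLocalizedAt ℓ)),
      Q₀.map (zlRed ℓ) ≠ 0 ∧ Q = Polynomial.C ((ℓ : ℚ) ^ b) * Q₀.map (h13incl ℓ) := by
  classical
  have hℓ : (ℓ : ℚ) ≠ 0 := by exact_mod_cast (Fact.out : ℓ.Prime).ne_zero
  have hex : ∀ i : ℕ, ∃ (n : ℤ) (u : ↥(GaloisRep.ratLocalizedAt ℓ)),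
      Q.coeff i ≠ 0 → zlRed ℓ u ≠ 0 ∧ Q.coeff i = (ℓ : ℚ) ^ n * (u : ℚ) := by
    intro i
    by_cases h0 : Q.coeff i = 0
    · exact ⟨0, 0, fun h => absurd h0 h⟩
    · obtain ⟨n, u, hu, hcu⟩ := rat_exists_zpow_mul ℓ (Q.coeff i) h0
      exact ⟨n, u, fun _ => ⟨hu, hcu⟩⟩
  choose n u hnu using hex
  have hne : Q.support.Nonempty := Polynomial.support_nonempty.mpr hQ
  obtain ⟨i₀, hi₀, hmin⟩ := Finset.exists_min_image Q.support n hne
  have hc₀ : Q.coeff i₀ ≠ 0 := Polynomial.mem_support_iff.mp hi₀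
  set Q₀ : Polynomial ↥(GaloisRep.ratLocalizedAt ℓ) :=
    ∑ i ∈ Q.support, Polynomial.monomial i
      ((ℓ : ↥(GaloisRep.ratLocalizedAt ℓ)) ^ (n i - n i₀).toNat * u i) with hQ₀
  have hcoeff : ∀ i, Q₀.coeff i =
      if i ∈ Q.support then (ℓ : ↥(GaloisRep.ratLocalizedAt ℓ)) ^ (n i - n i₀).toNat * u i
      else 0 := by
    intro i
    rw [hQ₀, Polynomial.finsetSum_coeff]
    simp only [Polynomial.coeff_monomial]
    rw [Finset.sum_ite_eq' Q.support i]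
  refine ⟨n i₀, Q₀, ?_, ?_⟩
  · intro h0
    have h1 := congrArg (fun P => Polynomial.coeff P i₀) h0
    simp only [Polynomial.coeff_map, Polynomial.coeff_zero] at h1
    rw [hcoeff, if_pos hi₀, sub_self, Int.toNat_zero, pow_zero, one_mul] at h1
    exact (hnu i₀ hc₀).1 h1
  · ext i
    rw [Polynomial.coeff_C_mul, Polynomial.coeff_map, hcoeff]
    by_cases hi : i ∈ Q.support
    · rw [if_pos hi]
      have hci : Q.coeff i ≠ 0 := Polynomial.mem_support_iff.mp hi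
      have hle : n i₀ ≤ n i := hmin i hi
      have h2 : (((n i - n i₀).toNat : ℕ) : ℤ) = n i - n i₀ := Int.toNat_of_nonneg (by omega)
      conv_lhs => rw [(hnu i hci).2]
      show _ = (ℓ : ℚ) ^ n i₀ * (((ℓ : ℚ)) ^ (n i - n i₀).toNat * (u i : ℚ))
      rw [← mul_assoc, ← zpow_natCast, ← zpow_add₀ hℓ, h2]
      congr 2
      ring
    · rw [if_neg hi]
      have : Q.coeff i = 0 := Polynomial.notMem_support_iff.mp hi
      rw [this]
      show (0 : ℚ) = (ℓ : ℚ) ^ n i₀ * ((0 : ↥(GaloisRep.ratLocalizedAt ℓ)) : ℚ)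
      rw [ZeroMemClass.coe_zero, mul_zero]

theorem h13_rhoL_ev_ne_zero {t : LaurentSeries ↥(GaloisRep.ratLocalizedAt ℓ)}
    (ht : Transcendental (ZMod ℓ) (rhoL ℓ t)) {P : Polynomial ↥(GaloisRep.ratLocalizedAt ℓ)}
    (hP : P.map (zlRed ℓ) ≠ 0) : rhoL ℓ (h13ev ℓ t P) ≠ 0 := by
  rw [h13_rhoL_ev]
  intro h
  exact hP ((transcendental_iff.mp ht) _ h)

theorem h13_redHom_natCast_pow_mul (k : ℕ) (hk : 0 < k) (x : Obig ℓ) :
    redHom ℓ ((ℓ : Obig ℓ) ^ k * x) = 0 := by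
  rw [map_mul, map_pow, map_natCast, natCast_eq_zero_Lk, zero_pow hk.ne', zero_mul]

/-- **(G-b)** `ℚ[t] ∩ O = ℤ_(ℓ)[t]`: a rational polynomial whose value at `t` lies in `O` has
`ℓ`-integral coefficients. -/
theorem h13_exists_map_of_aeval_mem (t : LaurentSeries ↥(GaloisRep.ratLocalizedAt ℓ))
    (ht : Transcendental (ZMod ℓ) (rhoL ℓ t)) (P : Polynomial ℚ)
    (hP : Polynomial.aeval (epsL ℓ t) P ∈ Obig ℓ) :
    ∃ P' : Polynomial ↥(GaloisRep.ratLocalizedAt ℓ), P = P'.map (h13incl ℓ) := by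
  classical
  have hℓ : (ℓ : ℚ) ≠ 0 := by exact_mod_cast (Fact.out : ℓ.Prime).ne_zero
  by_cases hP0 : P = 0
  · exact ⟨0, by rw [hP0, Polynomial.map_zero]⟩
  obtain ⟨a, P₀, hP₀, hPP⟩ := h13_exists_primitive ℓ P hP0
  rcases le_or_gt 0 a with ha | ha
  · obtain ⟨k, rfl⟩ := Int.eq_ofNat_of_zero_le ha
    refine ⟨Polynomial.C ((ℓ : ↥(GaloisRep.ratLocalizedAt ℓ)) ^ k) * P₀, ?_⟩
    rw [hPP, Polynomial.map_mul, Polynomial.map_C, zpow_natCast]
    congr 2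
  · exfalso
    obtain ⟨k, hk⟩ := Int.eq_ofNat_of_zero_le (show (0 : ℤ) ≤ -a by omega)
    have hkpos : 0 < k := by omega
    -- `ℓ^k * P(t) = P₀(t)`
    have h1 : ((ℓ : LaurentSeries ℚ)) ^ k * Polynomial.aeval (epsL ℓ t) P =
        epsL ℓ (h13ev ℓ t P₀) := by
      rw [h13_epsL_ev]
      conv_lhs => rw [hPP]
      rw [map_mul, Polynomial.aeval_C, ← mul_assoc, algebraMap_laurentSeries_eq_single]
      have h2 : ((ℓ : LaurentSeries ℚ)) ^ k * HahnSeries.single 0 ((ℓ : ℚ) ^ a) = 1 := by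
        have h3 : ((ℓ : LaurentSeries ℚ)) = HahnSeries.single 0 (ℓ : ℚ) := by
          rw [← HahnSeries.C_apply, map_natCast]
        rw [h3, HahnSeries.single_pow, HahnSeries.single_mul_single, nsmul_zero, add_zero,
          ← zpow_natCast, ← zpow_add₀ hℓ]
        have : (k : ℤ) + a = 0 := by omega
        rw [this, zpow_zero]
        rfl
      rw [h2, one_mul]
    have h4 : (ℓ : Obig ℓ) ^ k * ⟨_, hP⟩ = ⟨epsL ℓ (h13ev ℓ t P₀), epsL_mem_Obig ℓ _⟩ := by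
      apply Subtype.ext
      show ((ℓ : LaurentSeries ℚ)) ^ k * Polynomial.aeval (epsL ℓ t) P = epsL ℓ (h13ev ℓ t P₀)
      exact h1
    have h5 := h13_redHom_natCast_pow_mul ℓ k hkpos ⟨_, hP⟩
    rw [h4, redHom_epsL] at h5
    exact h13_rhoL_ev_ne_zero ℓ ht hP₀ h5

omit [Fact ℓ.Prime] in
theorem h13_aeval_primitive (t : LaurentSeries ↥(GaloisRep.ratLocalizedAt ℓ)) (a : ℤ)
    (P₀ : Polynomial ↥(GaloisRep.ratLocalizedAt ℓ)) :
    Polynomial.aeval (epsL ℓ t) (Polynomial.C ((ℓ : ℚ) ^ a) * P₀.map (h13incl ℓ)) =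
      ((ℓ : LaurentSeries ℚ)) ^ a * epsL ℓ (h13ev ℓ t P₀) := by
  rw [map_mul, Polynomial.aeval_C, h13_epsL_ev, map_zpow₀, map_natCast]

theorem h13_aeval_mem_adjoin (s : LaurentSeries (ZMod ℓ)) (p : Polynomial (ZMod ℓ)) :
    Polynomial.aeval s p ∈ IntermediateField.adjoin (ZMod ℓ) {s} :=
  (IntermediateField.mem_adjoin_simple_iff _ _).mpr ⟨p, 1, by rw [map_one, div_one]⟩

/-- **(G-a)** The reduction of `O ∩ ℚ(t)` lies in `𝔽_ℓ(t̄)`. -/
theorem h13_redHom_mem_adjoin (t : LaurentSeries ↥(GaloisRep.ratLocalizedAt ℓ))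
    (ht : Transcendental (ZMod ℓ) (rhoL ℓ t)) (x : Obig ℓ)
    (hx : (x : LaurentSeries ℚ) ∈ IntermediateField.adjoin ℚ {epsL ℓ t}) :
    redHom ℓ x ∈ IntermediateField.adjoin (ZMod ℓ) {rhoL ℓ t} := by
  classical
  have hℓ := natCast_ne_zero_LQ ℓ
  obtain ⟨P, Q, hxPQ⟩ := (IntermediateField.mem_adjoin_simple_iff ℚ _).mp hx
  by_cases hx0 : (x : LaurentSeries ℚ) = 0
  · have : x = 0 := Subtype.ext hx0
    rw [this, map_zero]
    exact zero_mem _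
  have hQv : Polynomial.aeval (epsL ℓ t) Q ≠ 0 := by
    intro h
    rw [h, div_zero] at hxPQ
    exact hx0 hxPQ
  have hPv : Polynomial.aeval (epsL ℓ t) P ≠ 0 := by
    intro h
    rw [h, zero_div] at hxPQ
    exact hx0 hxPQ
  have hQ0 : Q ≠ 0 := by
    rintro rfl
    exact hQv (map_zero _)
  have hP0 : P ≠ 0 := by
    rintro rfl
    exact hPv (map_zero _)
  obtain ⟨a, P₀, hP₀, hPP⟩ := h13_exists_primitive ℓ P hP0
  obtain ⟨b, Q₀, hQ₀, hQQ⟩ := h13_exists_primitive ℓ Q hQ0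
  have hPval := h13_aeval_primitive ℓ t a P₀
  have hQval := h13_aeval_primitive ℓ t b Q₀
  rw [← hPP] at hPval
  rw [← hQQ] at hQval
  have hrP := h13_rhoL_ev_ne_zero ℓ ht hP₀
  have hrQ := h13_rhoL_ev_ne_zero ℓ ht hQ₀
  have hfQ : epsL ℓ (h13ev ℓ t Q₀) ≠ 0 := by
    intro h
    rw [hQval, h, mul_zero] at hQv
    exact hQv rfl
  -- the basic relation
  have hrel : (x : LaurentSeries ℚ) * (((ℓ : LaurentSeries ℚ)) ^ b * epsL ℓ (h13ev ℓ t Q₀)) =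
      ((ℓ : LaurentSeries ℚ)) ^ a * epsL ℓ (h13ev ℓ t P₀) := by
    rw [← hPval, ← hQval, hxPQ, div_mul_cancel₀ _ hQv]
  rcases le_or_gt b a with hab | hab
  · obtain ⟨k, hk⟩ := Int.eq_ofNat_of_zero_le (show (0 : ℤ) ≤ a - b by omega)
    have h1 : (x : LaurentSeries ℚ) * epsL ℓ (h13ev ℓ t Q₀) =
        epsL ℓ ((ℓ : LaurentSeries ↥(GaloisRep.ratLocalizedAt ℓ)) ^ k * h13ev ℓ t P₀) := by
      rw [map_mul, map_pow, map_natCast, ← zpow_natCast, ← hk]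
      have h2 : ((ℓ : LaurentSeries ℚ)) ^ a = ((ℓ : LaurentSeries ℚ)) ^ (a - b) *
          ((ℓ : LaurentSeries ℚ)) ^ b := by
        rw [← zpow_add₀ hℓ, sub_add_cancel]
      rw [h2] at hrel
      have h3 : ((ℓ : LaurentSeries ℚ)) ^ b ≠ 0 := zpow_ne_zero _ hℓ
      apply mul_left_cancel₀ h3
      linear_combination hrel
    rw [redHom_eq ℓ x _ _ hrQ h1, map_mul, map_pow, map_natCast, h13_rhoL_ev, h13_rhoL_ev]
    exact div_mem (mul_mem (pow_mem (natCast_mem _ ℓ) k) (h13_aeval_mem_adjoin ℓ _ _))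
      (h13_aeval_mem_adjoin ℓ _ _)
  · exfalso
    obtain ⟨k, hk⟩ := Int.eq_ofNat_of_zero_le (show (0 : ℤ) ≤ b - a by omega)
    have hkpos : 0 < k := by omega
    have h1 : ((ℓ : LaurentSeries ℚ)) ^ k * (x : LaurentSeries ℚ) * epsL ℓ (h13ev ℓ t Q₀) =
        epsL ℓ (h13ev ℓ t P₀) := by
      have h2 : ((ℓ : LaurentSeries ℚ)) ^ b = ((ℓ : LaurentSeries ℚ)) ^ (b - a) *
          ((ℓ : LaurentSeries ℚ)) ^ a := by
        rw [← zpow_add₀ hℓ, sub_add_cancel]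
      rw [h2, hk, zpow_natCast] at hrel
      have h3 : ((ℓ : LaurentSeries ℚ)) ^ a ≠ 0 := zpow_ne_zero _ hℓ
      apply mul_left_cancel₀ h3
      linear_combination hrel
    have h4 : ((ℓ : Obig ℓ) ^ k * x) * ⟨epsL ℓ (h13ev ℓ t Q₀), epsL_mem_Obig ℓ _⟩ =
        ⟨epsL ℓ (h13ev ℓ t P₀), epsL_mem_Obig ℓ _⟩ := by
      apply Subtype.ext
      show ((ℓ : LaurentSeries ℚ)) ^ k * (x : LaurentSeries ℚ) * epsL ℓ (h13ev ℓ t Q₀) = _
      exact h1
    have h5 := congrArg (redHom ℓ) h4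
    rw [map_mul, h13_redHom_natCast_pow_mul ℓ k hkpos x, zero_mul, redHom_epsL] at h5
    exact hrP h5.symm

/-! ### The two charts: `t = j` and `t = j⁻¹` -/

omit [Fact ℓ.Prime] in
theorem h13_epsL_j : epsL ℓ (jqModC ↥(GaloisRep.ratLocalizedAt ℓ)) = jq := by
  rw [epsL, coeffMap_jqModC]
  rfl

theorem h13_rhoL_j : rhoL ℓ (jqModC ↥(GaloisRep.ratLocalizedAt ℓ)) = jqModC (ZMod ℓ) := by
  rw [rhoL, coeffMap_jqModC]

theorem h13_isUnit_jqModC (R : Type) [CommRing R] : IsUnit (jqModC R) := by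
  have h1 : IsUnit (jNum.map (Int.castRingHom R)) := by
    rw [PowerSeries.isUnit_iff_constantCoeff, ← PowerSeries.coeff_zero_eq_constantCoeff_apply,
      PowerSeries.coeff_map, PowerSeries.coeff_zero_eq_constantCoeff_apply, constantCoeff_jNum,
      map_one]
    exact isUnit_one
  have h2 : IsUnit (HahnSeries.single (-1 : ℤ) (1 : R)) := by
    refine IsUnit.of_mul_eq_one (HahnSeries.single (1 : ℤ) (1 : R)) ?_
    rw [HahnSeries.single_mul_single, mul_one, neg_add_cancel]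
    rfl
  exact h2.mul (h1.map (HahnSeries.ofPowerSeries ℤ R))

/-- the `ℓ`-integral series `j⁻¹` -/
def h13jinv : LaurentSeries ↥(GaloisRep.ratLocalizedAt ℓ) :=
  ((h13_isUnit_jqModC ↥(GaloisRep.ratLocalizedAt ℓ)).unit⁻¹ : (LaurentSeries _)ˣ)

omit [Fact ℓ.Prime] in
theorem h13_jinv_mul : h13jinv ℓ * jqModC ↥(GaloisRep.ratLocalizedAt ℓ) = 1 := by
  rw [h13jinv]
  exact (h13_isUnit_jqModC ↥(GaloisRep.ratLocalizedAt ℓ)).val_inv_mul

omit [Fact ℓ.Prime] in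
theorem h13_epsL_jinv : epsL ℓ (h13jinv ℓ) = jq⁻¹ := by
  have h := congrArg (epsL ℓ) (h13_jinv_mul ℓ)
  rw [map_mul, map_one, h13_epsL_j] at h
  exact eq_inv_of_mul_eq_one_left h

theorem h13_rhoL_jinv : rhoL ℓ (h13jinv ℓ) = (jqModC (ZMod ℓ))⁻¹ := by
  have h := congrArg (rhoL ℓ) (h13_jinv_mul ℓ)
  rw [map_mul, map_one, h13_rhoL_j] at h
  exact eq_inv_of_mul_eq_one_left h

theorem h13_transcendental_J : Transcendental (ZMod ℓ) (rhoL ℓ (jqModC _)) := by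
  rw [h13_rhoL_j]
  exact P2MW.S_ModularCurve_coeff_jqModC_neg_one.ModularCurve.CharLRows.transcendental_jqModC _

theorem h13_transcendental_Jinv : Transcendental (ZMod ℓ) (rhoL ℓ (h13jinv ℓ)) := by
  rw [h13_rhoL_jinv]
  intro h
  have h2 := h.inv
  rw [inv_inv] at h2
  exact P2MW.S_ModularCurve_coeff_jqModC_neg_one.ModularCurve.CharLRows.transcendental_jqModC _ h2

/-- `ℚ[j] ∩ O = ℤ_(ℓ)[j]`. -/
theorem h13_exists_map_of_aeval_j_mem (P : Polynomial ℚ)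
    (hP : Polynomial.aeval jq P ∈ Obig ℓ) :
    ∃ P' : Polynomial ↥(GaloisRep.ratLocalizedAt ℓ), P = P'.map (h13incl ℓ) := by
  refine h13_exists_map_of_aeval_mem ℓ _ (h13_transcendental_J ℓ) P ?_
  rw [h13_epsL_j]
  exact hP

/-- `ℚ[j⁻¹] ∩ O = ℤ_(ℓ)[j⁻¹]`. -/
theorem h13_exists_map_of_aeval_jinv_mem (P : Polynomial ℚ)
    (hP : Polynomial.aeval jq⁻¹ P ∈ Obig ℓ) :
    ∃ P' : Polynomial ↥(GaloisRep.ratLocalizedAt ℓ), P = P'.map (h13incl ℓ) := by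
  refine h13_exists_map_of_aeval_mem ℓ _ (h13_transcendental_Jinv ℓ) P ?_
  rw [h13_epsL_jinv]
  exact hP

/-- The reduction of `O ∩ ℚ(j)` lies in `𝔽_ℓ(J)`. -/
theorem h13_redHom_mem_adjoin_j (x : Obig ℓ)
    (hx : (x : LaurentSeries ℚ) ∈ IntermediateField.adjoin ℚ {jq}) :
    redHom ℓ x ∈ IntermediateField.adjoin (ZMod ℓ) {jqModC (ZMod ℓ)} := by
  have h := h13_redHom_mem_adjoin ℓ _ (h13_transcendental_J ℓ) x (by rw [h13_epsL_j]; exact hx)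
  rwa [h13_rhoL_j] at h

end H28S28
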