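import Mathlib

/-!
# S28, WP4 slice AL (helper10): abstract minimal-polynomial integrality lemma

If `y` is integral over an integrally closed subring `RQ` of a field `K` with fraction field `K`
and also integral over a valuation subring `V` of `K`, then `y` is integral over any subring `R`
of `K` containing `RQ ∩ V`.
-/

set_option autoImplicit false

namespace H28S28

/-- The coefficients of the minimal polynomial over `K` of an element integral over both `RQ`
and `V` lie in `RQ ∩ V`. -/
theorem h10_minpoly_coeff_mem_of_two (K E : Type) [Field K] [Field E] [Algebra K E]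
    (RQ : Subring K) [IsIntegrallyClosed RQ] (hRQ : IsFractionRing RQ K)
    (V : ValuationSubring K)
    (y : E) (h1 : IsIntegral RQ y) (h2 : IsIntegral V y) (n : ℕ) :
    (minpoly K y).coeff n ∈ RQ ∧ (minpoly K y).coeff n ∈ V := by
  have e1 : minpoly K y = (minpoly RQ y).map (algebraMap RQ K) :=
    minpoly.isIntegrallyClosed_eq_field_fractions' K h1
  have e2 : minpoly K y = (minpoly V y).map (algebraMap V K) :=
    minpoly.isIntegrallyClosed_eq_field_fractions' K h2
  constructor
  · rw [e1, Polynomial.coeff_map]
    exact ((minpoly RQ y).coeff n).2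
  · rw [e2, Polynomial.coeff_map]
    exact ((minpoly V y).coeff n).2

/-- An element whose minimal polynomial over `K` has all coefficients in the subring `R`
is integral over `R`. -/
theorem h10_isIntegral_of_minpoly_coeff_mem (K E : Type) [Field K] [Field E] [Algebra K E]
    (R : Subring K) (y : E) (hyK : IsIntegral K y) (hc : ∀ n, (minpoly K y).coeff n ∈ R) :
    IsIntegral R y := by
  have hsub : (↑(minpoly K y).coeffs : Set K) ⊆ R := by
    intro c hc'
    rw [Finset.mem_coe, Polynomial.mem_coeffs_iff] at hc'
    obtain ⟨n, -, rfl⟩ := hc'
    exact hc n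
  refine ⟨(minpoly K y).toSubring R hsub, ?_, ?_⟩
  · exact (Polynomial.monic_toSubring _ _ _).2 (minpoly.monic hyK)
  · have : Polynomial.eval₂ (algebraMap R E) y ((minpoly K y).toSubring R hsub)
        = Polynomial.eval₂ (algebraMap K E) y
            (((minpoly K y).toSubring R hsub).map R.subtype) := by
      rw [Polynomial.eval₂_map]
      rfl
    rw [this, Polynomial.map_toSubring]
    exact minpoly.aeval K y

/-- **AL.** If `y` is integral over the integrally closed subring `RQ` (with fraction field `K`)
and over the valuation subring `V`, and `RQ ∩ V ⊆ R`, then `y` is integral over `R`. -/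
theorem h10_isIntegral_of_two (K E : Type) [Field K] [Field E] [Algebra K E]
    (RQ : Subring K) [IsIntegrallyClosed RQ] (hRQ : IsFractionRing RQ K)
    (V : ValuationSubring K)
    (R : Subring K) (hR : ∀ c : K, c ∈ RQ → c ∈ V → c ∈ R)
    (y : E) (h1 : IsIntegral RQ y) (h2 : IsIntegral V y) : IsIntegral R y :=
  h10_isIntegral_of_minpoly_coeff_mem K E R y h1.tower_top fun n =>
    hR _ (h10_minpoly_coeff_mem_of_two K E RQ hRQ V y h1 h2 n).1
      (h10_minpoly_coeff_mem_of_two K E RQ hRQ V y h1 h2 n).2

end H28S28
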