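import Mathlib
import Fermat.Agent.S28.ConcreteDefs
import Fermat.Agent.S28.GaussPoly
import Fermat.Agent.S28.MinpolyInt

/-!
# S28, WP4 (helper28): the charts are `ℓ`-saturated in the Gauss valuation ring
-/

set_option autoImplicit false
set_option linter.unusedSectionVars false

open ModularCurve ModularCurve.IgusaScheme

noncomputable section

namespace H28S28

variable (N : ℕ) [NeZero N] (ℓ : ℕ) [Fact ℓ.Prime]

/-- the hypothesis "every nonzero element of `F_N` is `ℓ^a` times a unit of `O`" -/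
def HValN : Prop :=
  ∀ x : ↥(modularFunctionFieldFull N), x ≠ 0 → ∃ (a : ℤ) (u : ↥(h28O N ℓ)),
    h28red N ℓ u ≠ 0 ∧ x = ((h28pi N ℓ : ↥(h28O N ℓ)) : ↥(modularFunctionFieldFull N)) ^ a * u

variable {N ℓ}

theorem h28_inv_mem_O (u : ↥(h28O N ℓ)) (hu : h28red N ℓ u ≠ 0) :
    ((u : ↥(modularFunctionFieldFull N)))⁻¹ ∈ h28O N ℓ := by
  rw [mem_h28O_iff]
  have := inv_mem_Obig ℓ ⟨((u : ↥(modularFunctionFieldFull N)) : LaurentSeries ℚ), u.2⟩ hu
  simpa using this

theorem h28_mem_or_inv_mem (hval : HValN N ℓ) (x : ↥(modularFunctionFieldFull N)) :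
    x ∈ h28O N ℓ ∨ x⁻¹ ∈ h28O N ℓ := by
  by_cases hx : x = 0
  · left; rw [hx]; exact zero_mem _
  obtain ⟨a, u, hu, rfl⟩ := hval x hx
  rcases le_or_gt 0 a with ha | ha
  · left
    lift a to ℕ using ha
    rw [zpow_natCast]
    exact mul_mem (pow_mem (h28pi N ℓ).2 a) u.2
  · right
    rw [mul_inv, ← zpow_neg]
    have h0 : 0 ≤ -a := by omega
    obtain ⟨n, hn⟩ := Int.eq_ofNat_of_zero_le h0
    rw [hn, zpow_natCast]
    exact mul_mem (pow_mem (h28pi N ℓ).2 n) (h28_inv_mem_O u hu)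

/-- `O` as a valuation subring of `F_N`. -/
def h28Oval (hval : HValN N ℓ) : ValuationSubring ↥(modularFunctionFieldFull N) :=
  { h28O N ℓ with
    mem_or_inv_mem' := h28_mem_or_inv_mem hval }

theorem mem_h28Oval_iff (hval : HValN N ℓ) (x : ↥(modularFunctionFieldFull N)) :
    x ∈ h28Oval hval ↔ x ∈ h28O N ℓ := Iff.rfl

/-- **`O` is integrally closed in `F_N`.** -/
theorem h28_mem_O_of_isIntegral (hval : HValN N ℓ) (x : ↥(modularFunctionFieldFull N))
    (hx : IsIntegral ↥(h28O N ℓ) x) : x ∈ h28O N ℓ := by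
  have h1 : IsIntegral ↥(h28Oval hval) x := by
    have := IsIntegral.map_of_comp_eq (R := ↥(h28O N ℓ)) (S := ↥(modularFunctionFieldFull N))
      (T := ↥(h28Oval hval)) (U := ↥(modularFunctionFieldFull N))
      (φ := (RingHom.id ↥(modularFunctionFieldFull N)).restrict (h28O N ℓ) (h28Oval hval).toSubring
        (fun _ h => h))
      (ψ := RingHom.id _) (by ext r; rfl) hx
    simpa using this
  obtain ⟨y, hy⟩ := (IsIntegrallyClosed.isIntegral_iff (R := ↥(h28Oval hval))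
    (K := ↥(modularFunctionFieldFull N))).mp h1
  rw [← hy]
  exact y.2


variable (N ℓ)

theorem h28_coe_algebraMap_rat (r : ℚ) :
    ((algebraMap ℚ ↥(modularFunctionFieldFull N) r : ↥(modularFunctionFieldFull N)) :
      LaurentSeries ℚ) = algebraMap ℚ (LaurentSeries ℚ) r := by
  rw [eq_ratCast, eq_ratCast]
  rfl

theorem h28_algebraMap_mem_O (r : ↥(GaloisRep.ratLocalizedAt ℓ)) :
    algebraMap ↥(GaloisRep.ratLocalizedAt ℓ) ↥(modularFunctionFieldFull N) r ∈ h28O N ℓ := by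
  rw [mem_h28O_iff]
  have h1 : ((algebraMap ↥(GaloisRep.ratLocalizedAt ℓ) ↥(modularFunctionFieldFull N) r :
      ↥(modularFunctionFieldFull N)) : LaurentSeries ℚ) = epsL ℓ (HahnSeries.C r) := by
    have h0 : algebraMap ↥(GaloisRep.ratLocalizedAt ℓ) ↥(modularFunctionFieldFull N) r =
      algebraMap ℚ ↥(modularFunctionFieldFull N) (r : ℚ) := rfl
    rw [h0, h28_coe_algebraMap_rat, algebraMap_laurentSeries_eq_single]
    show _ = coeffMap _ (HahnSeries.single 0 r)
    rw [coeffMap_single]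
    rfl
  rw [h1]
  exact epsL_mem_Obig ℓ _

/-- `O` as a `ℤ_(ℓ)`-subalgebra of `F_N`. -/
def h28Oalg : Subalgebra ↥(GaloisRep.ratLocalizedAt ℓ) ↥(modularFunctionFieldFull N) :=
  { (h28O N ℓ).toSubsemiring with
    algebraMap_mem' := h28_algebraMap_mem_O N ℓ }

theorem mem_h28Oalg_iff (x : ↥(modularFunctionFieldFull N)) :
    x ∈ h28Oalg N ℓ ↔ x ∈ h28O N ℓ := Iff.rfl

theorem h28_adjoin_le_O (S : Set ↥(modularFunctionFieldFull N)) (hS : ∀ s ∈ S, s ∈ h28O N ℓ) :
    ∀ x ∈ Algebra.adjoin ↥(GaloisRep.ratLocalizedAt ℓ) S, x ∈ h28O N ℓ := by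
  intro x hx
  have h : Algebra.adjoin ↥(GaloisRep.ratLocalizedAt ℓ) S ≤ h28Oalg N ℓ :=
    Algebra.adjoin_le hS
  exact h hx


variable {N ℓ}

/-- **Every chart algebra generated by elements of `O` lies in `O`.** -/
theorem h28_chartAlg_le_O (hval : HValN N ℓ) (S : Set ↥(modularFunctionFieldFull N))
    (hS : ∀ s ∈ S, s ∈ h28O N ℓ) : ∀ x ∈ chartAlg N ℓ S, x ∈ h28O N ℓ := by
  intro x hx
  rw [mem_chartAlg_iff] at hx
  apply h28_mem_O_of_isIntegral hval
  have := IsIntegral.map_of_comp_eq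
    (φ := (RingHom.id ↥(modularFunctionFieldFull N)).restrict
      (Algebra.adjoin ↥(GaloisRep.ratLocalizedAt ℓ) S) (h28O N ℓ) (h28_adjoin_le_O N ℓ S hS))
    (ψ := RingHom.id _) (by ext r; rfl) hx
  simpa using this

/-- `O ∩ F₀` as a valuation subring of `F₀`. -/
def h28Vval (hval : HValN N ℓ) : ValuationSubring ↥(h28F0 N) :=
  { h28V N ℓ with
    mem_or_inv_mem' := fun c => by
      rcases h28_mem_or_inv_mem hval (c : ↥(modularFunctionFieldFull N)) with h | h
      · exact Or.inl h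
      · exact Or.inr (by
          show ((c⁻¹ : ↥(h28F0 N)) : ↥(modularFunctionFieldFull N)) ∈ h28O N ℓ
          push_cast
          exact h) }

theorem mem_h28Vval_iff (hval : HValN N ℓ) (c : ↥(h28F0 N)) :
    c ∈ h28Vval hval ↔ (c : ↥(modularFunctionFieldFull N)) ∈ h28O N ℓ := Iff.rfl

theorem h28_coe_aeval (t : ↥(modularFunctionFieldFull N)) (P : Polynomial ℚ) :
    ((Polynomial.aeval t P : ↥(modularFunctionFieldFull N)) : LaurentSeries ℚ) =
      Polynomial.aeval (t : LaurentSeries ℚ) P := by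
  have h := Polynomial.hom_eval₂ P (algebraMap ℚ ↥(modularFunctionFieldFull N)) (h28incl N) t
  rw [Polynomial.aeval_def, Polynomial.aeval_def]
  have h2 : (h28incl N).comp (algebraMap ℚ ↥(modularFunctionFieldFull N)) =
      algebraMap ℚ (LaurentSeries ℚ) := RingHom.ext (h28_coe_algebraMap_rat N)
  rw [h2] at h
  exact h

/-- the Gauss hypothesis for a chart parameter `t` -/
def HGaussN (N : ℕ) [NeZero N] (ℓ : ℕ) [Fact ℓ.Prime] (t : ↥(modularFunctionFieldFull N)) : Prop :=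
  ∀ P : Polynomial ℚ, Polynomial.aeval t P ∈ h28O N ℓ →
    ∃ P' : Polynomial ↥(GaloisRep.ratLocalizedAt ℓ), P = P'.map (h13incl ℓ)

theorem h28_gauss_j : HGaussN N ℓ (jFull N) := by
  intro P hP
  rw [mem_h28O_iff, h28_coe_aeval] at hP
  exact h13_exists_map_of_aeval_j_mem ℓ P hP

theorem h28_gauss_jinv : HGaussN N ℓ (jFull N)⁻¹ := by
  intro P hP
  rw [mem_h28O_iff, h28_coe_aeval] at hP
  exact h13_exists_map_of_aeval_jinv_mem ℓ P (by simpa using hP)

theorem h28_hR (t : ↥(modularFunctionFieldFull N)) (hG : HGaussN N ℓ t) :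
    ∀ c : ↥(h28F0 N), c ∈ h28RQ N t → c ∈ h28V N ℓ → c ∈ h28R N ℓ t := by
  intro c h1 h2
  rw [mem_h28RQ_iff, Algebra.adjoin_singleton_eq_range_aeval] at h1
  obtain ⟨P, hP⟩ := h1
  rw [mem_h28V_iff, ← hP] at h2
  obtain ⟨P', rfl⟩ := hG P h2
  rw [mem_h28R_iff, ← hP, Algebra.adjoin_singleton_eq_range_aeval]
  refine ⟨P', ?_⟩
  have := Polynomial.aeval_map_algebraMap (A := ℚ) t P'
  exact this.symm

/-- `ℤ_(ℓ)[t] ⊆ F₀` when `t ∈ F₀` -/
theorem h28_adjoin_le_F0 (t : ↥(modularFunctionFieldFull N)) (ht0 : t ∈ h28F0 N) :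
    ∀ x ∈ Algebra.adjoin ↥(GaloisRep.ratLocalizedAt ℓ) {t}, x ∈ h28F0 N := by
  intro x hx
  induction hx using Algebra.adjoin_induction with
  | mem x hx => rw [Set.mem_singleton_iff.mp hx]; exact ht0
  | algebraMap r =>
    rw [mem_h28F0_iff]
    have h0 : algebraMap ↥(GaloisRep.ratLocalizedAt ℓ) ↥(modularFunctionFieldFull N) r =
      algebraMap ℚ ↥(modularFunctionFieldFull N) (r : ℚ) := rfl
    rw [h0, h28_coe_algebraMap_rat]
    exact (IntermediateField.adjoin ℚ {jq}).algebraMap_mem _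
  | add x y _ _ hx hy => exact add_mem hx hy
  | mul x y _ _ hx hy => exact mul_mem hx hy

/-- `ℤ_(ℓ)[t] ⊆ ℚ[t]` -/
theorem h28_adjoin_le_adjoin (t : ↥(modularFunctionFieldFull N)) :
    ∀ x ∈ Algebra.adjoin ↥(GaloisRep.ratLocalizedAt ℓ) {t}, x ∈ Algebra.adjoin ℚ {t} := by
  intro x hx
  induction hx using Algebra.adjoin_induction with
  | mem x hx => exact Algebra.subset_adjoin hx
  | algebraMap r =>
    have h0 : algebraMap ↥(GaloisRep.ratLocalizedAt ℓ) ↥(modularFunctionFieldFull N) r =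
      algebraMap ℚ ↥(modularFunctionFieldFull N) (r : ℚ) := rfl
    rw [h0]
    exact Subalgebra.algebraMap_mem _ _
  | add x y _ _ hx hy => exact add_mem hx hy
  | mul x y _ _ hx hy => exact mul_mem hx hy

instance h28algRQ (t : ↥(modularFunctionFieldFull N)) :
    Algebra ↥(h28RQ N t) ↥(modularFunctionFieldFull N) := Algebra.ofSubsemiring (h28RQ N t)

instance h28algR (t : ↥(modularFunctionFieldFull N)) :
    Algebra ↥(h28R N ℓ t) ↥(modularFunctionFieldFull N) := Algebra.ofSubsemiring (h28R N ℓ t)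

instance h28algV (hval : HValN N ℓ) :
    Algebra ↥(h28Vval hval) ↥(modularFunctionFieldFull N) := Algebra.ofSubsemiring (h28Vval hval)

/-- **Saturation of a chart**: if `o ∈ O` and `ℓ o` lies in the integral closure of `ℤ_(ℓ)[t]`,
then so does `o`. -/
theorem h28_saturated (hval : HValN N ℓ)
    (hint : ∀ x ∈ h28O N ℓ, IsIntegral ↥(h28O N ℓ ⊓ (h28F0 N).toSubring) x)
    (t : ↥(modularFunctionFieldFull N)) (ht0 : t ∈ h28F0 N) (hG : HGaussN N ℓ t)
    [IsIntegrallyClosed ↥(h28RQ N t)] (hRQ : IsFractionRing ↥(h28RQ N t) ↥(h28F0 N)) :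
    ∀ o ∈ h28O N ℓ, (ℓ : ↥(modularFunctionFieldFull N)) * o ∈ chartAlg N ℓ {t} →
      o ∈ chartAlg N ℓ {t} := by
  intro o ho hℓo
  rw [mem_chartAlg_iff] at hℓo ⊢
  -- integrality over `ℚ[t]`
  have h1a : IsIntegral ↥(h28RQ N t) ((ℓ : ↥(modularFunctionFieldFull N)) * o) := by
    have := IsIntegral.map_of_comp_eq
      (φ := (((Algebra.adjoin ↥(GaloisRep.ratLocalizedAt ℓ) {t}).toSubring.subtype).codRestrict
        (h28F0 N) (fun x => h28_adjoin_le_F0 t ht0 x x.2)).codRestrict (h28RQ N t)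
          (fun x => h28_adjoin_le_adjoin t x x.2))
      (ψ := RingHom.id ↥(modularFunctionFieldFull N)) (RingHom.ext fun r => rfl) hℓo
    simpa using this
  have hℓ0 : (ℓ : ↥(modularFunctionFieldFull N)) ≠ 0 := by
    exact_mod_cast (Fact.out : ℓ.Prime).ne_zero
  have h1b : IsIntegral ↥(h28RQ N t) ((ℓ : ↥(modularFunctionFieldFull N))⁻¹) := by
    have hmem0 : (ℓ : ↥(modularFunctionFieldFull N))⁻¹ ∈ h28F0 N :=
      inv_mem (natCast_mem _ ℓ)
    have hmem : (⟨(ℓ : ↥(modularFunctionFieldFull N))⁻¹, hmem0⟩ : ↥(h28F0 N)) ∈ h28RQ N t := by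
      rw [mem_h28RQ_iff]
      have : (ℓ : ↥(modularFunctionFieldFull N))⁻¹ =
          algebraMap ℚ ↥(modularFunctionFieldFull N) ((ℓ : ℚ)⁻¹) := by
        rw [map_inv₀, map_natCast]
      show (ℓ : ↥(modularFunctionFieldFull N))⁻¹ ∈ _
      rw [this]
      exact Subalgebra.algebraMap_mem _ _
    exact isIntegral_algebraMap (R := ↥(h28RQ N t)) (A := ↥(modularFunctionFieldFull N))
      (x := ⟨⟨(ℓ : ↥(modularFunctionFieldFull N))⁻¹, hmem0⟩, hmem⟩)
  have h1 : IsIntegral ↥(h28RQ N t) o := by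
    have := h1b.mul h1a
    rwa [← mul_assoc, inv_mul_cancel₀ hℓ0, one_mul] at this
  -- integrality over `O ∩ F₀`
  have h2 : IsIntegral ↥(h28Vval hval) o := by
    have := IsIntegral.map_of_comp_eq
      (φ := (((h28O N ℓ ⊓ (h28F0 N).toSubring).subtype).codRestrict
        (h28F0 N) (fun x => x.2.2)).codRestrict (h28Vval hval) (fun x => x.2.1))
      (ψ := RingHom.id ↥(modularFunctionFieldFull N)) (RingHom.ext fun r => rfl) (hint o ho)
    simpa using this
  have h3 : IsIntegral ↥(h28R N ℓ t) o :=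
    h10_isIntegral_of_two ↥(h28F0 N) ↥(modularFunctionFieldFull N) (h28RQ N t) hRQ
      (h28Vval hval) (h28R N ℓ t) (h28_hR t hG) o h1 h2
  have := IsIntegral.map_of_comp_eq
    (φ := ((h28F0 N).subtype.comp (h28R N ℓ t).subtype).codRestrict
      (Algebra.adjoin ↥(GaloisRep.ratLocalizedAt ℓ) {t}) (fun x => x.2))
    (ψ := RingHom.id ↥(modularFunctionFieldFull N)) (RingHom.ext fun r => rfl) h3
  simpa using this

end H28S28
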