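import Mathlib
import Fermat.Prelude.Def_ModularCurve_IgusaScheme

/-!
# S28, WP4 slice V6b (helper10): `ℓ`-saturation of `A_mid` from `ℓ`-saturation of `A_fin`

`A_mid = A_fin[1/j]`, so the statement "an element of the chart algebra which is `ℓ` times an
element of `O` is `ℓ` times an element of the chart algebra" passes from `A_fin` to `A_mid`
as soon as `j ∈ O`.
-/

set_option autoImplicit false

namespace H28S28

open ModularCurve ModularCurve.IgusaScheme

/-- **V6b, general form**: the same statement for an arbitrary element `c` in place of `ℓ`. -/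
theorem h10_mid_of_fin_gen (N ℓ : ℕ) [NeZero N] [Fact ℓ.Prime]
    (O : Subring ↥(modularFunctionFieldFull N)) (hj : jFull N ∈ O)
    (c : ↥(modularFunctionFieldFull N))
    (hfin : ∀ x ∈ chartAlgFin N ℓ, (∃ o ∈ O, x = c * o) →
        ∃ y ∈ chartAlgFin N ℓ, x = c * y) :
    ∀ x ∈ chartAlgMid N ℓ, (∃ o ∈ O, x = c * o) →
        ∃ y ∈ chartAlgMid N ℓ, x = c * y := by
  rintro x hx ⟨o, ho, rfl⟩
  have hz : c * o ∈ chartAlg N ℓ (insert (jFull N)⁻¹ {jFull N}) := by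
    rw [show insert (jFull N)⁻¹ ({jFull N} : Set ↥(modularFunctionFieldFull N))
      = {jFull N, (jFull N)⁻¹} from Set.pair_comm _ _]
    exact hx
  obtain ⟨n, hn⟩ := exists_pow_mul_mem_chartAlg (Set.mem_singleton _) (jFull_ne_zero N) hz
  obtain ⟨y', hy', hy'eq⟩ := hfin _ hn ⟨jFull N ^ n * o, mul_mem (pow_mem hj n) ho, by ring⟩
  refine ⟨(jFull N)⁻¹ ^ n * y', ?_, ?_⟩
  · refine mul_mem (pow_mem ?_ n) (chartAlg_mono N ℓ (sFin_subset N) hy')
    exact subset_chartAlg N ℓ _ (by simp)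
  · have hj0 : jFull N ^ n ≠ 0 := pow_ne_zero _ (jFull_ne_zero N)
    have : c * ((jFull N)⁻¹ ^ n * y') = (jFull N)⁻¹ ^ n * (c * y') := by ring
    rw [this, ← hy'eq, inv_pow, ← mul_assoc, inv_mul_cancel₀ hj0, one_mul]

/-- **V6b.** -/
theorem h10_mid_of_fin (N ℓ : ℕ) [NeZero N] [Fact ℓ.Prime]
    (O : Subring ↥(modularFunctionFieldFull N)) (hj : jFull N ∈ O)
    (hfin : ∀ x ∈ chartAlgFin N ℓ, (∃ o ∈ O, x = (ℓ : ↥(modularFunctionFieldFull N)) * o) →
        ∃ y ∈ chartAlgFin N ℓ, x = (ℓ : ↥(modularFunctionFieldFull N)) * y) :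
    ∀ x ∈ chartAlgMid N ℓ, (∃ o ∈ O, x = (ℓ : ↥(modularFunctionFieldFull N)) * o) →
        ∃ y ∈ chartAlgMid N ℓ, x = (ℓ : ↥(modularFunctionFieldFull N)) * y :=
  h10_mid_of_fin_gen N ℓ O hj _ hfin

end H28S28
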