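import Mathlib

/-!
# S28, WP4: abstract basis lifting

`O ⊂ F` a "discrete valuation ring" with uniformiser `ϖ` and reduction map `red : O → κ`
(kernel `ϖ O`), `F₀ ⊂ F` a subfield containing `ϖ`, `κ₀ ⊂ κ` a subfield containing
`red (O ∩ F₀)`.  If `y₁, …, yₙ ∈ O` have `κ₀`-linearly independent reductions and
`[F : F₀] ≤ n`, then `O = ⊕ (O ∩ F₀) yᵢ`; in particular `O` is integral over `O ∩ F₀`.
-/

set_option autoImplicit false

noncomputable section

namespace H28S28

section BasisLift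

variable {F κ : Type} [Field F] [Field κ] (F₀ : Subfield F) (κ₀ : Subfield κ)
  (O : Subring F) (red : O →+* κ) (ϖ : O)

/-- Coefficients of an element of `O` with respect to a family with independent reductions
are in `O`. -/
theorem h13_coeff_mem (hϖne : (ϖ : F) ≠ 0) (hϖ : red ϖ = 0)
    (hval : ∀ x : F, x ≠ 0 → ∃ (a : ℤ) (u : O), red u ≠ 0 ∧ x = (ϖ : F) ^ a * u)
    (hred₀ : ∀ x : O, (x : F) ∈ F₀ → red x ∈ κ₀)
    (n : ℕ) (y : Fin n → O) (hy : LinearIndependent κ₀ (fun i => red (y i)))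
    (c : Fin n → F) (hc : ∀ i, c i ∈ F₀) (hz : (∑ i, c i * (y i : F)) ∈ O) (hϖ0 : (ϖ : F) ∈ F₀) :
    ∀ i, c i ∈ O := by
  classical
  by_contra hcon
  rw [not_forall] at hcon
  obtain ⟨i₁, hi₁⟩ := hcon
  -- valuations of the coefficients
  have hex : ∀ i, ∃ (a : ℤ) (u : O), (c i ≠ 0 → red u ≠ 0 ∧ c i = (ϖ : F) ^ a * u) ∧
      (c i = 0 → a = 0) := by
    intro i
    by_cases h0 : c i = 0
    · exact ⟨0, 0, fun h => absurd h0 h, fun _ => rfl⟩
    · obtain ⟨a, u, hu, hcu⟩ := hval (c i) h0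
      exact ⟨a, u, fun _ => ⟨hu, hcu⟩, fun h => absurd h h0⟩
  choose a u hau ha0 using hex
  have hne : (Finset.univ : Finset (Fin n)).Nonempty := ⟨i₁, Finset.mem_univ _⟩
  obtain ⟨i₀, -, hmin⟩ := Finset.exists_min_image Finset.univ a hne
  have hci₁ : c i₁ ≠ 0 := by
    intro h
    apply hi₁
    rw [h]
    exact O.zero_mem
  have hai₁ : a i₁ < 0 := by
    by_contra hge
    rw [not_lt] at hge
    apply hi₁
    rw [(hau i₁ hci₁).2]
    obtain ⟨k, hk⟩ := Int.eq_ofNat_of_zero_le hge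
    rw [hk, zpow_natCast]
    exact O.mul_mem (O.pow_mem ϖ.2 k) (u i₁).2
  have hm : a i₀ < 0 := lt_of_le_of_lt (hmin i₁ (Finset.mem_univ _)) hai₁
  have hci₀ : c i₀ ≠ 0 := by
    intro h
    have := ha0 i₀ h
    omega
  obtain ⟨k, hk⟩ : ∃ k : ℕ, a i₀ = -(k : ℤ) := by
    obtain ⟨k, hk⟩ := Int.eq_ofNat_of_zero_le (neg_nonneg.mpr hm.le)
    exact ⟨k, by omega⟩
  have hkpos : 0 < k := by omega
  -- scaled coefficients lie in `O`
  have hscaled : ∀ i, (ϖ : F) ^ k * c i ∈ O := by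
    intro i
    by_cases h0 : c i = 0
    · rw [h0, mul_zero]
      exact O.zero_mem
    · have hle : a i₀ ≤ a i := hmin i (Finset.mem_univ _)
      obtain ⟨m, hm'⟩ := Int.eq_ofNat_of_zero_le (show (0 : ℤ) ≤ k + a i by omega)
      have h1 : (ϖ : F) ^ k * c i = (ϖ : F) ^ m * (u i : F) := by
        conv_lhs => rw [(hau i h0).2]
        rw [← mul_assoc, ← zpow_natCast, ← zpow_add₀ hϖne, hm', zpow_natCast]
      rw [h1]
      exact O.mul_mem (O.pow_mem ϖ.2 m) (u i).2
  have hscaled₀ : ∀ i, (ϖ : F) ^ k * c i ∈ F₀ := fun i =>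
    F₀.mul_mem (F₀.pow_mem hϖ0 k) (hc i)
  -- the scaled relation, reduced
  have hrel : (∑ i, (⟨(ϖ : F) ^ k * c i, hscaled i⟩ : O) * y i) =
      ϖ ^ k * ⟨∑ i, c i * (y i : F), hz⟩ := by
    apply Subtype.ext
    push_cast
    rw [Finset.mul_sum]
    refine Finset.sum_congr rfl (fun i _ => ?_)
    ring
  have hred : ∑ i, red (⟨(ϖ : F) ^ k * c i, hscaled i⟩ : O) * red (y i) = 0 := by
    have h1 := congrArg red hrel
    rw [map_sum, map_mul, map_pow, hϖ, zero_pow hkpos.ne', zero_mul] at h1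
    simpa only [map_mul] using h1
  have hzero := (Fintype.linearIndependent_iff.mp hy)
    (fun i => ⟨red (⟨(ϖ : F) ^ k * c i, hscaled i⟩ : O), hred₀ _ (hscaled₀ i)⟩) (by
      simpa only [Subfield.smul_def, smul_eq_mul] using hred) i₀
  have hz0 : red (⟨(ϖ : F) ^ k * c i₀, hscaled i₀⟩ : O) = 0 := congrArg Subtype.val hzero
  -- but the `i₀`-th scaled coefficient is the unit `u i₀`
  have hu0 : (⟨(ϖ : F) ^ k * c i₀, hscaled i₀⟩ : O) = u i₀ := by
    apply Subtype.ext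
    show (ϖ : F) ^ k * c i₀ = u i₀
    conv_lhs => rw [(hau i₀ hci₀).2]
    rw [← mul_assoc, ← zpow_natCast, ← zpow_add₀ hϖne, hk, add_neg_cancel, zpow_zero, one_mul]
  rw [hu0] at hz0
  exact (hau i₀ hci₀).1 hz0

/-- The family `y` is linearly independent over `F₀`. -/
theorem h13_linearIndependent_lift (hϖne : (ϖ : F) ≠ 0) (hϖ : red ϖ = 0)
    (hval : ∀ x : F, x ≠ 0 → ∃ (a : ℤ) (u : O), red u ≠ 0 ∧ x = (ϖ : F) ^ a * u)
    (hred₀ : ∀ x : O, (x : F) ∈ F₀ → red x ∈ κ₀)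
    (n : ℕ) (y : Fin n → O) (hy : LinearIndependent κ₀ (fun i => red (y i)))
    (hϖ0 : (ϖ : F) ∈ F₀) :
    LinearIndependent F₀ (fun i => (y i : F)) := by
  classical
  rw [Fintype.linearIndependent_iff]
  intro g hg i₀
  by_contra hne
  have hne' : ((g i₀ : F₀) : F) ≠ 0 := fun h => hne (Subtype.ext h)
  obtain ⟨a, u, hu, hgu⟩ := hval _ hne'
  -- scale by `ϖ^(-a-1)`
  have hmem := h13_coeff_mem F₀ κ₀ O red ϖ hϖne hϖ hval hred₀ n y hy
    (fun i => (ϖ : F) ^ (-a - 1) * (g i : F))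
    (fun i => F₀.mul_mem (F₀.zpow_mem hϖ0 _) (g i).2)
    (by
      have h1 : (∑ i, (ϖ : F) ^ (-a - 1) * (g i : F) * (y i : F)) =
          (ϖ : F) ^ (-a - 1) * ∑ i, (g i) • (y i : F) := by
        rw [Finset.mul_sum]
        refine Finset.sum_congr rfl (fun i _ => ?_)
        rw [Subfield.smul_def, smul_eq_mul, mul_assoc]
      rw [h1, hg, mul_zero]
      exact O.zero_mem) hϖ0 i₀
  have h2 : (ϖ : F) ^ (-a - 1) * (g i₀ : F) = (ϖ : F)⁻¹ * (u : F) := by
    rw [hgu, ← mul_assoc, ← zpow_add₀ hϖne]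
    have : -a - 1 + a = -1 := by ring
    rw [this, zpow_neg_one]
  rw [h2] at hmem
  -- so `u = ϖ * w` with `w ∈ O`, hence `red u = 0`
  have h3 : u = ϖ * ⟨(ϖ : F)⁻¹ * (u : F), hmem⟩ := by
    apply Subtype.ext
    show (u : F) = (ϖ : F) * ((ϖ : F)⁻¹ * (u : F))
    rw [← mul_assoc, mul_inv_cancel₀ hϖne, one_mul]
  apply hu
  rw [h3, map_mul, hϖ, zero_mul]

/-- **Basis lifting**: every element of `O` is an `(O ∩ F₀)`-combination of the `yᵢ`. -/
theorem h13_basis_lifting (hϖne : (ϖ : F) ≠ 0) (hϖ0 : (ϖ : F) ∈ F₀) (hϖ : red ϖ = 0)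
    (hval : ∀ x : F, x ≠ 0 → ∃ (a : ℤ) (u : O), red u ≠ 0 ∧ x = (ϖ : F) ^ a * u)
    (hred₀ : ∀ x : O, (x : F) ∈ F₀ → red x ∈ κ₀)
    (n : ℕ) (y : Fin n → O) (hy : LinearIndependent κ₀ (fun i => red (y i)))
    (hbound : ∀ s : Finset F, LinearIndependent F₀ (fun x : s => (x : F)) → s.card ≤ n) :
    ∀ x : O, ∃ c : Fin n → O, (∀ i, (c i : F) ∈ F₀) ∧ x = ∑ i, c i * y i := by
  classical
  intro x
  have hli := h13_linearIndependent_lift F₀ κ₀ O red ϖ hϖne hϖ hval hred₀ n y hy hϖ0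
  -- spanning
  have hspan : (x : F) ∈ Submodule.span F₀ (Set.range (fun i => (y i : F))) := by
    by_contra hx
    have hS : LinearIndepOn F₀ id (Set.range (fun i => (y i : F))) :=
      LinearIndependent.linearIndepOn_id hli
    have hins : LinearIndepOn F₀ id (insert (x : F) (Set.range (fun i => (y i : F)))) :=
      LinearIndepOn.id_insert hS hx
    have hinj : Function.Injective (fun i => (y i : F)) := hli.injective
    have hxnot : (x : F) ∉ Finset.univ.image (fun i => (y i : F)) := by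
      intro hmem
      apply hx
      obtain ⟨i, -, hi⟩ := Finset.mem_image.mp hmem
      exact Submodule.subset_span ⟨i, hi⟩
    have hcoe : ((insert (x : F) (Finset.univ.image (fun i => (y i : F))) : Finset F) : Set F) =
        insert (x : F) (Set.range (fun i => (y i : F))) := by
      rw [Finset.coe_insert, Finset.coe_image, Finset.coe_univ, Set.image_univ]
    have hli' : LinearIndependent F₀
        (fun b : (insert (x : F) (Finset.univ.image (fun i => (y i : F))) : Finset F) =>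
          (b : F)) := by
      have h1 : LinearIndepOn F₀ id
          ((insert (x : F) (Finset.univ.image (fun i => (y i : F))) : Finset F) : Set F) := by
        rw [hcoe]
        exact hins
      exact h1
    have hcard := hbound _ hli'
    rw [Finset.card_insert_of_notMem hxnot, Finset.card_image_of_injective _ hinj,
      Finset.card_univ, Fintype.card_fin] at hcard
    omega
  obtain ⟨c, hc⟩ := (Submodule.mem_span_range_iff_exists_fun F₀).mp hspan
  have hsum : (∑ i, (c i : F) * (y i : F)) = (x : F) := by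
    rw [← hc]
    refine Finset.sum_congr rfl (fun i _ => ?_)
    rw [Subfield.smul_def, smul_eq_mul]
  have hmem := h13_coeff_mem F₀ κ₀ O red ϖ hϖne hϖ hval hred₀ n y hy
    (fun i => (c i : F)) (fun i => (c i).2) (by rw [hsum]; exact x.2) hϖ0
  refine ⟨fun i => ⟨(c i : F), hmem i⟩, fun i => (c i).2, ?_⟩
  apply Subtype.ext
  push_cast
  exact hsum.symm

/-- Every element of `O` is integral over `O ∩ F₀`. -/
theorem h13_isIntegral_of_basis (hϖne : (ϖ : F) ≠ 0) (hϖ0 : (ϖ : F) ∈ F₀) (hϖ : red ϖ = 0)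
    (hval : ∀ x : F, x ≠ 0 → ∃ (a : ℤ) (u : O), red u ≠ 0 ∧ x = (ϖ : F) ^ a * u)
    (hred₀ : ∀ x : O, (x : F) ∈ F₀ → red x ∈ κ₀)
    (n : ℕ) (y : Fin n → O) (hy : LinearIndependent κ₀ (fun i => red (y i)))
    (hbound : ∀ s : Finset F, LinearIndependent F₀ (fun x : s => (x : F)) → s.card ≤ n)
    (x : F) (hx : x ∈ O) : IsIntegral (↥(O ⊓ F₀.toSubring)) x := by
  classical
  have hbl := h13_basis_lifting F₀ κ₀ O red ϖ hϖne hϖ0 hϖ hval hred₀ n y hy hbound
  -- `O` as a subalgebra over `O ∩ F₀`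
  let S : Subalgebra (↥(O ⊓ F₀.toSubring)) F :=
    { O.toSubsemiring with
      algebraMap_mem' := fun r => (r.2).1 }
  have hS : ∀ z : F, z ∈ S ↔ z ∈ O := fun z => Iff.rfl
  refine IsIntegral.of_mem_of_fg S ?_ x ((hS x).mpr hx)
  refine ⟨Finset.univ.image (fun i => (y i : F)), ?_⟩
  apply le_antisymm
  · rw [Submodule.span_le]
    intro z hz
    rw [Finset.coe_image, Finset.coe_univ, Set.image_univ] at hz
    obtain ⟨i, rfl⟩ := hz
    exact (y i).2
  · intro z hz
    obtain ⟨c, hc0, hc⟩ := hbl ⟨z, hz⟩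
    have hz' : z = ∑ i, (⟨(c i : F), ⟨(c i).2, hc0 i⟩⟩ : ↥(O ⊓ F₀.toSubring)) • (y i : F) := by
      have := congrArg Subtype.val hc
      push_cast at this
      rw [this]
      rfl
    rw [hz']
    refine Submodule.sum_mem _ (fun i _ => Submodule.smul_mem _ _ (Submodule.subset_span ?_))
    rw [Finset.coe_image, Finset.coe_univ, Set.image_univ]
    exact ⟨i, rfl⟩

end BasisLift

end H28S28
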