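import Mathlib
import Fermat.Agent.S28.Interface
import Fermat.Agent.S28.Val

/-!
# S28, WP4: lifting the WP3 family to `ℓ`-integral series

From `DegreeLowerBound N ℓ` (a family of `ψ(N)` elements of `𝔽_ℓ(J_d : d ∣ N)`, linearly
independent over `𝔽_ℓ(J)`) we produce `ψ(N)` series with coefficients in `ℤ_(ℓ)` which lie in
`F_N = ℚ(j_d : d ∣ N)` and whose reductions mod `ℓ` are linearly independent over `𝔽_ℓ(J)`.
-/

set_option autoImplicit false
open ModularCurve HahnSeries

noncomputable section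

namespace H28S28

variable (N : ℕ) [NeZero N] (ℓ : ℕ) [Fact ℓ.Prime]

/-- `ρ (j(q^d)) = J(q^d)`. -/
theorem h13_rhoL_jd (d : ℕ) [NeZero d] :
    rhoL ℓ (qExpand _ d (jqModC ↥(GaloisRep.ratLocalizedAt ℓ))) =
      qExpand (ZMod ℓ) d (jqModC (ZMod ℓ)) := by
  rw [rhoL, coeffMap_qExpand, coeffMap_jqModC]

omit [Fact ℓ.Prime] in
/-- `ε (j(q^d)) = j(q^d)`. -/
theorem h13_epsL_jd (d : ℕ) [NeZero d] :
    epsL ℓ (qExpand _ d (jqModC ↥(GaloisRep.ratLocalizedAt ℓ))) = qExpand ℚ d jq := by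
  rw [epsL, coeffMap_qExpand, coeffMap_jqModC]
  rfl

omit [NeZero N] in
/-- Every element of `𝔽_ℓ[J_d : d ∣ N]` is the reduction of an `ℓ`-integral series lying in
`F_N`. -/
theorem h13_exists_lift_of_mem_adjoin {z : LaurentSeries (ZMod ℓ)}
    (hz : z ∈ Algebra.adjoin (ZMod ℓ) (divisorExpansionsC (ZMod ℓ) N)) :
    ∃ f : LaurentSeries ↥(GaloisRep.ratLocalizedAt ℓ),
      rhoL ℓ f = z ∧ epsL ℓ f ∈ modularFunctionFieldFull N := by
  induction hz using Algebra.adjoin_induction with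
  | mem x hx =>
    obtain ⟨d, hd, hdN, rfl⟩ := hx
    have := hd
    exact ⟨qExpand _ d (jqModC ↥(GaloisRep.ratLocalizedAt ℓ)), h13_rhoL_jd ℓ d, by
      rw [h13_epsL_jd]
      exact jqd_mem_full N hdN⟩
  | algebraMap c =>
    obtain ⟨r, hr⟩ := zlRed_surjective ℓ c
    refine ⟨HahnSeries.C r, ?_, ?_⟩
    · rw [algebraMap_laurentSeries_eq_single, ← hr]
      show coeffMap (zlRed ℓ) (HahnSeries.single 0 r) = _
      rw [coeffMap_single]
    · have h1 : epsL ℓ (HahnSeries.C r) =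
          algebraMap ℚ (LaurentSeries ℚ) ((r : ↥(GaloisRep.ratLocalizedAt ℓ)) : ℚ) := by
        rw [algebraMap_laurentSeries_eq_single]
        show coeffMap _ (HahnSeries.single 0 r) = _
        rw [coeffMap_single]
        rfl
      rw [h1]
      exact (modularFunctionFieldFull N).algebraMap_mem _
  | add x y _ _ hx hy =>
    obtain ⟨f, hf, hf'⟩ := hx
    obtain ⟨g, hg, hg'⟩ := hy
    exact ⟨f + g, by rw [map_add, hf, hg], by rw [map_add]; exact add_mem hf' hg'⟩
  | mul x y _ _ hx hy =>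
    obtain ⟨f, hf, hf'⟩ := hx
    obtain ⟨g, hg, hg'⟩ := hy
    exact ⟨f * g, by rw [map_mul, hf, hg], by rw [map_mul]; exact mul_mem hf' hg'⟩

omit [NeZero N] in
/-- **Lift of the WP3 family**: `ψ(N)` `ℓ`-integral series in `F_N` whose reductions are
linearly independent over `𝔽_ℓ(J)`. -/
theorem h13_exists_lift_family (h : DegreeLowerBound N ℓ) :
    ∃ y : Fin (dedekindPsi N) → LaurentSeries ↥(GaloisRep.ratLocalizedAt ℓ),
      (∀ i, epsL ℓ (y i) ∈ modularFunctionFieldFull N) ∧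
      LinearIndependent ↥(IntermediateField.adjoin (ZMod ℓ) {jqModC (ZMod ℓ)})
        (fun i => rhoL ℓ (y i)) := by
  classical
  obtain ⟨s, hs, hli, hcard⟩ := h
  -- numerators and denominators
  have hfrac : ∀ x : s, ∃ r ∈ Algebra.adjoin (ZMod ℓ) (divisorExpansionsC (ZMod ℓ) N),
      ∃ t ∈ Algebra.adjoin (ZMod ℓ) (divisorExpansionsC (ZMod ℓ) N),
        t ≠ 0 ∧ (x : LaurentSeries (ZMod ℓ)) = r / t := by
    intro x
    obtain ⟨r, hr, t, ht, hx⟩ := IntermediateField.mem_adjoin_iff_div.mp (hs x x.2)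
    refine ⟨r, hr, t, ht, ?_, hx⟩
    rintro rfl
    rw [div_zero] at hx
    exact hli.ne_zero x hx
  choose r hr t ht ht0 hx using hfrac
  set B : LaurentSeries (ZMod ℓ) := ∏ x : s, t x with hB
  have hB0 : B ≠ 0 := Finset.prod_ne_zero_iff.mpr (fun x _ => ht0 x)
  have hmem : ∀ x : s, (x : LaurentSeries (ZMod ℓ)) * B ∈
      Algebra.adjoin (ZMod ℓ) (divisorExpansionsC (ZMod ℓ) N) := by
    intro x
    have h1 : (x : LaurentSeries (ZMod ℓ)) * B = r x * ∏ x' ∈ Finset.univ.erase x, t x' := by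
      rw [hB, ← Finset.mul_prod_erase Finset.univ t (Finset.mem_univ x), hx x, ← mul_assoc,
        div_mul_cancel₀ _ (ht0 x)]
    rw [h1]
    exact mul_mem (hr x) (Subalgebra.prod_mem _ (fun x' _ => ht x'))
  have hlift := fun x : s => h13_exists_lift_of_mem_adjoin N ℓ (hmem x)
  choose f hf hf' using hlift
  let e : Fin (dedekindPsi N) ≃ s := (Finset.equivFinOfCardEq hcard).symm
  refine ⟨fun i => f (e i), fun i => hf' (e i), ?_⟩
  have hmul : LinearIndependent ↥(IntermediateField.adjoin (ZMod ℓ) {jqModC (ZMod ℓ)})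
      (fun x : s => (x : LaurentSeries (ZMod ℓ)) * B) := by
    have h2 := hli.map' (LinearMap.mulRight
      ↥(IntermediateField.adjoin (ZMod ℓ) {jqModC (ZMod ℓ)}) B) (by
        rw [LinearMap.ker_eq_bot]
        intro a b hab
        simp only [LinearMap.mulRight_apply] at hab
        exact mul_right_cancel₀ hB0 hab)
    exact h2
  have h3 := hmul.comp e e.injective
  have h4 : (fun i => rhoL ℓ (f (e i))) =
      (fun x : s => (x : LaurentSeries (ZMod ℓ)) * B) ∘ e := by
    funext i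
    exact hf (e i)
  rw [h4]
  exact h3

end H28S28
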