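import Mathlib
import Fermat.Agent.S28.Interface
import Fermat.Agent.S28.Val
import Fermat.Agent.S28.ConcreteDefs
import Fermat.Agent.S28.BasisLift
import Fermat.Agent.S28.LiftFamily
import Fermat.Agent.S28.GaussPoly

/-!
# S28, WP4 (W2): `O ∩ F_N` is integral over `O ∩ ℚ(j)`

Instantiation of the abstract basis lifting lemma (`BasisLift.lean`) for `F = F_N`,
`O = h28O`, `red = h28red`, `ϖ = h28pi`, `F₀ = h28F0`, `κ₀ = h28k0`, with the lifted WP3 family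
(`LiftFamily.lean`), `hred₀` from the Gauss lemma (`GaussPoly.lean`) and the WP2 bound.
-/

set_option autoImplicit false
open ModularCurve HahnSeries

noncomputable section

namespace H28S28

variable (N : ℕ) [NeZero N] (ℓ : ℕ) [Fact ℓ.Prime]

omit [Fact ℓ.Prime] in
theorem h13_ratCast_mem_Fbig (q : ℚ) : algebraMap ℚ (LaurentSeries ℚ) q ∈ Fbig ℓ := by
  rw [eq_ratCast]
  exact SubfieldClass.ratCast_mem (Fbig ℓ) q

omit [NeZero N] [Fact ℓ.Prime] in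
/-- `F_N` is contained in the fraction field of `ℓ`-integral series. -/
theorem h13_FN_le_Fbig {x : LaurentSeries ℚ} (hx : x ∈ modularFunctionFieldFull N) :
    x ∈ Fbig ℓ := by
  have hle : modularFunctionFieldFull N ≤
      (Fbig ℓ).toIntermediateField (h13_ratCast_mem_Fbig ℓ) := by
    rw [modularFunctionFieldFull, IntermediateField.adjoin_le_iff]
    rintro y ⟨d, hd, -, rfl⟩
    have := hd
    show qExpand ℚ d jq ∈ Fbig ℓ
    rw [← h13_epsL_jd ℓ d]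
    exact epsL_mem_Fbig ℓ _
  exact hle hx

omit [NeZero N] in
theorem h13_h28red_pi : h28red N ℓ (h28pi N ℓ) = 0 := by
  have h : h28pi N ℓ = ((ℓ : ℕ) : ↥(h28O N ℓ)) := Subtype.ext rfl
  rw [h, map_natCast]
  exact natCast_eq_zero_Lk ℓ

omit [NeZero N] in
theorem h13_h28pi_ne_zero :
    ((h28pi N ℓ : ↥(h28O N ℓ)) : ↥(modularFunctionFieldFull N)) ≠ 0 := by
  rw [coe_h28pi]
  have hℓ : (ℓ : ℚ) ≠ 0 := by exact_mod_cast (Fact.out : ℓ.Prime).ne_zero
  intro h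
  have h2 : ((ℓ : ℕ) : ↥(modularFunctionFieldFull N)) =
      algebraMap ℚ ↥(modularFunctionFieldFull N) (ℓ : ℚ) := by rw [map_natCast]
  rw [h2, map_eq_zero] at h
  exact hℓ h

omit [NeZero N] in
theorem h13_h28pi_mem_F0 :
    ((h28pi N ℓ : ↥(h28O N ℓ)) : ↥(modularFunctionFieldFull N)) ∈ h28F0 N := by
  rw [coe_h28pi]
  exact natCast_mem (h28F0 N) ℓ

omit [NeZero N] in
/-- **`ℓ`-adic decomposition in `F_N`.** -/
theorem h13_hval : ∀ x : ↥(modularFunctionFieldFull N), x ≠ 0 →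
    ∃ (a : ℤ) (u : ↥(h28O N ℓ)), h28red N ℓ u ≠ 0 ∧
      x = ((h28pi N ℓ : ↥(h28O N ℓ)) : ↥(modularFunctionFieldFull N)) ^ a * u := by
  intro x hx
  have hx' : (x : LaurentSeries ℚ) ≠ 0 := fun h => hx (Subtype.ext h)
  obtain ⟨n, o, ho, hxo⟩ := exists_zpow_mul_unit ℓ (x : LaurentSeries ℚ)
    (h13_FN_le_Fbig N ℓ x.2) hx'
  have hℓ := natCast_ne_zero_LQ ℓ
  have hoF : (o : LaurentSeries ℚ) ∈ modularFunctionFieldFull N := by
    have h1 : (o : LaurentSeries ℚ) = ((ℓ : LaurentSeries ℚ)) ^ (-n) * (x : LaurentSeries ℚ) := by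
      rw [hxo, ← mul_assoc, ← zpow_add₀ hℓ, neg_add_cancel, zpow_zero, one_mul]
    rw [h1]
    exact mul_mem (zpow_mem (natCast_mem _ ℓ) _) x.2
  refine ⟨n, ⟨⟨(o : LaurentSeries ℚ), hoF⟩, o.2⟩, ?_, ?_⟩
  · rw [h28red_apply]
    exact ho
  · apply Subtype.ext
    rw [coe_h28pi]
    push_cast
    exact hxo

omit [NeZero N] in
/-- `red (O ∩ ℚ(j)) ⊆ 𝔽_ℓ(J)`. -/
theorem h13_hred0 : ∀ x : ↥(h28O N ℓ), (x : ↥(modularFunctionFieldFull N)) ∈ h28F0 N →
    h28red N ℓ x ∈ h28k0 ℓ := by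
  intro x hx
  rw [h28red_apply, mem_h28k0_iff]
  exact h13_redHom_mem_adjoin_j ℓ _ hx

omit [NeZero N] in
/-- the lifted WP3 family inside `O` -/
theorem h13_exists_family (hL : DegreeLowerBound N ℓ) :
    ∃ y : Fin (dedekindPsi N) → ↥(h28O N ℓ),
      LinearIndependent ↥(h28k0 ℓ) (fun i => h28red N ℓ (y i)) := by
  obtain ⟨y', hyF, hyli⟩ := h13_exists_lift_family N ℓ hL
  refine ⟨fun i => ⟨⟨epsL ℓ (y' i), hyF i⟩, epsL_mem_Obig ℓ (y' i)⟩, ?_⟩
  have hred : ∀ i, h28red N ℓ ⟨⟨epsL ℓ (y' i), hyF i⟩, epsL_mem_Obig ℓ (y' i)⟩ =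
      rhoL ℓ (y' i) := fun i => by
    rw [h28red_apply]
    exact redHom_epsL ℓ (y' i)
  rw [Fintype.linearIndependent_iff] at hyli ⊢
  intro g hg i
  have h1 := hyli (fun i => ⟨(g i : LaurentSeries (ZMod ℓ)), (g i).2⟩) (by
    rw [← hg]
    refine Finset.sum_congr rfl (fun i _ => ?_)
    rw [hred i]
    rfl) i
  exact Subtype.ext (congrArg Subtype.val h1)

omit [NeZero N] in
/-- **(W2)** every element of `O ∩ F_N` is integral over `O ∩ ℚ(j)`; the WP2 bound is a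
hypothesis in the exact shape of `h10_hbound`. -/
theorem h13_isIntegral_O_of_hbound
    (hbound : ∀ s : Finset ↥(modularFunctionFieldFull N),
      LinearIndependent ↥(h28F0 N) (fun x : s => (x : ↥(modularFunctionFieldFull N))) →
        s.card ≤ dedekindPsi N)
    (hL : DegreeLowerBound N ℓ)
    (x : ↥(modularFunctionFieldFull N)) (hx : x ∈ h28O N ℓ) :
    IsIntegral ↥(h28O N ℓ ⊓ (h28F0 N).toSubring) x := by
  obtain ⟨y, hy⟩ := h13_exists_family N ℓ hL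
  exact h13_isIntegral_of_basis (h28F0 N) (h28k0 ℓ) (h28O N ℓ) (h28red N ℓ) (h28pi N ℓ)
    (h13_h28pi_ne_zero N ℓ) (h13_h28pi_mem_F0 N ℓ) (h13_h28red_pi N ℓ) (h13_hval N ℓ)
    (h13_hred0 N ℓ) (dedekindPsi N) y hy hbound x hx

omit [NeZero N] in
/-- the basis statement: every element of `O ∩ F_N` is an `(O ∩ ℚ(j))`-combination of the
lifted family. -/
theorem h13_basis_O_of_hbound
    (hbound : ∀ s : Finset ↥(modularFunctionFieldFull N),
      LinearIndependent ↥(h28F0 N) (fun x : s => (x : ↥(modularFunctionFieldFull N))) →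
        s.card ≤ dedekindPsi N)
    (hL : DegreeLowerBound N ℓ) :
    ∃ y : Fin (dedekindPsi N) → ↥(h28O N ℓ),
      LinearIndependent ↥(h28k0 ℓ) (fun i => h28red N ℓ (y i)) ∧
      ∀ x : ↥(h28O N ℓ), ∃ c : Fin (dedekindPsi N) → ↥(h28O N ℓ),
        (∀ i, ((c i : ↥(h28O N ℓ)) : ↥(modularFunctionFieldFull N)) ∈ h28F0 N) ∧
          x = ∑ i, c i * y i := by
  obtain ⟨y, hy⟩ := h13_exists_family N ℓ hL
  exact ⟨y, hy, h13_basis_lifting (h28F0 N) (h28k0 ℓ) (h28O N ℓ) (h28red N ℓ) (h28pi N ℓ)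
    (h13_h28pi_ne_zero N ℓ) (h13_h28pi_mem_F0 N ℓ) (h13_h28red_pi N ℓ) (h13_hval N ℓ)
    (h13_hred0 N ℓ) (dedekindPsi N) y hy hbound⟩

end H28S28
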