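import Mathlib
import Fermat.Prelude.Def_ModularCurve_IgusaScheme
import Fermat.Prelude.Def_ModularCurve_X0ModL

/-!
# S28, plumbing: integrality of the base change of the Igusa scheme from the three charts
-/

set_option autoImplicit false
open AlgebraicGeometry CategoryTheory CategoryTheory.Limits ModularCurve ModularCurve.IgusaScheme
open scoped TensorProduct

noncomputable section

namespace Fermat.Agent.H28S28

/-- A space covered by two irreducible subsets with a common point in an open subset of both is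
irreducible (version with open pieces). -/
theorem h28_irreducibleSpace_of_cover {X : Type*} [TopologicalSpace X] (U V : Set X)
    (hU : IsOpen U) (hV : IsOpen V) (hUi : IsIrreducible U) (hVi : IsIrreducible V)
    (hUV : (U ∩ V).Nonempty) (hcov : U ∪ V = Set.univ) : IrreducibleSpace X := by
  have key : ∀ W : Set X, IsOpen W → W.Nonempty → (W ∩ U).Nonempty ∧ (W ∩ V).Nonempty := by
    intro W hW hWne
    obtain ⟨x, hx⟩ := hWne
    have hxc : x ∈ U ∪ V := by rw [hcov]; trivial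
    rcases hxc with hxU | hxV
    · refine ⟨⟨x, hx, hxU⟩, ?_⟩
      -- W ∩ U and V ∩ U are nonempty opens meeting the irreducible U
      obtain ⟨y, hyU, hyW, hyV⟩ := hUi.2 W V hW hV ⟨x, hxU, hx⟩
        (by obtain ⟨z, hzU, hzV⟩ := hUV; exact ⟨z, hzU, hzV⟩)
      exact ⟨y, hyW, hyV⟩
    · refine ⟨?_, ⟨x, hx, hxV⟩⟩
      obtain ⟨y, hyV, hyW, hyU⟩ := hVi.2 W U hW hU ⟨x, hxV, hx⟩
        (by obtain ⟨z, hzU, hzV⟩ := hUV; exact ⟨z, hzV, hzU⟩)
      exact ⟨y, hyW, hyU⟩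
  have hne : Nonempty X := by
    obtain ⟨z, -⟩ := hUV
    exact ⟨z⟩
  refine { toPreirreducibleSpace := ⟨?_⟩, toNonempty := hne }
  intro W W' hW hW' hWne hW'ne
  simp only [Set.univ_inter] at hWne hW'ne ⊢
  obtain ⟨h1, -⟩ := key W hW hWne
  obtain ⟨h2, -⟩ := key W' hW' hW'ne
  obtain ⟨y, hyU, hyW, hyW'⟩ := hUi.2 W W' hW hW'
    (by obtain ⟨z, hzW, hzU⟩ := h1; exact ⟨z, hzU, hzW⟩)
    (by obtain ⟨z, hzW, hzU⟩ := h2; exact ⟨z, hzU, hzW⟩)
  exact ⟨y, hyW, hyW'⟩

variable (N : ℕ) [NeZero N] (ℓ : ℕ) [Fact ℓ.Prime]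


/-- `ℤ_(ℓ)` as a type -/
abbrev Zl (ℓ : ℕ) : Type := ↥(GaloisRep.ratLocalizedAt ℓ)

variable (K : Type) [Field K] [Algebra (Zl ℓ) K]

/-- the structure map `Spec K ⟶ Spec ℤ_(ℓ)` -/
abbrev gK : Spec (CommRingCat.of K) ⟶ Spec (CommRingCat.of (Zl ℓ)) :=
  Spec.map (CommRingCat.ofHom (algebraMap (Zl ℓ) K))

abbrev sFin : XFin N ℓ ⟶ Spec (CommRingCat.of (Zl ℓ)) :=
  Spec.map (CommRingCat.ofHom (algebraMap (Zl ℓ) (chartAlgFin N ℓ)))

abbrev sInf : XInf N ℓ ⟶ Spec (CommRingCat.of (Zl ℓ)) :=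
  Spec.map (CommRingCat.ofHom (algebraMap (Zl ℓ) (chartAlgInf N ℓ)))

abbrev sMid : XMid N ℓ ⟶ Spec (CommRingCat.of (Zl ℓ)) :=
  Spec.map (CommRingCat.ofHom (algebraMap (Zl ℓ) (chartAlgMid N ℓ)))

theorem fFin_sFin : fFin N ℓ ≫ sFin N ℓ = sMid N ℓ := by
  have h : (inclFin N ℓ).toRingHom.comp (algebraMap (Zl ℓ) (chartAlgFin N ℓ)) =
      algebraMap (Zl ℓ) (chartAlgMid N ℓ) :=
    RingHom.ext fun a => (inclFin N ℓ).commutes a
  simp only [← Spec.map_comp, ← CommRingCat.ofHom_comp, h]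

/-- the three chart maps into the pullback -/
def aFin : pullback (sFin N ℓ) (gK ℓ K) ⟶ pullback (igusaTo N ℓ) (gK ℓ K) :=
  pullback.map _ _ _ _ (ιFin N ℓ) (𝟙 _) (𝟙 _) (by simp) (by simp)

def aInf : pullback (sInf N ℓ) (gK ℓ K) ⟶ pullback (igusaTo N ℓ) (gK ℓ K) :=
  pullback.map _ _ _ _ (ιInf N ℓ) (𝟙 _) (𝟙 _) (by simp) (by simp)

instance : IsOpenImmersion (aFin N ℓ K) := by
  unfold aFin; infer_instance

instance : IsOpenImmersion (aInf N ℓ K) := by
  unfold aInf; infer_instance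

theorem range_aFin : Set.range (aFin N ℓ K) =
    (pullback.fst (igusaTo N ℓ) (gK ℓ K)) ⁻¹' Set.range (ιFin N ℓ) := by
  unfold aFin
  rw [Scheme.Pullback.range_map]
  simp

theorem range_aInf : Set.range (aInf N ℓ K) =
    (pullback.fst (igusaTo N ℓ) (gK ℓ K)) ⁻¹' Set.range (ιInf N ℓ) := by
  unfold aInf
  rw [Scheme.Pullback.range_map]
  simp


/-- the middle chart map -/
def aMid : pullback (sMid N ℓ) (gK ℓ K) ⟶ pullback (igusaTo N ℓ) (gK ℓ K) :=
  pullback.map _ _ _ _ (fFin N ℓ ≫ ιFin N ℓ) (𝟙 _) (𝟙 _)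
    (by rw [Category.comp_id, Category.assoc, ιFin_igusaTo, fFin_sFin]) (by simp)

theorem aMid_fst : aMid N ℓ K ≫ pullback.fst (igusaTo N ℓ) (gK ℓ K) =
    pullback.fst (sMid N ℓ) (gK ℓ K) ≫ fFin N ℓ ≫ ιFin N ℓ := by
  unfold aMid
  exact pullback.lift_fst _ _ _

theorem range_aMid_subset_fin : Set.range (aMid N ℓ K) ⊆ Set.range (aFin N ℓ K) := by
  rw [range_aFin]
  rintro _ ⟨z, rfl⟩
  refine ⟨(fFin N ℓ) (pullback.fst (sMid N ℓ) (gK ℓ K) z), ?_⟩
  have h := congrArg (fun f => f z) (aMid_fst N ℓ K)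
  simp only [Scheme.Hom.comp_apply] at h
  exact h.symm

theorem range_aMid_subset_inf : Set.range (aMid N ℓ K) ⊆ Set.range (aInf N ℓ K) := by
  rw [range_aInf]
  rintro _ ⟨z, rfl⟩
  refine ⟨(fInf N ℓ) (pullback.fst (sMid N ℓ) (gK ℓ K) z), ?_⟩
  have h := congrArg (fun f => f z) ((aMid_fst N ℓ K).trans (by rw [glue_condition]))
  simp only [Scheme.Hom.comp_apply] at h
  exact h.symm

theorem range_aFin_union_range_aInf :
    Set.range (aFin N ℓ K) ∪ Set.range (aInf N ℓ K) = Set.univ := by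
  rw [range_aFin, range_aInf, ← Set.preimage_union]
  ext x
  simp only [Set.mem_preimage, Set.mem_union, Set.mem_univ, iff_true]
  exact mem_range_ιFin_or_mem_range_ιInf N ℓ _

omit [NeZero N] [Fact (Nat.Prime ℓ)] in
/-- the chart of the pullback is `Spec` of the tensor product -/
theorem isIntegral_chart (A : Subalgebra (Zl ℓ) ↥(modularFunctionFieldFull N))
    [IsDomain (TensorProduct (Zl ℓ) A K)] :
    IsIntegral (pullback (Spec.map (CommRingCat.ofHom (algebraMap (Zl ℓ) A))) (gK ℓ K)) :=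
  IsIntegral.of_isIso (pullbackSpecIso (Zl ℓ) A K).inv

theorem h28_isIntegral_pullback
    [IsDomain (TensorProduct (Zl ℓ) (chartAlgFin N ℓ) K)]
    [IsDomain (TensorProduct (Zl ℓ) (chartAlgInf N ℓ) K)]
    [IsDomain (TensorProduct (Zl ℓ) (chartAlgMid N ℓ) K)] :
    IsIntegral (pullback (igusaTo N ℓ) (gK ℓ K)) := by
  have h1 : IsIntegral (pullback (sFin N ℓ) (gK ℓ K)) := isIntegral_chart N ℓ K (chartAlgFin N ℓ)
  have h2 : IsIntegral (pullback (sInf N ℓ) (gK ℓ K)) := isIntegral_chart N ℓ K (chartAlgInf N ℓ)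
  have h3 : IsIntegral (pullback (sMid N ℓ) (gK ℓ K)) := isIntegral_chart N ℓ K (chartAlgMid N ℓ)
  have hirr : IrreducibleSpace ↥(pullback (igusaTo N ℓ) (gK ℓ K)) := by
    refine h28_irreducibleSpace_of_cover (Set.range (aFin N ℓ K)) (Set.range (aInf N ℓ K))
      (aFin N ℓ K).isOpenEmbedding.isOpen_range (aInf N ℓ K).isOpenEmbedding.isOpen_range
      ?_ ?_ ?_ (range_aFin_union_range_aInf N ℓ K)
    · rw [← Set.image_univ]
      exact (IrreducibleSpace.isIrreducible_univ _).image _ (aFin N ℓ K).continuous.continuousOn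
    · rw [← Set.image_univ]
      exact (IrreducibleSpace.isIrreducible_univ _).image _ (aInf N ℓ K).continuous.continuousOn
    · obtain ⟨z⟩ := (inferInstance : Nonempty ↥(pullback (sMid N ℓ) (gK ℓ K)))
      exact ⟨aMid N ℓ K z, range_aMid_subset_fin N ℓ K ⟨z, rfl⟩,
        range_aMid_subset_inf N ℓ K ⟨z, rfl⟩⟩
  have hred : IsReduced (pullback (igusaTo N ℓ) (gK ℓ K)) := by
    have (x : ↥(pullback (igusaTo N ℓ) (gK ℓ K))) :
        _root_.IsReduced ((pullback (igusaTo N ℓ) (gK ℓ K)).presheaf.stalk x) := by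
      have hx : x ∈ Set.range (aFin N ℓ K) ∪ Set.range (aInf N ℓ K) := by
        rw [range_aFin_union_range_aInf]; trivial
      rcases hx with ⟨y, rfl⟩ | ⟨y, rfl⟩
      · exact isReduced_of_injective _
          (asIso <| (aFin N ℓ K).stalkMap y).commRingCatIsoToRingEquiv.injective
      · exact isReduced_of_injective _
          (asIso <| (aInf N ℓ K).stalkMap y).commRingCatIsoToRingEquiv.injective
    exact isReduced_of_isReduced_stalk _
  exact isIntegral_of_irreducibleSpace_of_isReduced _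

end Fermat.Agent.H28S28
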