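import Mathlib
import Fermat.Prelude.Def_ModularCurve_IgusaScheme
import Fermat.Prelude.Def_ModularCurve_X0ModL

/-!
# S28, valuation step (WP4), slice V7: the tensor step

If a `ℤ_(ℓ)`-algebra `A` has a ring homomorphism `φ : A → 𝔽_ℓ((q))` whose kernel is contained in
`ℓ A`, then `A ⊗_{ℤ_(ℓ)} K` is a domain for every field `K` of characteristic `ℓ`:
`a ⊗ c ↦ c · φ(a)` is an injective ring homomorphism into `K((q))`.
-/

set_option autoImplicit false
open ModularCurve HahnSeries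
open scoped TensorProduct

noncomputable section

namespace H28S28

/-- Ring homomorphisms out of `ℤ_(ℓ)` are unique. -/
theorem h13_ringHom_ratLoc_ext (ℓ : ℕ) {S : Type*} [Ring S]
    (f g : ↥(GaloisRep.ratLocalizedAt ℓ) →+* S) : f = g := by
  ext ⟨q, hq⟩
  have hden : 0 < q.den := q.den_pos
  have hinvmem : ((q.den : ℚ))⁻¹ ∈ GaloisRep.ratLocalizedAt ℓ := by
    show (((q.den : ℚ))⁻¹).den.Coprime ℓ
    rw [Rat.inv_natCast_den_of_pos hden]
    exact hq
  set u : ↥(GaloisRep.ratLocalizedAt ℓ) := ⟨((q.den : ℚ))⁻¹, hinvmem⟩ with hu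
  have hd : (q.den : ↥(GaloisRep.ratLocalizedAt ℓ)) * u = 1 := by
    apply Subtype.ext
    show ((q.den : ℚ)) * ((q.den : ℚ))⁻¹ = 1
    exact mul_inv_cancel₀ (by exact_mod_cast hden.ne')
  have hq' : (⟨q, hq⟩ : ↥(GaloisRep.ratLocalizedAt ℓ)) =
      u * (q.num : ↥(GaloisRep.ratLocalizedAt ℓ)) := by
    apply Subtype.ext
    show q = ((q.den : ℚ))⁻¹ * (q.num : ℚ)
    rw [← Rat.den_mul_eq_num, ← mul_assoc, inv_mul_cancel₀ (by exact_mod_cast hden.ne'), one_mul]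
  have hgu : (q.den : S) * g u = 1 := by rw [← map_natCast g, ← map_mul, hd, map_one]
  have hfu' : f u * (q.den : S) = 1 := by
    rw [← map_natCast f, ← map_mul, mul_comm, hd, map_one]
  have huu : f u = g u := by
    calc f u = f u * ((q.den : S) * g u) := by rw [hgu, mul_one]
      _ = (f u * (q.den : S)) * g u := by rw [mul_assoc]
      _ = g u := by rw [hfu', one_mul]
  rw [hq', map_mul, map_mul, map_intCast, map_intCast, huu]

section Main

variable (ℓ : ℕ) [Fact ℓ.Prime] (A : Type) [CommRing A] [Algebra ↥(GaloisRep.ratLocalizedAt ℓ) A]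
  (φ : A →+* LaurentSeries (ZMod ℓ))
  (K : Type) [Field K] [Algebra ↥(GaloisRep.ratLocalizedAt ℓ) K] [CharP K ℓ]

/-- The coefficient extension `𝔽_ℓ((q)) → K((q))`. -/
def h13_extK : LaurentSeries (ZMod ℓ) →+* LaurentSeries K :=
  coeffMap (ZMod.castHom (dvd_refl ℓ) K)

/-- The `ℤ_(ℓ)`-algebra structure on `K((q))` through the constants. -/
@[reducible] def h13_algL : Algebra ↥(GaloisRep.ratLocalizedAt ℓ) (LaurentSeries K) :=
  ((HahnSeries.C : K →+* LaurentSeries K).comp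
    (algebraMap ↥(GaloisRep.ratLocalizedAt ℓ) K)).toAlgebra

omit [Fact ℓ.Prime] [CharP K ℓ] in
theorem h13_isScalarTower :
    @IsScalarTower ↥(GaloisRep.ratLocalizedAt ℓ) ↥(GaloisRep.ratLocalizedAt ℓ) (LaurentSeries K)
      _ (h13_algL ℓ K).toSMul (h13_algL ℓ K).toSMul :=
  letI := h13_algL ℓ K
  IsScalarTower.of_algebraMap_eq (fun _ => rfl)

/-- The comparison map `A ⊗ K → K((q))`, `a ⊗ c ↦ φ(a) · c`, as an algebra map. -/
def h13_compAlg :
    @AlgHom ↥(GaloisRep.ratLocalizedAt ℓ) (A ⊗[↥(GaloisRep.ratLocalizedAt ℓ)] K) (LaurentSeries K)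
      _ _ _ _ (h13_algL ℓ K) :=
  @Algebra.TensorProduct.lift ↥(GaloisRep.ratLocalizedAt ℓ) ↥(GaloisRep.ratLocalizedAt ℓ)
    A K (LaurentSeries K) _ _ _ _ _ _ _ _ _ _ (h13_algL ℓ K) (h13_algL ℓ K)
    (h13_isScalarTower ℓ K)
    (@AlgHom.mk ↥(GaloisRep.ratLocalizedAt ℓ) A (LaurentSeries K) _ _ _ _ (h13_algL ℓ K)
      ((h13_extK ℓ K).comp φ) (fun r => by
        have h := h13_ringHom_ratLoc_ext ℓ
          (((h13_extK ℓ K).comp φ).comp (algebraMap ↥(GaloisRep.ratLocalizedAt ℓ) A))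
          (@algebraMap ↥(GaloisRep.ratLocalizedAt ℓ) (LaurentSeries K) _ _ (h13_algL ℓ K))
        exact congrArg (fun F => F r) h))
    (@AlgHom.mk ↥(GaloisRep.ratLocalizedAt ℓ) K (LaurentSeries K) _ _ _ _ (h13_algL ℓ K)
      (HahnSeries.C : K →+* LaurentSeries K) (fun _ => rfl))
    (fun _ _ => Commute.all _ _)

/-- The comparison map `A ⊗ K → K((q))`, `a ⊗ c ↦ φ(a) · c`. -/
def h13_compMap : A ⊗[↥(GaloisRep.ratLocalizedAt ℓ)] K →+* LaurentSeries K :=
  @AlgHom.toRingHom ↥(GaloisRep.ratLocalizedAt ℓ) (A ⊗[↥(GaloisRep.ratLocalizedAt ℓ)] K)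
    (LaurentSeries K) _ _ _ _ (h13_algL ℓ K) (h13_compAlg ℓ A φ K)

theorem h13_compMap_tmul (a : A) (c : K) :
    h13_compMap ℓ A φ K (a ⊗ₜ c) = h13_extK ℓ K (φ a) * HahnSeries.C c :=
  @Algebra.TensorProduct.lift_tmul ↥(GaloisRep.ratLocalizedAt ℓ) ↥(GaloisRep.ratLocalizedAt ℓ)
    A K (LaurentSeries K) _ _ _ _ _ _ _ _ _ _ (h13_algL ℓ K) (h13_algL ℓ K)
    (h13_isScalarTower ℓ K) _ _ _ a c

theorem h13_coeff_compMap_tmul (a : A) (c : K) (n : ℤ) :
    (h13_compMap ℓ A φ K (a ⊗ₜ c)).coeff n =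
      ZMod.castHom (dvd_refl ℓ) K ((φ a).coeff n) * c := by
  rw [h13_compMap_tmul, mul_comm, HahnSeries.C_mul_eq_smul, HahnSeries.coeff_smul, smul_eq_mul,
    mul_comm]
  rfl

theorem h13_tmul_zmod_smul (x : A) (z : ZMod ℓ) (v : K) :
    x ⊗ₜ[↥(GaloisRep.ratLocalizedAt ℓ)] (ZMod.castHom (dvd_refl ℓ) K z * v) =
      (((z.val : ℕ) : A) * x) ⊗ₜ[↥(GaloisRep.ratLocalizedAt ℓ)] v := by
  have h1 : ZMod.castHom (dvd_refl ℓ) K z * v =
      ((z.val : ℕ) : ↥(GaloisRep.ratLocalizedAt ℓ)) • v := by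
    rw [Nat.cast_smul_eq_nsmul, nsmul_eq_mul, ZMod.natCast_val]
    rfl
  have h2 : ((z.val : ℕ) : A) * x = ((z.val : ℕ) : ↥(GaloisRep.ratLocalizedAt ℓ)) • x := by
    rw [Nat.cast_smul_eq_nsmul, nsmul_eq_mul]
  rw [h1, h2, TensorProduct.smul_tmul]

omit [Fact ℓ.Prime] in
theorem h13_ell_tmul (y : A) (v : K) :
    ((ℓ : A) * y) ⊗ₜ[↥(GaloisRep.ratLocalizedAt ℓ)] v = 0 := by
  have h2 : (ℓ : A) * y = ((ℓ : ℕ) : ↥(GaloisRep.ratLocalizedAt ℓ)) • y := by
    rw [Nat.cast_smul_eq_nsmul, nsmul_eq_mul]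
  have h3 : ((ℓ : ℕ) : ↥(GaloisRep.ratLocalizedAt ℓ)) • v = 0 := by
    rw [Nat.cast_smul_eq_nsmul, nsmul_eq_mul, CharP.cast_eq_zero K ℓ, zero_mul]
  rw [h2, TensorProduct.smul_tmul, h3, TensorProduct.tmul_zero]

theorem h13_compMap_injective (hφ : ∀ a : A, φ a = 0 → ∃ b : A, a = (ℓ : A) * b) :
    Function.Injective (h13_compMap ℓ A φ K) := by
  classical
  let _ : Algebra (ZMod ℓ) K := ZMod.algebra K ℓ
  let b := Module.Free.chooseBasis (ZMod ℓ) K
  have hsmul : ∀ (z : ZMod ℓ) (v : K), z • v = ZMod.castHom (dvd_refl ℓ) K z * v := by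
    intro z v
    rw [Algebra.smul_def]
    rfl
  have rep : ∀ t : A ⊗[↥(GaloisRep.ratLocalizedAt ℓ)] K,
      ∃ a : Module.Free.ChooseBasisIndex (ZMod ℓ) K →₀ A,
        t = a.sum (fun i x => x ⊗ₜ[↥(GaloisRep.ratLocalizedAt ℓ)] b i) := by
    intro t
    induction t using TensorProduct.induction_on with
    | zero => exact ⟨0, by simp⟩
    | tmul x c =>
      refine ⟨(b.repr c).mapRange (fun z => ((z.val : ℕ) : A) * x) (by simp), ?_⟩
      rw [Finsupp.sum_mapRange_index (by intro i; simp)]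
      conv_lhs => rw [← b.linearCombination_repr c, Finsupp.linearCombination_apply]
      unfold Finsupp.sum
      rw [TensorProduct.tmul_sum]
      refine Finset.sum_congr rfl (fun i _ => ?_)
      beta_reduce
      rw [hsmul, h13_tmul_zmod_smul]
    | add t₁ t₂ h₁ h₂ =>
      obtain ⟨a₁, rfl⟩ := h₁
      obtain ⟨a₂, rfl⟩ := h₂
      refine ⟨a₁ + a₂, (Finsupp.sum_add_index' (by simp) ?_).symm⟩
      intro i x y
      rw [TensorProduct.add_tmul]
  rw [injective_iff_map_eq_zero]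
  intro t ht
  obtain ⟨a, rfl⟩ := rep t
  have hcoef : ∀ (n : ℤ) (i : Module.Free.ChooseBasisIndex (ZMod ℓ) K),
      (φ (a i)).coeff n = 0 := by
    intro n i
    have h0 : Finsupp.linearCombination (ZMod ℓ) b
        (a.mapRange (fun x => (φ x).coeff n) (by simp)) = 0 := by
      rw [Finsupp.linearCombination_apply, Finsupp.sum_mapRange_index (by intro i; simp)]
      have h1 := congrArg (fun y : LaurentSeries K => y.coeff n) ht
      simp only [HahnSeries.coeff_zero] at h1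
      rw [← h1]
      unfold Finsupp.sum
      rw [map_sum, HahnSeries.coeff_sum]
      refine Finset.sum_congr rfl (fun i _ => ?_)
      beta_reduce
      rw [h13_coeff_compMap_tmul, hsmul]
    have h2 := (linearIndependent_iff.mp b.linearIndependent) _ h0
    have h3 := DFunLike.congr_fun h2 i
    simpa using h3
  unfold Finsupp.sum
  refine Finset.sum_eq_zero (fun i _ => ?_)
  have hz : φ (a i) = 0 := by
    ext n
    rw [hcoef n i, HahnSeries.coeff_zero]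
  obtain ⟨y, hy⟩ := hφ (a i) hz
  beta_reduce
  rw [hy, h13_ell_tmul]

/-- **V7 (tensor step)**: if the kernel of `φ : A → 𝔽_ℓ((q))` is contained in `ℓ A`, then
`A ⊗_{ℤ_(ℓ)} K` is a domain for every field `K` of characteristic `ℓ`. -/
theorem h13_tensor_isDomain (hφ : ∀ a : A, φ a = 0 → ∃ b : A, a = (ℓ : A) * b) :
    IsDomain (TensorProduct ↥(GaloisRep.ratLocalizedAt ℓ) A K) :=
  Function.Injective.isDomain (h13_compMap ℓ A φ K) (h13_compMap_injective ℓ A φ K hφ)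

end Main

/-- **V7 (tensor step)**, with helper28's exact binders. -/
theorem tensor_isDomain (ℓ : ℕ) [Fact ℓ.Prime]
    (A : Type) [CommRing A] [Algebra ↥(GaloisRep.ratLocalizedAt ℓ) A]
    (φ : A →+* LaurentSeries (ZMod ℓ))
    (hφ : ∀ a : A, φ a = 0 → ∃ b : A, a = (ℓ : A) * b)
    (K : Type) [Field K] [Algebra ↥(GaloisRep.ratLocalizedAt ℓ) K] [CharP K ℓ] :
    IsDomain (TensorProduct ↥(GaloisRep.ratLocalizedAt ℓ) A K) :=
  h13_tensor_isDomain ℓ A φ K hφ

end H28S28
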