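import Mathlib
import Fermat.Agent.S28.Charts
import Fermat.Agent.S28.MidFromFin
import Fermat.Agent.S28.TensorDomain
import Fermat.Agent.S28.Plumbing
import Fermat.Agent.S28.OInt

/-!
# S28, WP4 (helper28): reduction maps on the charts and the three tensor products
-/

set_option autoImplicit false
set_option linter.unusedSectionVars false

open ModularCurve ModularCurve.IgusaScheme

noncomputable section

namespace H28S28

variable {N : ℕ} [NeZero N] {ℓ : ℕ} [Fact ℓ.Prime]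

/-- the reduction map on a chart algebra generated by elements of `O` -/
def h28redA (hval : HValN N ℓ) (S : Set ↥(modularFunctionFieldFull N))
    (hS : ∀ s ∈ S, s ∈ h28O N ℓ) : ↥(chartAlg N ℓ S) →+* LaurentSeries (ZMod ℓ) :=
  (h28red N ℓ).comp ((chartAlg N ℓ S).toSubring.subtype.codRestrict (h28O N ℓ)
    (fun x => h28_chartAlg_le_O hval S hS x x.2))

theorem h28redA_apply (hval : HValN N ℓ) (S : Set ↥(modularFunctionFieldFull N))
    (hS : ∀ s ∈ S, s ∈ h28O N ℓ) (a : ↥(chartAlg N ℓ S)) :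
    h28redA hval S hS a =
      redHom ℓ ⟨((a : ↥(modularFunctionFieldFull N)) : LaurentSeries ℚ),
        h28_chartAlg_le_O hval S hS a a.2⟩ := rfl

/-- the kernel of the reduction map on a saturated chart is generated by `ℓ` -/
theorem h28redA_ker (hval : HValN N ℓ) (S : Set ↥(modularFunctionFieldFull N))
    (hS : ∀ s ∈ S, s ∈ h28O N ℓ)
    (hsat : ∀ o ∈ h28O N ℓ, (ℓ : ↥(modularFunctionFieldFull N)) * o ∈ chartAlg N ℓ S →
      o ∈ chartAlg N ℓ S) :
    ∀ a : ↥(chartAlg N ℓ S), h28redA hval S hS a = 0 →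
      ∃ b : ↥(chartAlg N ℓ S), a = (ℓ : ↥(chartAlg N ℓ S)) * b := by
  intro a ha
  rw [h28redA_apply, redHom_eq_zero_iff] at ha
  obtain ⟨y, hy⟩ := ha
  have hℓ0 : ((ℓ : ℕ) : LaurentSeries ℚ) ≠ 0 := natCast_ne_zero_LQ ℓ
  have hyF : (y : LaurentSeries ℚ) ∈ modularFunctionFieldFull N := by
    have h1 : (y : LaurentSeries ℚ) =
        ((ℓ : ℕ) : LaurentSeries ℚ)⁻¹ * ((a : ↥(modularFunctionFieldFull N)) : LaurentSeries ℚ) := by
      have h2 : ((a : ↥(modularFunctionFieldFull N)) : LaurentSeries ℚ) =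
          ((ℓ : ℕ) : LaurentSeries ℚ) * (y : LaurentSeries ℚ) := hy
      rw [h2, ← mul_assoc, inv_mul_cancel₀ hℓ0, one_mul]
    rw [h1]
    exact mul_mem (inv_mem (natCast_mem _ ℓ)) (a : ↥(modularFunctionFieldFull N)).2
  set o : ↥(modularFunctionFieldFull N) := ⟨(y : LaurentSeries ℚ), hyF⟩ with ho
  have hoO : o ∈ h28O N ℓ := by
    rw [mem_h28O_iff]
    exact y.2
  have hao : (a : ↥(modularFunctionFieldFull N)) = (ℓ : ↥(modularFunctionFieldFull N)) * o := by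
    apply Subtype.ext
    push_cast
    exact hy
  have hoA : o ∈ chartAlg N ℓ S := hsat o hoO (by rw [← hao]; exact a.2)
  refine ⟨⟨o, hoA⟩, ?_⟩
  apply Subtype.ext
  push_cast
  exact hao

variable (N ℓ)

theorem h28_j_mem_F0 : jFull N ∈ h28F0 N := by
  rw [mem_h28F0_iff, coe_jFull]
  exact IntermediateField.mem_adjoin_simple_self ℚ jq

theorem h28_jinv_mem_F0 : (jFull N)⁻¹ ∈ h28F0 N := inv_mem (h28_j_mem_F0 N)

theorem h28_j_mem_O : jFull N ∈ h28O N ℓ := by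
  rw [mem_h28O_iff, coe_jFull, ← h13_epsL_j ℓ]
  exact epsL_mem_Obig ℓ _

theorem h28_jinv_mem_O : (jFull N)⁻¹ ∈ h28O N ℓ := by
  rw [mem_h28O_iff]
  push_cast
  rw [coe_jFull, ← h13_epsL_jinv ℓ]
  exact epsL_mem_Obig ℓ _

/-- the saturation property of a chart algebra -/
def SatN (S : Set ↥(modularFunctionFieldFull N)) : Prop :=
  ∀ o ∈ h28O N ℓ, (ℓ : ↥(modularFunctionFieldFull N)) * o ∈ chartAlg N ℓ S →
      o ∈ chartAlg N ℓ S

variable {N ℓ}

theorem h28_sat_mid (hfin : SatN N ℓ {jFull N}) : SatN N ℓ {jFull N, (jFull N)⁻¹} := by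
  intro o ho hℓo
  have hℓ0 : (ℓ : ↥(modularFunctionFieldFull N)) ≠ 0 := by
    exact_mod_cast (Fact.out : ℓ.Prime).ne_zero
  obtain ⟨y, hy, hxy⟩ := h10_mid_of_fin N ℓ (h28O N ℓ) (h28_j_mem_O N ℓ)
    (fun x hx ⟨o', ho', hxo'⟩ => ⟨o', hfin o' ho' (hxo' ▸ hx), hxo'⟩) _ hℓo ⟨o, ho, rfl⟩
  have : o = y := mul_left_cancel₀ hℓ0 hxy
  rw [this]
  exact hy

/-- the tensor product of a saturated chart with a field of characteristic `ℓ` is a domain -/
theorem h28_chart_isDomain (hval : HValN N ℓ) (S : Set ↥(modularFunctionFieldFull N))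
    (hS : ∀ s ∈ S, s ∈ h28O N ℓ) (hsat : SatN N ℓ S)
    (K : Type) [Field K] [Algebra ↥(GaloisRep.ratLocalizedAt ℓ) K] [CharP K ℓ] :
    IsDomain (TensorProduct ↥(GaloisRep.ratLocalizedAt ℓ) ↥(chartAlg N ℓ S) K) :=
  tensor_isDomain ℓ ↥(chartAlg N ℓ S) (h28redA hval S hS) (h28redA_ker hval S hS hsat) K

/-- **The three chart tensor products are domains** (given `hbound` = WP2, `hL` = WP3 and the
structure of `ℚ[j]`, `ℚ[j⁻¹]`). -/
theorem h28_three_domains
    (hbound : ∀ s : Finset ↥(modularFunctionFieldFull N),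
      LinearIndependent ↥(h28F0 N) (fun x : s => (x : ↥(modularFunctionFieldFull N))) →
        s.card ≤ dedekindPsi N)
    (hL : DegreeLowerBound N ℓ)
    [IsIntegrallyClosed ↥(h28RQ N (jFull N))]
    (hRQ1 : IsFractionRing ↥(h28RQ N (jFull N)) ↥(h28F0 N))
    [IsIntegrallyClosed ↥(h28RQ N (jFull N)⁻¹)]
    (hRQ2 : IsFractionRing ↥(h28RQ N (jFull N)⁻¹) ↥(h28F0 N))
    (K : Type) [Field K] [Algebra ↥(GaloisRep.ratLocalizedAt ℓ) K] [CharP K ℓ] :
    IsDomain (TensorProduct ↥(GaloisRep.ratLocalizedAt ℓ) ↥(chartAlgFin N ℓ) K) ∧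
    IsDomain (TensorProduct ↥(GaloisRep.ratLocalizedAt ℓ) ↥(chartAlgInf N ℓ) K) ∧
    IsDomain (TensorProduct ↥(GaloisRep.ratLocalizedAt ℓ) ↥(chartAlgMid N ℓ) K) := by
  have hval : HValN N ℓ := h13_hval N ℓ
  have hint := h13_isIntegral_O_of_hbound N ℓ hbound hL
  have hfin : SatN N ℓ {jFull N} :=
    h28_saturated hval hint (jFull N) (h28_j_mem_F0 N) h28_gauss_j hRQ1
  have hinf : SatN N ℓ {(jFull N)⁻¹} :=
    h28_saturated hval hint (jFull N)⁻¹ (h28_jinv_mem_F0 N) h28_gauss_jinv hRQ2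
  have hmid : SatN N ℓ {jFull N, (jFull N)⁻¹} := h28_sat_mid hfin
  refine ⟨?_, ?_, ?_⟩
  · exact h28_chart_isDomain hval _ (fun s hs => by
      rw [Set.mem_singleton_iff.mp hs]; exact h28_j_mem_O N ℓ) hfin K
  · exact h28_chart_isDomain hval _ (fun s hs => by
      rw [Set.mem_singleton_iff.mp hs]; exact h28_jinv_mem_O N ℓ) hinf K
  · exact h28_chart_isDomain hval _ (fun s hs => by
      rcases hs with rfl | hs
      · exact h28_j_mem_O N ℓ
      · rw [Set.mem_singleton_iff.mp hs]; exact h28_jinv_mem_O N ℓ) hmid K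

end H28S28
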