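import Mathlib
import Fermat.Agent.S28.ConcreteDefs

/-!
# S28, WP4 slice W1 (helper10): the degree bound in the shape needed by `BasisLift`

From `DegreeUpperBound N` (stated inside `ℚ((q))` over `ℚ⟮j⟯`) we get the bound for finite
subsets of `F_N` that are linearly independent over the subfield `h28F0 N = ℚ(j)` of `F_N`.

Kernel note: statements are phrased with `h28incl` / `algebraMap` (not with a bare
`Subtype.val` on both sides), otherwise the kernel spends minutes comparing the two
intermediate fields.
-/

set_option autoImplicit false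
open ModularCurve HahnSeries

noncomputable section

namespace H28S28

variable (N : ℕ) [NeZero N]

theorem h10_adjoin_j_le_full :
    IntermediateField.adjoin ℚ {jq} ≤ modularFunctionFieldFull N := by
  rw [IntermediateField.adjoin_le_iff]
  rintro x rfl
  exact modularFunctionField_le_full N (jq_mem N)

/-- `ℚ⟮j⟯ → F₀`, the inverse of the inclusion. -/
def h10toF0 (r : ↥(IntermediateField.adjoin ℚ {jq})) : ↥(h28F0 N) :=
  ⟨⟨(r : LaurentSeries ℚ), h10_adjoin_j_le_full N r.2⟩, r.2⟩

theorem h10toF0_coe (r : ↥(IntermediateField.adjoin ℚ {jq})) :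
    h28incl N ((h10toF0 N r : ↥(h28F0 N)) : ↥(modularFunctionFieldFull N)) =
      algebraMap ↥(IntermediateField.adjoin ℚ {jq}) (LaurentSeries ℚ) r := by
  unfold h10toF0
  rfl

theorem h10_smul_coe (r : ↥(IntermediateField.adjoin ℚ {jq})) (m : ↥(modularFunctionFieldFull N)) :
    h28incl N (h10toF0 N r • m) = r • h28incl N m := by
  rw [Subfield.smul_def, smul_eq_mul, map_mul, h10toF0_coe, Algebra.smul_def]

theorem h10toF0_eq_zero (r : ↥(IntermediateField.adjoin ℚ {jq})) (h : h10toF0 N r = 0) :
    r = 0 := by
  have h1 := h10toF0_coe N r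
  rw [h, ZeroMemClass.coe_zero, map_zero] at h1
  exact (map_eq_zero_iff _ (algebraMap ↥(IntermediateField.adjoin ℚ {jq})
    (LaurentSeries ℚ)).injective).mp h1.symm

/-- Transfer of linear independence from `F_N / F₀` to `ℚ((q)) / ℚ⟮j⟯`. -/
theorem h10_linearIndependent_val {ι : Type*} (v : ι → ↥(modularFunctionFieldFull N))
    (hv : LinearIndependent ↥(h28F0 N) v) :
    LinearIndependent (↥(IntermediateField.adjoin ℚ {jq}))
      (fun i => h28incl N (v i)) :=
  LinearIndependent.map_of_injective_injective (R := ↥(h28F0 N))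
    (R' := ↥(IntermediateField.adjoin ℚ {jq})) (M := ↥(modularFunctionFieldFull N))
    (M' := LaurentSeries ℚ) (v := v) hv (h10toF0 N)
    ((h28incl N : ↥(modularFunctionFieldFull N) →+* LaurentSeries ℚ) :
      ↥(modularFunctionFieldFull N) →+ LaurentSeries ℚ)
    (h10toF0_eq_zero N)
    (fun _ hm => (map_eq_zero_iff _ (h28incl_injective N)).mp hm)
    (h10_smul_coe N)

/-- **W1 (hbound glue).** -/
theorem h10_hbound (h : DegreeUpperBound N) :
    ∀ s : Finset ↥(modularFunctionFieldFull N),
      LinearIndependent ↥(h28F0 N) (fun x : s => (x : ↥(modularFunctionFieldFull N))) →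
      s.card ≤ dedekindPsi N := by
  classical
  intro s hli
  have h1 := h10_linearIndependent_val N _ hli
  have h2 : LinearIndepOn (↥(IntermediateField.adjoin ℚ {jq})) (⇑(h28incl N))
      (s : Set ↥(modularFunctionFieldFull N)) := h1
  have h3 := h2.id_image
  have h4 : LinearIndependent (↥(IntermediateField.adjoin ℚ {jq}))
      (fun x : (s.image (⇑(h28incl N)) : Finset (LaurentSeries ℚ)) => (x : LaurentSeries ℚ)) := by
    have : ((s.image (⇑(h28incl N)) : Finset (LaurentSeries ℚ)) : Set (LaurentSeries ℚ)) =
        (⇑(h28incl N)) '' (s : Set ↥(modularFunctionFieldFull N)) := Finset.coe_image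
    show LinearIndepOn _ id ((s.image (⇑(h28incl N)) : Finset (LaurentSeries ℚ)) :
      Set (LaurentSeries ℚ))
    rw [this]
    exact h3
  have h5 := h (s.image (⇑(h28incl N))) (by
    intro x hx
    obtain ⟨y, -, rfl⟩ := Finset.mem_image.mp hx
    exact y.2) h4
  rwa [Finset.card_image_of_injective _ (h28incl_injective N)] at h5

end H28S28
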