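/-
S28 WP3, helper18: piece E (descent from a field `K ⊇ 𝔽_ℓ` to `𝔽_ℓ`).

If `ψ(N) ≤ [K(J_d : d ∣ N) : K(J)]` for some field `K` of characteristic `ℓ`, then
`DegreeLowerBound N ℓ`: there are `ψ(N)` elements of `𝔽_ℓ(J_d : d ∣ N)` linearly independent
over `𝔽_ℓ(J)`.
-/
import Mathlib
import Fermat.Agent.S28.Interface

set_option autoImplicit false

open ModularCurve HahnSeries Polynomial IntermediateField

noncomputable section

namespace H18WP3

open H28S28

section AbstractSpan

variable {F E : Type} [Field F] [Field E] [Algebra F E]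

/-- If `A ≤ F(S)` and `n ≤ [F(S) : A]` (as `relfinrank`, so the degree is finite when `n > 0`),
then there are `n` monomials in the elements of `S` which are linearly independent over `A`. -/
theorem h18_exists_indep_monomials (S : Set E) (A : IntermediateField F E)
    (hA : A ≤ adjoin F S) (n : ℕ) (hn : n ≤ relfinrank A (adjoin F S)) :
    ∃ t : Finset E, (∀ x ∈ t, x ∈ Submonoid.closure S) ∧
      LinearIndependent A (fun x : t => (x : E)) ∧ t.card = n := by
  rcases Nat.eq_zero_or_pos n with h0 | hpos
  · subst h0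
    exact ⟨∅, by simp, linearIndependent_empty_type, rfl⟩
  rw [relfinrank_eq_finrank_of_le hA] at hn
  set B' : IntermediateField A E := extendScalars hA with hB'
  have hfpos : 0 < Module.finrank A B' := lt_of_lt_of_le hpos hn
  have : Module.Finite A B' := Module.finite_of_finrank_pos hfpos
  have halg : ∀ x ∈ S, IsAlgebraic A x := by
    intro x hx
    have hxB : x ∈ B' := (mem_extendScalars hA).mpr (subset_adjoin F S hx)
    have h1 : IsAlgebraic A (⟨x, hxB⟩ : B') := Algebra.IsAlgebraic.isAlgebraic _
    exact IntermediateField.isAlgebraic_iff.mp h1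
  have hB'eq : B' = adjoin A S := by
    apply le_antisymm
    · intro x hx
      have hx' : x ∈ adjoin F S := (mem_extendScalars hA).mp hx
      have hle : adjoin F S ≤ (adjoin A S).restrictScalars F := by
        rw [adjoin_le_iff]
        intro y hy
        exact subset_adjoin A S hy
      exact hle hx'
    · rw [adjoin_le_iff]
      intro y hy
      exact (mem_extendScalars hA).mpr (subset_adjoin F S hy)
  have hspan : Subalgebra.toSubmodule B'.toSubalgebra =
      Submodule.span A (Submonoid.closure S : Set E) := by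
    rw [hB'eq, adjoin_toSubalgebra_of_isAlgebraic halg, Algebra.adjoin_eq_span]
  obtain ⟨b, hbM, hbspan, hbli⟩ := exists_linearIndependent A (Submonoid.closure S : Set E)
  have hrank : Module.finrank A B' = Nat.card b := by
    have h1 : Module.finrank A B' =
        Module.finrank A (Submodule.span A (Submonoid.closure S : Set E)) := by
      rw [← hspan]
      rfl
    rw [h1, ← hbspan, Module.finrank, rank_span_set hbli]
    rfl
  have hbfin : Finite b := Nat.finite_of_card_ne_zero (by omega)
  have hbfin' : b.Finite := Set.toFinite b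
  have hcard : hbfin'.toFinset.card = Nat.card b := by
    rw [Nat.card_coe_set_eq, Set.ncard_eq_toFinset_card b hbfin']
  obtain ⟨t, htb, htcard⟩ := Finset.exists_subset_card_eq (s := hbfin'.toFinset) (n := n)
    (by omega)
  refine ⟨t, ?_, ?_, htcard⟩
  · intro x hx
    exact hbM ((Set.Finite.mem_toFinset hbfin').mp (htb hx))
  · have hsub : (t : Set E) ⊆ b := fun x hx => (Set.Finite.mem_toFinset hbfin').mp (htb hx)
    have h1 : LinearIndepOn A id b := hbli
    have h2 : LinearIndepOn A id (t : Set E) := h1.mono hsub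
    exact h2

end AbstractSpan

section Pullback

variable (ℓ : ℕ) [Fact ℓ.Prime] (K : Type) [Field K] [Algebra (ZMod ℓ) K]

/-- The coefficient map `𝔽_ℓ((q)) → K((q))`. -/
def h18c : LaurentSeries (ZMod ℓ) →+* LaurentSeries K := coeffMap (algebraMap (ZMod ℓ) K)

theorem h18c_injective : Function.Injective (h18c ℓ K) := (h18c ℓ K).injective

theorem h18c_J : h18c ℓ K (jqModC (ZMod ℓ)) = jqModC K := coeffMap_jqModC _

theorem h18c_algebraMap (r : ZMod ℓ) :
    h18c ℓ K (algebraMap (ZMod ℓ) (LaurentSeries (ZMod ℓ)) r) =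
      algebraMap K (LaurentSeries K) (algebraMap (ZMod ℓ) K r) := by
  rw [h18c, algebraMap_laurentSeries_eq_single, algebraMap_laurentSeries_eq_single,
    coeffMap_single]

theorem h18c_mem_base {a : LaurentSeries (ZMod ℓ)}
    (ha : a ∈ adjoin (ZMod ℓ) {jqModC (ZMod ℓ)}) :
    h18c ℓ K a ∈ adjoin K {jqModC K} := by
  induction ha using IntermediateField.adjoin_induction with
  | mem x hx =>
    rw [Set.mem_singleton_iff] at hx
    rw [hx, h18c_J]
    exact subset_adjoin K _ (Set.mem_singleton _)
  | algebraMap r =>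
    rw [h18c_algebraMap]
    exact IntermediateField.algebraMap_mem _ _
  | add x y _ _ hx hy =>
    rw [map_add]
    exact add_mem hx hy
  | inv x _ hx =>
    rw [map_inv₀]
    exact inv_mem hx
  | mul x y _ _ hx hy =>
    rw [map_mul]
    exact mul_mem hx hy

theorem h18c_monomial (N : ℕ) {x : LaurentSeries K}
    (hx : x ∈ Submonoid.closure (divisorExpansionsC K N)) :
    ∃ y ∈ Submonoid.closure (divisorExpansionsC (ZMod ℓ) N), h18c ℓ K y = x := by
  induction hx using Submonoid.closure_induction with
  | mem x hx =>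
    obtain ⟨d, hd, hdN, rfl⟩ := hx
    have := hd
    refine ⟨qExpand (ZMod ℓ) d (jqModC (ZMod ℓ)),
      Submonoid.subset_closure ⟨d, hd, hdN, rfl⟩, ?_⟩
    rw [h18c, coeffMap_qExpand, coeffMap_jqModC]
  | one => exact ⟨1, one_mem _, map_one _⟩
  | mul x y _ _ hx hy =>
    obtain ⟨x', hx', rfl⟩ := hx
    obtain ⟨y', hy', rfl⟩ := hy
    exact ⟨x' * y', mul_mem hx' hy', map_mul _ _ _⟩

end Pullback

section Descent

/-- Piece E (descent): a lower bound for the degree over any field `K` of characteristic `ℓ`
gives `DegreeLowerBound N ℓ`. -/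
theorem h18_descent (N : ℕ) [NeZero N] (ℓ : ℕ) [Fact ℓ.Prime] (K : Type) [Field K]
    [Algebra (ZMod ℓ) K]
    (h : dedekindPsi N ≤ IntermediateField.relfinrank
      (IntermediateField.adjoin K {jqModC K}) (modularFunctionFieldFullC K N)) :
    H28S28.DegreeLowerBound N ℓ := by
  classical
  have hA : adjoin K {jqModC K} ≤ adjoin K (divisorExpansionsC K N) := by
    rw [adjoin_le_iff, Set.singleton_subset_iff]
    exact jqModC_mem_full K N
  obtain ⟨t, htM, htli, htcard⟩ :=
    h18_exists_indep_monomials (divisorExpansionsC K N) _ hA _ h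
  have hpre : ∀ x : t, ∃ y ∈ Submonoid.closure (divisorExpansionsC (ZMod ℓ) N),
      h18c ℓ K y = x := fun x => h18c_monomial ℓ K N (htM x x.2)
  choose y hyM hy using hpre
  have hyinj : Function.Injective y := fun a b hab => Subtype.ext (by rw [← hy a, ← hy b, hab])
  have hyli : LinearIndependent (adjoin (ZMod ℓ) {jqModC (ZMod ℓ)}) y := by
    rw [linearIndependent_iff']
    intro u g hsum i hi
    have h1 := congrArg (h18c ℓ K) hsum
    rw [map_sum, map_zero] at h1
    have hterm : ∀ j : t, h18c ℓ K (g j • y j) =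
        (⟨h18c ℓ K (g j), h18c_mem_base ℓ K (g j).2⟩ : adjoin K {jqModC K}) •
          (j : LaurentSeries K) := by
      intro j
      rw [IntermediateField.smul_def, IntermediateField.smul_def, smul_eq_mul, smul_eq_mul,
        map_mul, hy]
    simp_rw [hterm] at h1
    have h2 := (linearIndependent_iff'.mp htli) u
      (fun j => (⟨h18c ℓ K (g j), h18c_mem_base ℓ K (g j).2⟩ : adjoin K {jqModC K})) h1 i hi
    have h3 : h18c ℓ K (g i) = 0 := congrArg Subtype.val h2
    have h4 : (g i : LaurentSeries (ZMod ℓ)) = 0 :=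
      h18c_injective ℓ K (by rw [h3, map_zero])
    exact Subtype.ext h4
  refine ⟨Finset.univ.image y, ?_, ?_, ?_⟩
  · intro x hx
    obtain ⟨a, -, rfl⟩ := Finset.mem_image.mp hx
    have hle : Submonoid.closure (divisorExpansionsC (ZMod ℓ) N) ≤
        (modularFunctionFieldFullC (ZMod ℓ) N).toSubalgebra.toSubmonoid := by
      rw [Submonoid.closure_le]
      exact subset_adjoin (ZMod ℓ) _
    exact hle (hyM a)
  · have h1 : LinearIndepOn (adjoin (ZMod ℓ) {jqModC (ZMod ℓ)}) id (Set.range y) :=
      hyli.linearIndepOn_id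
    have h2 : ((Finset.univ.image y : Finset (LaurentSeries (ZMod ℓ))) :
        Set (LaurentSeries (ZMod ℓ))) = Set.range y := by
      rw [Finset.coe_image, Finset.coe_univ, Set.image_univ]
    rw [← h2] at h1
    exact h1
  · rw [Finset.card_image_of_injective _ hyinj, Finset.card_univ, Fintype.card_coe, htcard]

end Descent

end H18WP3
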