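import Mathlib
import Fermat.Agent.S28.Interface

/-!
# S28, WP3 crux (ii): `J(q^p) ∉ k(J)` when `p` is invertible in `k`

Route (helper28's plan): the modular unit `u = p^12 Δ(q^p)/Δ(q)` is integral over `k[J]` together
with its inverse (roots of the monic `T_p` with constant term `± p^12`); if `J(q^p) ∈ k(J)` then
`u ∈ k(J)` by Lagrange interpolation (`G_p`), hence `u ∈ k[J]^× = k^×`, but `u` has positive
`q`-order.
-/

set_option autoImplicit false
open ModularCurve HahnSeries Polynomial

noncomputable section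

namespace H13Crux

open H28S28

section Series

variable {A : Type} [CommRing A]

/-- Laurent series without polar part. -/
def NonnegSupp (x : LaurentSeries A) : Prop := ∀ k : ℤ, k < 0 → x.coeff k = 0

theorem nonnegSupp_mul {x y : LaurentSeries A} (hx : NonnegSupp x) (hy : NonnegSupp y) :
    NonnegSupp (x * y) := by
  intro k hk
  rw [HahnSeries.coeff_mul]
  refine Finset.sum_eq_zero (fun ij hij => ?_)
  rw [Finset.mem_antidiagonal] at hij
  obtain ⟨h1, h2, h3⟩ := hij
  exfalso
  have a1 : 0 ≤ ij.1 := by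
    by_contra hneg
    exact h1 (hx _ (not_le.mp hneg))
  have a2 : 0 ≤ ij.2 := by
    by_contra hneg
    exact h2 (hy _ (not_le.mp hneg))
  omega

theorem nonnegSupp_ofPowerSeries (f : PowerSeries A) :
    NonnegSupp (HahnSeries.ofPowerSeries ℤ A f) :=
  fun _ hk => ofPowerSeries_coeff_of_neg f hk

theorem nonnegSupp_qExpand (N : ℕ) [NeZero N] {x : LaurentSeries A} (hx : NonnegSupp x) :
    NonnegSupp (qExpand A N x) := by
  intro k hk
  by_cases hd : (N : ℤ) ∣ k
  · obtain ⟨m, rfl⟩ := hd
    rw [qExpand_coeff_mul]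
    refine hx m ?_
    have hN : (0 : ℤ) < N := by exact_mod_cast Nat.pos_of_ne_zero (NeZero.ne N)
    by_contra hm
    have := mul_nonneg hN.le (not_lt.mp hm)
    omega
  · exact qExpand_coeff_of_not_dvd N x hd

theorem nonnegSupp_natCast (n : ℕ) : NonnegSupp ((n : LaurentSeries A)) := by
  have h : ((n : LaurentSeries A)) = HahnSeries.ofPowerSeries ℤ A (n : PowerSeries A) := by
    rw [map_natCast]
  rw [h]
  exact nonnegSupp_ofPowerSeries _

theorem nonnegSupp_pow {x : LaurentSeries A} (hx : NonnegSupp x) (n : ℕ) :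
    NonnegSupp (x ^ n) := by
  induction n with
  | zero =>
    rw [pow_zero]
    have h : (1 : LaurentSeries A) = HahnSeries.ofPowerSeries ℤ A 1 := by rw [map_one]
    rw [h]
    exact nonnegSupp_ofPowerSeries _
  | succ n ih =>
    rw [pow_succ]
    exact nonnegSupp_mul ih hx

variable (A)

/-- The constant term of `y_∞ = p^12 Δ(s^{p²}) / Δ(s^p)` vanishes (`p ≥ 2`). -/
theorem coeff_zero_yconj_none (p : ℕ) [NeZero p] (hp : 2 ≤ p) (ζ : Aˣ) :
    (yconj A p ζ none).coeff 0 = 0 := by
  have h1 : qExpand A (p * p) (deltaq A) = HahnSeries.single ((p : ℤ) * p) (1 : A) *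
      qExpand A (p * p)
        (HahnSeries.ofPowerSeries ℤ A (dedekindEtaUnit.map (Int.castRingHom A))) := by
    have e : (((p * p : ℕ) : ℤ)) * 1 = (p : ℤ) * p := by push_cast; ring
    rw [deltaq, map_mul, qExpand_single, e]
  have h2 : qExpand A p (deltaqInv A) = HahnSeries.single (-(p : ℤ)) (1 : A) *
      qExpand A p
        (HahnSeries.ofPowerSeries ℤ A (dedekindEtaUnitInv.map (Int.castRingHom A))) := by
    have e : (p : ℤ) * (-1) = -(p : ℤ) := by ring
    rw [deltaqInv, map_mul, qExpand_single, e]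
  have h3 : yconj A p ζ none = HahnSeries.single ((p : ℤ) * p - p) (1 : A) *
      ((p : LaurentSeries A) ^ 12 *
        qExpand A (p * p)
          (HahnSeries.ofPowerSeries ℤ A (dedekindEtaUnit.map (Int.castRingHom A))) *
        qExpand A p
          (HahnSeries.ofPowerSeries ℤ A (dedekindEtaUnitInv.map (Int.castRingHom A)))) := by
    have hs : HahnSeries.single ((p : ℤ) * p - p) (1 : A) =
        HahnSeries.single ((p : ℤ) * p) (1 : A) * HahnSeries.single (-(p : ℤ)) (1 : A) := by
      rw [HahnSeries.single_mul_single, mul_one, sub_eq_add_neg]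
    show (p : LaurentSeries A) ^ 12 * qExpand A (p * p) (deltaq A) * qExpand A p (deltaqInv A) = _
    rw [h1, h2, hs]
    ring
  rw [h3, HahnSeries.coeff_single_mul, one_mul]
  refine nonnegSupp_mul (nonnegSupp_mul (nonnegSupp_pow (nonnegSupp_natCast p) 12)
    (nonnegSupp_qExpand _ (nonnegSupp_ofPowerSeries _)))
    (nonnegSupp_qExpand _ (nonnegSupp_ofPowerSeries _)) _ ?_
  have hp' : (2 : ℤ) ≤ p := by exact_mod_cast hp
  nlinarith

/-- `x_∞ = J(s^{p²})` has no `s⁻¹` term. -/
theorem coeff_neg_one_xconj_none (p : ℕ) [NeZero p] (hp : 2 ≤ p) (ζ : Aˣ) :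
    (xconj A p ζ none).coeff (-1) = 0 := by
  show (qExpand A (p * p) (jqModC A)).coeff (-1) = 0
  refine qExpand_coeff_of_not_dvd (p * p) _ ?_
  intro hd
  have h1 : ((p * p : ℕ) : ℤ) ∣ 1 := (dvd_neg).mp hd
  have h2 : (p * p : ℕ) ∣ 1 := by exact_mod_cast h1
  have h3 : p * p = 1 := Nat.dvd_one.mp h2
  nlinarith

/-- `x_b = J(ζ^b s)` has `s⁻¹`-coefficient `ζ^{-b}`. -/
theorem coeff_neg_one_xconj_some (p : ℕ) [NeZero p] (ζ : Aˣ) (b : Fin p) :
    (xconj A p ζ (some b)).coeff (-1) = (((ζ ^ (b : ℕ)) ^ (-1 : ℤ) : Aˣ) : A) := by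
  show (tw (ζ ^ (b : ℕ)) (jqModC A)).coeff (-1) = _
  rw [tw_coeff, coeff_jqModC_neg_one, mul_one]

theorem xconj_none_ne_some [Nontrivial A] (p : ℕ) [NeZero p] (hp : 2 ≤ p) (ζ : Aˣ) (b : Fin p) :
    xconj A p ζ none ≠ xconj A p ζ (some b) := by
  intro h
  have h1 := congrArg (fun x : LaurentSeries A => x.coeff (-1)) h
  simp only [coeff_neg_one_xconj_none A p hp ζ, coeff_neg_one_xconj_some A p ζ b] at h1
  exact (Units.ne_zero _) h1.symm

end Series

section Algebra

variable {A : Type} [Field A]

/-- Evaluating a polynomial with coefficients in a subfield at a point of the subfield. -/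
theorem eval_map_mem (E : IntermediateField A (LaurentSeries A)) (P : Polynomial E)
    {x : LaurentSeries A} (hx : x ∈ E) :
    (P.map (algebraMap E (LaurentSeries A))).eval x ∈ E := by
  have h : (P.map (algebraMap E (LaurentSeries A))).eval x =
      algebraMap E (LaurentSeries A) (P.eval ⟨x, hx⟩) := by
    rw [Polynomial.eval_map]
    exact Polynomial.eval₂_at_apply (algebraMap E (LaurentSeries A)) (⟨x, hx⟩ : E)
  rw [h]
  exact (P.eval ⟨x, hx⟩).2

variable (A) in
/-- `J₁ = J(s^p)` is transcendental over the coefficient field. -/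
theorem transcendental_J1 (p : ℕ) [NeZero p] :
    Transcendental A (qExpand A p (jqModC A)) := by
  have h := P2MW.S_ModularCurve_coeff_jqModC_neg_one.ModularCurve.CharLRows.transcendental_jqModC A
  intro halg
  apply h
  have := (isAlgebraic_algHom_iff (qExpandAlgHomC A p)
    (qExpand_injective (R := A) p) (a := jqModC A)).mp halg
  exact this

open scoped IntermediateField.algebraAdjoinAdjoin in
/-- An element of `A(t)` (`t` transcendental) which is integral over `A[t]` together with its
inverse is a constant. -/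
theorem const_of_integral {Ω : Type} [Field Ω] [Algebra A Ω] {t : Ω} (ht : Transcendental A t)
    {y : Ω} (hy : y ∈ IntermediateField.adjoin A {t})
    (h1 : IsIntegral (Algebra.adjoin A {t}) y) (h2 : IsIntegral (Algebra.adjoin A {t}) y⁻¹)
    (hy0 : y ≠ 0) : ∃ c : A, y = algebraMap A Ω c := by
  classical
  let e : Polynomial A ≃ₐ[A] (Algebra.adjoin A {t}) :=
    (AlgEquiv.ofInjective (aeval t) (transcendental_iff_injective.mp ht)).trans
      (Subalgebra.equivOfEq _ _ (Algebra.adjoin_singleton_eq_range_aeval A t).symm)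
  have hic : IsIntegrallyClosed (Algebra.adjoin A {t}) :=
    IsIntegrallyClosed.of_equiv e.toRingEquiv
  have hinj : Function.Injective (algebraMap (IntermediateField.adjoin A {t}) Ω) :=
    (algebraMap (IntermediateField.adjoin A {t}) Ω).injective
  have i1 : IsIntegral (Algebra.adjoin A {t}) (⟨y, hy⟩ : IntermediateField.adjoin A {t}) :=
    (isIntegral_algebraMap_iff hinj).mp h1
  have i2 : IsIntegral (Algebra.adjoin A {t})
      (⟨y⁻¹, inv_mem hy⟩ : IntermediateField.adjoin A {t}) :=
    (isIntegral_algebraMap_iff hinj).mp h2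
  obtain ⟨f, hf⟩ := IsIntegrallyClosed.isIntegral_iff.mp i1
  obtain ⟨g, hg⟩ := IsIntegrallyClosed.isIntegral_iff.mp i2
  have hf' : (f : Ω) = y := congrArg Subtype.val hf
  have hg' : (g : Ω) = y⁻¹ := congrArg Subtype.val hg
  have hfg : f * g = 1 := by
    apply Subtype.ext
    rw [Subalgebra.coe_mul, hf', hg', Subalgebra.coe_one, mul_inv_cancel₀ hy0]
  have hu : IsUnit (e.symm f) := by
    refine IsUnit.of_mul_eq_one (e.symm g) ?_
    rw [← map_mul, hfg, map_one]
  obtain ⟨c, -, hc⟩ := Polynomial.isUnit_iff.mp hu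
  refine ⟨c, ?_⟩
  have h3 : f = e (Polynomial.C c) := by rw [hc, AlgEquiv.apply_symm_apply]
  rw [← hf', h3]
  have h4 : e (Polynomial.C c) = algebraMap A (Algebra.adjoin A {t}) c := by
    rw [← Polynomial.algebraMap_eq, AlgEquiv.commutes]
  rw [h4]
  rfl

/-- The crux over a field `A` containing a root `ζ` of the `p`-th cyclotomic polynomial, in the
variable `s = q^{1/p}`. -/
theorem crux_aux (p : ℕ) [NeZero p] (hp : p.Prime) (hME : HasModEq p) (hpA : (p : A) ≠ 0)
    (ζ : Aˣ) (hζ : (Polynomial.cyclotomic p A).eval (ζ : A) = 0) :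
    qExpand A (p * p) (jqModC A) ∉ IntermediateField.adjoin A {qExpand A p (jqModC A)} := by
  classical
  intro hmem
  obtain ⟨Φ, T, G, hΦm, hΦd, hTm, hTd, hT0, hid⟩ := hME
  obtain ⟨hΦ, hT, hG⟩ := hid A ζ hζ
  have hp2 : 2 ≤ p := hp.two_le
  -- notation
  have hJ1B : qExpand A p (jqModC A) ∈ IntermediateField.adjoin A {qExpand A p (jqModC A)} :=
    IntermediateField.mem_adjoin_simple_self A _
  have hJ1R : qExpand A p (jqModC A) ∈ Algebra.adjoin A {qExpand A p (jqModC A)} :=
    Algebra.self_mem_adjoin_singleton A _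
  let beB : Polynomial ℤ →+* (IntermediateField.adjoin A {qExpand A p (jqModC A)}) :=
    Polynomial.eval₂RingHom (Int.castRingHom _) ⟨qExpand A p (jqModC A), hJ1B⟩
  let beR : Polynomial ℤ →+* (Algebra.adjoin A {qExpand A p (jqModC A)}) :=
    Polynomial.eval₂RingHom (Int.castRingHom _) ⟨qExpand A p (jqModC A), hJ1R⟩
  have hbeB : (algebraMap (IntermediateField.adjoin A {qExpand A p (jqModC A)})
      (LaurentSeries A)).comp beB = baseEval A p := by
    refine Polynomial.ringHom_ext' (Subsingleton.elim _ _) ?_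
    simp [beB, baseEval]
  have hbeR : (algebraMap (Algebra.adjoin A {qExpand A p (jqModC A)})
      (LaurentSeries A)).comp beR = baseEval A p := by
    refine Polynomial.ringHom_ext' (Subsingleton.elim _ _) ?_
    simp [beR, baseEval]
  have hxmem : xconj A p ζ none ∈ IntermediateField.adjoin A {qExpand A p (jqModC A)} := hmem
  -- Step 1: `y_∞ ∈ B`
  have hN : (G.map (baseEval A p)).eval (xconj A p ζ none) ∈
      IntermediateField.adjoin A {qExpand A p (jqModC A)} := by
    rw [← hbeB, ← Polynomial.map_map]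
    exact eval_map_mem _ _ hxmem
  have hD : (Polynomial.derivative (Φ.map (baseEval A p))).eval (xconj A p ζ none) ∈
      IntermediateField.adjoin A {qExpand A p (jqModC A)} := by
    rw [← hbeB, ← Polynomial.map_map, Polynomial.derivative_map]
    exact eval_map_mem _ _ hxmem
  have hDeq : (Polynomial.derivative (Φ.map (baseEval A p))).eval (xconj A p ζ none) =
      ∏ i ∈ Finset.univ.erase (none : Option (Fin p)),
        (xconj A p ζ none - xconj A p ζ i) := by
    have h1 : Φ.map (baseEval A p) = Lagrange.nodal Finset.univ (xconj A p ζ) := by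
      rw [hΦ, Lagrange.nodal]
    rw [h1, Lagrange.eval_nodal_derivative_eval_node_eq (Finset.mem_univ _), Lagrange.eval_nodal]
  have hNeq : (G.map (baseEval A p)).eval (xconj A p ζ none) =
      yconj A p ζ none * ∏ i ∈ Finset.univ.erase (none : Option (Fin p)),
        (xconj A p ζ none - xconj A p ζ i) := by
    rw [hG, Polynomial.eval_finsetSum, Finset.sum_eq_single (none : Option (Fin p))]
    · rw [Polynomial.eval_mul, Polynomial.eval_C, Polynomial.eval_prod]
      simp only [Polynomial.eval_sub, Polynomial.eval_X, Polynomial.eval_C]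
    · intro i _ hi
      rw [Polynomial.eval_mul, Polynomial.eval_prod,
        Finset.prod_eq_zero (Finset.mem_erase.mpr ⟨Ne.symm hi, Finset.mem_univ _⟩) (by simp),
        mul_zero]
    · intro h
      exact absurd (Finset.mem_univ _) h
  have hD0 : (∏ i ∈ Finset.univ.erase (none : Option (Fin p)),
      (xconj A p ζ none - xconj A p ζ i)) ≠ 0 := by
    rw [Finset.prod_ne_zero_iff]
    intro i hi
    rcases i with _ | b
    · exact absurd rfl (Finset.ne_of_mem_erase hi)
    · exact sub_ne_zero.mpr (xconj_none_ne_some A p hp2 ζ b)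
  have hyB : yconj A p ζ none ∈ IntermediateField.adjoin A {qExpand A p (jqModC A)} := by
    have h1 : yconj A p ζ none = (G.map (baseEval A p)).eval (xconj A p ζ none) /
        (Polynomial.derivative (Φ.map (baseEval A p))).eval (xconj A p ζ none) := by
      rw [hNeq, hDeq, mul_div_assoc, div_self hD0, mul_one]
    rw [h1]
    exact div_mem hN hD
  -- Step 2: integrality
  have hint : ∀ i, IsIntegral (Algebra.adjoin A {qExpand A p (jqModC A)}) (yconj A p ζ i) := by
    intro i
    refine ⟨T.map beR, hTm.map beR, ?_⟩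
    rw [Polynomial.eval₂_map, hbeR, ← Polynomial.eval_map, hT, Polynomial.eval_prod]
    exact Finset.prod_eq_zero (Finset.mem_univ i) (by simp)
  obtain ⟨c0, hc0, hc0T⟩ : ∃ c0 : A, c0 ≠ 0 ∧
      (T.map (baseEval A p)).eval 0 = algebraMap A (LaurentSeries A) c0 := by
    have hcoef : (T.map (baseEval A p)).eval 0 = baseEval A p (T.coeff 0) := by
      rw [← Polynomial.coeff_zero_eq_eval_zero, Polynomial.coeff_map]
    have hpow : ((p : A)) ^ 12 ≠ 0 := pow_ne_zero _ hpA
    have hC : ∀ n : ℤ, baseEval A p (Polynomial.C n) = (n : LaurentSeries A) := by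
      intro n
      show Polynomial.eval₂ (Int.castRingHom (LaurentSeries A)) _ (Polynomial.C n) = _
      rw [Polynomial.eval₂_C]
      rfl
    rcases hT0 with h | h
    · refine ⟨(p : A) ^ 12, hpow, ?_⟩
      rw [hcoef, h, hC, map_pow, map_natCast]
      push_cast
      rfl
    · refine ⟨-(p : A) ^ 12, neg_ne_zero.mpr hpow, ?_⟩
      rw [hcoef, h, hC, map_neg, map_pow, map_natCast]
      push_cast
      rfl
  have hprod : (-yconj A p ζ none) * ∏ i ∈ Finset.univ.erase (none : Option (Fin p)),
      (-yconj A p ζ i) = algebraMap A (LaurentSeries A) c0 := by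
    rw [← hc0T, hT, Polynomial.eval_prod, ← Finset.mul_prod_erase Finset.univ _
      (Finset.mem_univ (none : Option (Fin p)))]
    simp only [Polynomial.eval_sub, Polynomial.eval_X, Polynomial.eval_C, zero_sub]
  have hc0' : algebraMap A (LaurentSeries A) c0 ≠ 0 := by
    rw [Ne, map_eq_zero]
    exact hc0
  have hy0 : yconj A p ζ none ≠ 0 := by
    intro h
    rw [h, neg_zero, zero_mul] at hprod
    exact hc0' hprod.symm
  have hinv : (yconj A p ζ none)⁻¹ =
      (-(∏ i ∈ Finset.univ.erase (none : Option (Fin p)), (-yconj A p ζ i))) *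
        algebraMap A (LaurentSeries A) c0⁻¹ := by
    rw [map_inv₀]
    refine inv_eq_of_mul_eq_one_right ?_
    have h1 : yconj A p ζ none *
        (-(∏ i ∈ Finset.univ.erase (none : Option (Fin p)), (-yconj A p ζ i)) *
          (algebraMap A (LaurentSeries A) c0)⁻¹) =
        ((-yconj A p ζ none) * ∏ i ∈ Finset.univ.erase (none : Option (Fin p)),
          (-yconj A p ζ i)) * (algebraMap A (LaurentSeries A) c0)⁻¹ := by ring
    rw [h1, hprod, mul_inv_cancel₀ hc0']
  have hintinv : IsIntegral (Algebra.adjoin A {qExpand A p (jqModC A)})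
      (yconj A p ζ none)⁻¹ := by
    rw [hinv]
    refine IsIntegral.mul (IsIntegral.neg (IsIntegral.prod _ (fun i _ => (hint i).neg))) ?_
    have : algebraMap A (LaurentSeries A) c0⁻¹ =
        algebraMap (Algebra.adjoin A {qExpand A p (jqModC A)}) (LaurentSeries A)
          (algebraMap A _ c0⁻¹) := rfl
    rw [this]
    exact isIntegral_algebraMap
  -- Step 3: constant, contradiction
  obtain ⟨c, hc⟩ := const_of_integral (transcendental_J1 A p) hyB (hint none) hintinv hy0
  have h0 := coeff_zero_yconj_none A p hp2 ζ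
  rw [hc, algebraMap_laurentSeries_eq_single, HahnSeries.coeff_single_same] at h0
  rw [h0, map_zero] at hc
  exact hy0 hc

end Algebra

section Transfer

variable {k : Type} [Field k] {A : Type} [Field A] [Algebra k A]

/-- The substitution `q ↦ s^n` combined with extension of the coefficient field. -/
def theta (k A : Type) [Field k] [Field A] [Algebra k A] (n : ℕ) [NeZero n] :
    LaurentSeries k →+* LaurentSeries A :=
  (qExpand A n).comp (coeffMap (algebraMap k A))

theorem theta_jqModC (n : ℕ) [NeZero n] :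
    theta k A n (jqModC k) = qExpand A n (jqModC A) := by
  rw [theta, RingHom.comp_apply, coeffMap_jqModC]

theorem theta_qExpand_jqModC (n m : ℕ) [NeZero n] [NeZero m] :
    theta k A n (qExpand k m (jqModC k)) = qExpand A (n * m) (jqModC A) := by
  rw [theta, RingHom.comp_apply, coeffMap_qExpand, coeffMap_jqModC, qExpand_qExpand]

theorem theta_comp_algebraMap (n : ℕ) [NeZero n] :
    (theta k A n).comp (algebraMap k (LaurentSeries k)) =
      (algebraMap A (LaurentSeries A)).comp (algebraMap k A) := by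
  ext c : 1
  rw [RingHom.comp_apply, RingHom.comp_apply, theta, RingHom.comp_apply,
    algebraMap_laurentSeries_eq_single, coeffMap_single, qExpand_single, mul_zero,
    algebraMap_laurentSeries_eq_single]

theorem theta_aeval (n : ℕ) [NeZero n] (x : LaurentSeries k) (r : Polynomial k) :
    theta k A n (Polynomial.aeval x r) =
      Polynomial.aeval (theta k A n x) (r.map (algebraMap k A)) := by
  rw [Polynomial.aeval_def, Polynomial.hom_eval₂, theta_comp_algebraMap, Polynomial.aeval_def,
    Polynomial.eval₂_map]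

/-- `theta` maps `k(x)` into `A(theta x)`. -/
theorem theta_mem_adjoin (n : ℕ) [NeZero n] {x y : LaurentSeries k}
    (hy : y ∈ IntermediateField.adjoin k {x}) :
    theta k A n y ∈ IntermediateField.adjoin A {theta k A n x} := by
  obtain ⟨r, s, rfl⟩ := (IntermediateField.mem_adjoin_simple_iff k y).mp hy
  rw [map_div₀, theta_aeval, theta_aeval]
  exact (IntermediateField.mem_adjoin_simple_iff A _).mpr ⟨_, _, rfl⟩

end Transfer

/-- **Crux (ii) of WP3**: for a prime `p` invertible in the field `k`, the series `J(q^p)` does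
not lie in `k(J)`. -/
theorem crux (p : ℕ) [NeZero p] (hp : p.Prime) (hME : H28S28.HasModEq p)
    (k : Type) [Field k] (hpk : (p : k) ≠ 0) :
    qExpand k p (jqModC k) ∉ IntermediateField.adjoin k {jqModC k} := by
  intro hmem
  have hdeg : (Polynomial.cyclotomic p (AlgebraicClosure k)).degree ≠ 0 := by
    rw [Polynomial.degree_cyclotomic, Nat.totient_prime hp]
    have := hp.two_le
    intro h
    have h2 : p - 1 = 0 := by exact_mod_cast h
    omega
  obtain ⟨ζ₀, hζ₀⟩ := IsAlgClosed.exists_root _ hdeg
  have hζ0 : ζ₀ ≠ 0 := by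
    rintro rfl
    have h1 : (Polynomial.cyclotomic p (AlgebraicClosure k)).eval 0 = 1 := by
      rw [← Polynomial.coeff_zero_eq_eval_zero, Polynomial.cyclotomic_coeff_zero _ hp.one_lt]
    rw [Polynomial.IsRoot.def, h1] at hζ₀
    exact one_ne_zero hζ₀
  have hpA : ((p : ℕ) : AlgebraicClosure k) ≠ 0 := by
    intro h
    apply hpk
    have h1 : algebraMap k (AlgebraicClosure k) (p : k) = 0 := by rw [map_natCast, h]
    exact (map_eq_zero _).mp h1
  refine crux_aux (A := AlgebraicClosure k) p hp hME hpA (Units.mk0 ζ₀ hζ0) hζ₀ ?_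
  have h := theta_mem_adjoin (k := k) (A := AlgebraicClosure k) p hmem
  rwa [theta_jqModC, theta_qExpand_jqModC] at h

end H13Crux
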