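import Mathlib
import Fermat.Agent.S28.Interface

/-!
# S28, WP3 (helper1): basic definitions — the series `J(c·t^m)`

`jcm 𝕂 c m = qExpand 𝕂 m (tw c (jqModC 𝕂))` is the formal series `J(c t^m)`.
-/

set_option autoImplicit false
set_option linter.style.longLine false
set_option linter.unusedSectionVars false

open ModularCurve HahnSeries

noncomputable section

namespace H1WP3

open H28S28

variable (𝕂 : Type) [CommRing 𝕂]

/-- The series `J(c t^m)`. -/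
def jcm (c : 𝕂ˣ) (m : ℕ) [NeZero m] : LaurentSeries 𝕂 := qExpand 𝕂 m (tw c (jqModC 𝕂))

variable {𝕂}

/-- Twisting commutes with `q ↦ q^m` up to raising the twist to the `m`-th power. -/
theorem h1w_tw_qExpand (c : 𝕂ˣ) (m : ℕ) [NeZero m] (x : LaurentSeries 𝕂) :
    tw c (qExpand 𝕂 m x) = qExpand 𝕂 m (tw (c ^ m) x) := by
  ext k
  rw [tw_coeff]
  by_cases hk : (m : ℤ) ∣ k
  · obtain ⟨k', rfl⟩ := hk
    rw [qExpand_coeff_mul, qExpand_coeff_mul, tw_coeff]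
    congr 2
    rw [zpow_mul, zpow_natCast]
  · rw [qExpand_coeff_of_not_dvd m _ hk, qExpand_coeff_of_not_dvd m _ hk, mul_zero]

theorem h1w_tw_one (x : LaurentSeries 𝕂) : tw (1 : 𝕂ˣ) x = x := by
  ext k
  simp

theorem h1w_tw_tw (c c' : 𝕂ˣ) (x : LaurentSeries 𝕂) : tw c (tw c' x) = tw (c * c') x := by
  ext k
  rw [tw_coeff, tw_coeff, tw_coeff, mul_zpow, Units.val_mul, mul_assoc]

theorem h1w_jcm_one_eq (m : ℕ) [NeZero m] : jcm 𝕂 1 m = qExpand 𝕂 m (jqModC 𝕂) := by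
  rw [jcm, h1w_tw_one]

/-- `tw c (J(c' t^m)) = J(c^m c' t^m)`. -/
theorem h1w_tw_jcm (c c' : 𝕂ˣ) (m : ℕ) [NeZero m] :
    tw c (jcm 𝕂 c' m) = jcm 𝕂 (c ^ m * c') m := by
  rw [jcm, jcm, h1w_tw_qExpand, h1w_tw_tw]

/-- `qExpand n (J(c t^m)) = J(c t^{n m})`. -/
theorem h1w_qExpand_jcm (c : 𝕂ˣ) (m n : ℕ) [NeZero m] [NeZero n] [NeZero (n * m)] :
    qExpand 𝕂 n (jcm 𝕂 c m) = jcm 𝕂 c (n * m) := by
  rw [jcm, jcm, qExpand_qExpand]

theorem h1w_jcm_congr (c c' : 𝕂ˣ) (m m' : ℕ) [NeZero m] [NeZero m'] (hc : c = c') (hm : m = m') :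
    jcm 𝕂 c m = jcm 𝕂 c' m' := by
  subst hc; subst hm; rfl

/-- The coefficient of `t^{-m}` in `J(c t^m)` is `c⁻¹`. -/
theorem h1w_jcm_coeff_neg (c : 𝕂ˣ) (m : ℕ) [NeZero m] :
    (jcm 𝕂 c m).coeff (-(m : ℤ)) = ((c⁻¹ : 𝕂ˣ) : 𝕂) := by
  have h : (-(m : ℤ)) = (m : ℤ) * (-1) := by ring
  rw [jcm, h, qExpand_coeff_mul, tw_coeff, coeff_jqModC_neg_one, mul_one, zpow_neg_one]

/-- Coefficients of `J(c t^m)` vanish outside `m ℤ`. -/
theorem h1w_jcm_coeff_of_not_dvd (c : 𝕂ˣ) (m : ℕ) [NeZero m] {k : ℤ} (hk : ¬ (m : ℤ) ∣ k) :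
    (jcm 𝕂 c m).coeff k = 0 :=
  qExpand_coeff_of_not_dvd m _ hk

/-- Coefficients of `J(c t^m)` vanish below `-m`. -/
theorem h1w_jcm_coeff_of_lt (c : 𝕂ˣ) (m : ℕ) [NeZero m] {k : ℤ} (hk : k < -(m : ℤ)) :
    (jcm 𝕂 c m).coeff k = 0 := by
  by_cases hd : (m : ℤ) ∣ k
  · obtain ⟨k', rfl⟩ := hd
    rw [jcm, qExpand_coeff_mul, tw_coeff]
    have hm : (0 : ℤ) < m := by exact_mod_cast Nat.pos_of_ne_zero (NeZero.ne m)
    have hk' : k' < -1 := by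
      by_contra hcon
      simp only [not_lt] at hcon
      have : (m : ℤ) * (-1) ≤ (m : ℤ) * k' := mul_le_mul_of_nonneg_left hcon hm.le
      linarith
    rw [coeff_jqModC_of_lt 𝕂 hk', mul_zero]
  · exact h1w_jcm_coeff_of_not_dvd c m hd

theorem h1w_jcm_ne_zero [Nontrivial 𝕂] (c : 𝕂ˣ) (m : ℕ) [NeZero m] : jcm 𝕂 c m ≠ 0 := by
  intro h
  have h1 := h1w_jcm_coeff_neg c m
  rw [h] at h1
  simp only [HahnSeries.coeff_zero] at h1
  exact (c⁻¹).ne_zero h1.symm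

/-- `J(c t^m)` determines `m` and `c`. -/
theorem h1w_jcm_injective [Nontrivial 𝕂] {c c' : 𝕂ˣ} {m m' : ℕ} [NeZero m] [NeZero m']
    (h : jcm 𝕂 c m = jcm 𝕂 c' m') : m = m' ∧ c = c' := by
  have hm : m = m' := by
    by_contra hne
    rcases Nat.lt_or_gt_of_ne hne with hlt | hgt
    · have h1 := h1w_jcm_coeff_neg c' m'
      rw [← h, h1w_jcm_coeff_of_lt c m (by exact_mod_cast (by omega : -(m' : ℤ) < -(m : ℤ)))] at h1
      exact (c'⁻¹).ne_zero h1.symm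
    · have h1 := h1w_jcm_coeff_neg c m
      rw [h, h1w_jcm_coeff_of_lt c' m' (by exact_mod_cast (by omega : -(m : ℤ) < -(m' : ℤ)))] at h1
      exact (c⁻¹).ne_zero h1.symm
  subst hm
  refine ⟨rfl, ?_⟩
  have h1 := h1w_jcm_coeff_neg c m
  rw [h, h1w_jcm_coeff_neg] at h1
  have : (c'⁻¹ : 𝕂ˣ) = c⁻¹ := Units.ext h1
  exact (inv_inj.mp this).symm

/-- If `J(c t^m)` is a series in `t^n` then `n ∣ m`. -/
theorem h1w_dvd_of_jcm_mem_range [Nontrivial 𝕂] (c : 𝕂ˣ) (m n : ℕ) [NeZero m] [NeZero n]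
    (h : jcm 𝕂 c m ∈ Set.range (qExpand 𝕂 n)) : n ∣ m := by
  obtain ⟨y, hy⟩ := h
  by_contra hnd
  have h1 := h1w_jcm_coeff_neg c m
  rw [← hy, qExpand_coeff_of_not_dvd n y (by
    intro hd
    exact hnd (by exact_mod_cast (Int.natCast_dvd_natCast.mp ((dvd_neg).mp hd))))] at h1
  exact (c⁻¹).ne_zero h1.symm

/-- `J(c t^m)` is a series in `t^n` when `n ∣ m`. -/
theorem h1w_jcm_mem_range (c : 𝕂ˣ) (m n : ℕ) [NeZero m] [NeZero n] (h : n ∣ m) :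
    jcm 𝕂 c m ∈ Set.range (qExpand 𝕂 n) := by
  obtain ⟨k, rfl⟩ := h
  haveI : NeZero k := ⟨fun hk => NeZero.ne (n * k) (by rw [hk, mul_zero])⟩
  exact ⟨jcm 𝕂 c k, h1w_qExpand_jcm c k n⟩

/-- A twist by an `n`-th root of unity fixes series in `t^n`. -/
theorem h1w_tw_fix_range (c : 𝕂ˣ) (n : ℕ) [NeZero n] (hc : c ^ n = 1) (x : LaurentSeries 𝕂)
    (hx : x ∈ Set.range (qExpand 𝕂 n)) : tw c x = x := by
  obtain ⟨y, rfl⟩ := hx
  rw [h1w_tw_qExpand, hc, h1w_tw_one]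

end H1WP3
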