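import Mathlib

/-!
# S28, WP3 (helper26): abstract field theory

* `h26_le_relfinrank`: lower bound for a relative degree from "no small polynomial relation".
* `h26_relfinrank_le`: upper bound for a simple extension from a monic polynomial.
* `h26_relfinrank_adjoin_ne_zero`: finiteness of an extension generated by finitely many integral
  elements.
* `h26_twist_bound`, `h26_dichotomy`: the twist lemma and the dichotomy (plan of helper11).
-/

set_option autoImplicit false
set_option linter.style.haveILetI false

open Polynomial IntermediateField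

namespace H26WP3

variable {k R : Type*} [Field k] [Field R] [Algebra k R]

/-- Lower bound for `[B : A]`: if no nonzero polynomial over `A` of degree `< n` kills `x ∈ B`
and `B / A` is finite then `n ≤ [B : A]`. -/
theorem h26_le_relfinrank (A B : IntermediateField k R) (hAB : A ≤ B) (x : R) (hx : x ∈ B)
    (n : ℕ)
    (hli : ∀ g : Polynomial A, g ≠ 0 → g.natDegree < n → Polynomial.aeval x g ≠ 0)
    (hfin : IntermediateField.relfinrank A B ≠ 0) : n ≤ IntermediateField.relfinrank A B := by
  rw [IntermediateField.relfinrank_eq_finrank_of_le hAB] at hfin ⊢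
  haveI : FiniteDimensional A (extendScalars hAB) :=
    Module.finite_of_finrank_pos (Nat.pos_of_ne_zero hfin)
  have hx' : x ∈ extendScalars hAB := hx
  have hint : IsIntegral A x := by
    have h1 : IsIntegral A (⟨x, hx'⟩ : extendScalars hAB) := IsIntegral.of_finite A _
    exact h1.map (extendScalars hAB).val
  have hm : n ≤ (minpoly A x).natDegree := by
    by_contra hlt
    exact hli (minpoly A x) (minpoly.ne_zero hint) (not_le.mp hlt) (minpoly.aeval A x)
  have hle : A⟮x⟯ ≤ extendScalars hAB := by
    rw [adjoin_simple_le_iff]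
    exact hx'
  calc n ≤ (minpoly A x).natDegree := hm
    _ = Module.finrank A A⟮x⟯ := (IntermediateField.adjoin.finrank hint).symm
    _ ≤ Module.finrank A (extendScalars hAB) := IntermediateField.finrank_le_of_le_right hle

/-- `extendScalars` of `A ≤ A ⊔ k(S)` is `A(S)`. -/
theorem h26_extendScalars_sup_adjoin (A : IntermediateField k R) (S : Set R) :
    extendScalars (le_sup_left : A ≤ A ⊔ adjoin k S) = adjoin A S := by
  apply restrictScalars_injective k
  rw [extendScalars_restrictScalars, restrictScalars_adjoin_eq_sup]

/-- Upper bound for a simple extension. -/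
theorem h26_relfinrank_le (A : IntermediateField k R) (x : R) (f : Polynomial A) (hf : f.Monic)
    (hx : Polynomial.aeval x f = 0) :
    IntermediateField.relfinrank A (A ⊔ k⟮x⟯) ≤ f.natDegree ∧
      IntermediateField.relfinrank A (A ⊔ k⟮x⟯) ≠ 0 := by
  have hint : IsIntegral A x := ⟨f, hf, hx⟩
  rw [IntermediateField.relfinrank_eq_finrank_of_le le_sup_left, h26_extendScalars_sup_adjoin,
    IntermediateField.adjoin.finrank hint]
  refine ⟨?_, (minpoly.natDegree_pos hint).ne'⟩
  exact natDegree_le_of_dvd (minpoly.dvd A x hx) hf.ne_zero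

/-- Finiteness of an extension generated by finitely many integral elements. -/
theorem h26_relfinrank_adjoin_ne_zero (A : IntermediateField k R) (S : Set R) (hS : S.Finite)
    (hint : ∀ x ∈ S, IsIntegral A x) :
    IntermediateField.relfinrank A (A ⊔ adjoin k S) ≠ 0 := by
  rw [IntermediateField.relfinrank_eq_finrank_of_le le_sup_left, h26_extendScalars_sup_adjoin]
  haveI : Finite S := hS
  haveI : FiniteDimensional A (adjoin A S) := finiteDimensional_adjoin hint
  exact Module.finrank_pos.ne'

/-- Relative degrees inside a finite extension are nonzero. -/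
theorem h26_relfinrank_ne_zero_of_le (A X Y B : IntermediateField k R) (hAX : A ≤ X)
    (hXY : X ≤ Y) (hYB : Y ≤ B) (hfin : IntermediateField.relfinrank A B ≠ 0) :
    IntermediateField.relfinrank X Y ≠ 0 := by
  have h1 := IntermediateField.relfinrank_mul_relfinrank hAX (hXY.trans hYB)
  have h2 := IntermediateField.relfinrank_mul_relfinrank hXY hYB
  intro h0
  rw [h0, zero_mul] at h2
  rw [← h2, mul_zero] at h1
  exact hfin h1.symm

/-- Monotonicity of the relative degree in the upper field (finite case). -/
theorem h26_relfinrank_mono (A X B : IntermediateField k R) (hAX : A ≤ X) (hXB : X ≤ B)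
    (hfin : IntermediateField.relfinrank A B ≠ 0) :
    IntermediateField.relfinrank A X ≤ IntermediateField.relfinrank A B := by
  have h1 := IntermediateField.relfinrank_mul_relfinrank hAX hXB
  have h2 : IntermediateField.relfinrank X B ≠ 0 :=
    h26_relfinrank_ne_zero_of_le A X B B hAX hXB le_rfl hfin
  rw [← h1]
  exact Nat.le_mul_of_pos_right _ (Nat.pos_of_ne_zero h2)

section Twist

variable (A : IntermediateField k R) (τ : R →+* R) (hτ : ∀ a ∈ A, τ a = a)

include hτ in
/-- A ring endomorphism fixing `A` commutes with evaluation of polynomials over `A`. -/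
theorem h26_aeval_hom (g : Polynomial A) (y : R) :
    Polynomial.aeval (τ y) g = τ (Polynomial.aeval y g) := by
  rw [Polynomial.aeval_def, Polynomial.aeval_def, Polynomial.hom_eval₂]
  congr 1
  ext a
  exact (hτ a a.2).symm

include hτ in
theorem h26_aeval_iterate (g : Polynomial A) (y : R) (n : ℕ) (hy : Polynomial.aeval y g = 0) :
    Polynomial.aeval (τ^[n] y) g = 0 := by
  induction n with
  | zero => simpa using hy
  | succ n ih =>
    rw [Function.iterate_succ_apply', h26_aeval_hom A τ hτ, ih, map_zero]

variable {ι : Type*} [Fintype ι] (r : ι → R) (hr : Function.Injective r)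
  (horb : ∀ b b' : ι, ∃ n : ℕ, τ^[n] (r b) = r b')

include hτ hr horb in
/-- If `g` over `A` vanishes at one `r b`, it is divisible by `∏ (X - r b)`. -/
theorem h26_prod_dvd_of_root (g : Polynomial A) (b₀ : ι)
    (hg : Polynomial.aeval (r b₀) g = 0) :
    (∏ b : ι, (X - C (r b))) ∣ g.map (algebraMap A R) := by
  have hall : ∀ b, (g.map (algebraMap A R)).eval (r b) = 0 := by
    intro b
    obtain ⟨n, hn⟩ := horb b₀ b
    rw [Polynomial.eval_map_algebraMap, ← hn]
    exact h26_aeval_iterate A τ hτ g _ n hg
  have : (∏ b ∈ (Finset.univ : Finset ι), (X - C (r b))) ∣ g.map (algebraMap A R) := by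
    apply Finset.prod_dvd_of_coprime
    · intro b _ b' _ hbb'
      exact Polynomial.pairwise_coprime_X_sub_C hr hbb'
    · intro b _
      exact (Polynomial.dvd_iff_isRoot).mpr (hall b)
  exact this

include hτ hr horb in
/-- **Twist bound**: a nonzero polynomial over `A` of degree less than the number of conjugates
does not vanish at `r b`. -/
theorem h26_twist_bound (g : Polynomial A) (hg0 : g ≠ 0) (hdeg : g.natDegree < Fintype.card ι)
    (b₀ : ι) : Polynomial.aeval (r b₀) g ≠ 0 := by
  intro hg
  have hdvd := h26_prod_dvd_of_root A τ hτ r hr horb g b₀ hg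
  have hne : g.map (algebraMap A R) ≠ 0 :=
    (Polynomial.map_ne_zero_iff (algebraMap A R).injective).mpr hg0
  have h1 := Polynomial.natDegree_le_of_dvd hdvd hne
  rw [Polynomial.natDegree_prod_of_monic _ _ (fun b _ => Polynomial.monic_X_sub_C (r b))] at h1
  simp only [Polynomial.natDegree_X_sub_C, Finset.sum_const, Finset.card_univ, smul_eq_mul,
    mul_one] at h1
  rw [Polynomial.natDegree_map] at h1
  omega

include hτ hr horb in
/-- **Dichotomy**: if `f = (X - c) ∏ (X - r b)` has coefficients in `A` and `c ∉ A`, then no
nonzero polynomial over `A` of degree at most the number of conjugates vanishes at a root of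
`f`. -/
theorem h26_dichotomy (c : R) (hc : ∀ b, c ≠ r b) (f : Polynomial A)
    (hf : f.map (algebraMap A R) = (X - C c) * ∏ b : ι, (X - C (r b)))
    (y : R) (hy : y = c ∨ ∃ b, y = r b)
    (g : Polynomial A) (hg0 : g ≠ 0) (hdeg : g.natDegree ≤ Fintype.card ι)
    (hg : Polynomial.aeval y g = 0) : c ∈ A := by
  classical
  set P : Polynomial R := ∏ b : ι, (X - C (r b)) with hP
  have hPmonic : P.Monic := Polynomial.monic_prod_of_monic _ _
    (fun b _ => Polynomial.monic_X_sub_C (r b))
  have hPdeg : P.natDegree = Fintype.card ι := by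
    rw [hP, Polynomial.natDegree_prod_of_monic _ _ (fun b _ => Polynomial.monic_X_sub_C (r b))]
    simp
  have hfmonic : f.Monic := by
    have : (f.map (algebraMap A R)).Monic := by
      rw [hf]; exact (Polynomial.monic_X_sub_C c).mul hPmonic
    exact Polynomial.monic_map_iff.mp this
  have hfy : Polynomial.aeval y f = 0 := by
    rw [← Polynomial.eval_map_algebraMap, hf]
    rcases hy with rfl | ⟨b, rfl⟩
    · simp
    · rw [Polynomial.eval_mul, hP, Polynomial.eval_prod,
        Finset.prod_eq_zero (Finset.mem_univ b) (by simp), mul_zero]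
  have hint : IsIntegral A y := ⟨f, hfmonic, hfy⟩
  set m := minpoly A y with hm
  have hmmonic : m.Monic := minpoly.monic hint
  have hmg : m ∣ g := minpoly.dvd A y hg
  have hmf : m ∣ f := minpoly.dvd A y hfy
  have hmdeg : m.natDegree ≤ Fintype.card ι :=
    (Polynomial.natDegree_le_of_dvd hmg hg0).trans hdeg
  have hmpos : 0 < m.natDegree := minpoly.natDegree_pos hint
  set mR : Polynomial R := m.map (algebraMap A R) with hmR
  have hmRmonic : mR.Monic := hmmonic.map _
  have hmRdeg : mR.natDegree = m.natDegree := Polynomial.natDegree_map _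
  have hmRf : mR ∣ (X - C c) * P := by
    rw [← hf]
    exact Polynomial.map_dvd _ hmf
  by_cases hcase : ∃ b, Polynomial.aeval (r b) m = 0
  · -- all conjugates are roots of `m`
    obtain ⟨b₀, hb₀⟩ := hcase
    have hPm : P ∣ mR := h26_prod_dvd_of_root A τ hτ r hr horb m b₀ hb₀
    have hmRP : mR = P :=
      Polynomial.eq_of_monic_of_dvd_of_natDegree_le hPmonic hmRmonic hPm
        (by rw [hmRdeg, hPdeg]; exact hmdeg)
    obtain ⟨h, hh⟩ := hmf
    have hmap : (X - C c) * P = P * h.map (algebraMap A R) := by
      rw [← hf, hh, Polynomial.map_mul, ← hmR, hmRP]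
    have hhmap : h.map (algebraMap A R) = X - C c := by
      have h1 : P * h.map (algebraMap A R) = P * (X - C c) := by rw [← hmap, mul_comm]
      exact mul_left_cancel₀ hPmonic.ne_zero h1
    have hc0 := congrArg (fun q : Polynomial R => q.coeff 0) hhmap
    simp only [Polynomial.coeff_map, Polynomial.coeff_sub, Polynomial.coeff_X_zero,
      Polynomial.coeff_C_zero, zero_sub] at hc0
    have hcA : c = algebraMap A R (-(h.coeff 0)) := by
      rw [map_neg, hc0, neg_neg]
    rw [hcA]
    exact (-(h.coeff 0)).2
  · -- no conjugate is a root of `m`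
    simp only [not_exists] at hcase
    have hcop : IsCoprime mR P := by
      rw [hP]
      apply IsCoprime.prod_right
      intro b _
      have hirr : Irreducible (X - C (r b) : Polynomial R) := Polynomial.irreducible_X_sub_C _
      refine (hirr.coprime_iff_not_dvd.mpr ?_).symm
      intro h1
      apply hcase b
      rw [← Polynomial.eval_map_algebraMap]
      exact (Polynomial.dvd_iff_isRoot).mp h1
    have hdvd : mR ∣ X - C c := hcop.dvd_of_dvd_mul_right hmRf
    have heq : X - C c = mR :=
      Polynomial.eq_of_monic_of_dvd_of_natDegree_le hmRmonic (Polynomial.monic_X_sub_C c) hdvd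
        (by rw [Polynomial.natDegree_X_sub_C, hmRdeg]; exact hmpos)
    have hc0 := congrArg (fun q : Polynomial R => q.coeff 0) heq
    simp only [hmR, Polynomial.coeff_map, Polynomial.coeff_sub, Polynomial.coeff_X_zero,
      Polynomial.coeff_C_zero, zero_sub] at hc0
    have hcA : c = algebraMap A R (-(m.coeff 0)) := by
      rw [map_neg, ← hc0, neg_neg]
    rw [hcA]
    exact (-(m.coeff 0)).2

end Twist

end H26WP3
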