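/-
S28 WP3 (towers), helper18: substitution calculus for formal `q`-series.

`h18sub η n : LaurentSeries k →+* LaurentSeries k` is the substitution `q ↦ η u^n`
(`= qExpand k n ∘ tw η`), and `h18J η n = J(η u^n)` is the image of `jqModC k`.
-/
import Mathlib
import Fermat.Agent.S28.Interface

set_option autoImplicit false

open ModularCurve HahnSeries Polynomial

noncomputable section

namespace H18WP3

open H28S28

section Twist

variable {A : Type} [CommRing A]

theorem h18_tw_one (x : LaurentSeries A) : tw (1 : Aˣ) x = x := by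
  ext n
  simp [tw_coeff]

theorem h18_tw_tw (ζ ξ : Aˣ) (x : LaurentSeries A) : tw ζ (tw ξ x) = tw (ζ * ξ) x := by
  ext n
  rw [tw_coeff, tw_coeff, tw_coeff, mul_zpow, Units.val_mul, mul_assoc]

theorem h18_tw_injective (ζ : Aˣ) : Function.Injective (tw ζ : LaurentSeries A → LaurentSeries A) := by
  intro x y h
  have := congrArg (tw ζ⁻¹) h
  rwa [h18_tw_tw, h18_tw_tw, inv_mul_cancel, h18_tw_one, h18_tw_one] at this

theorem h18_tw_qExpand (ξ : Aˣ) (n : ℕ) [NeZero n] (x : LaurentSeries A) :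
    tw ξ (qExpand A n x) = qExpand A n (tw (ξ ^ n) x) := by
  ext m
  by_cases hm : (n : ℤ) ∣ m
  · obtain ⟨c, rfl⟩ := hm
    rw [tw_coeff, qExpand_coeff_mul, qExpand_coeff_mul, tw_coeff]
    congr 2
    rw [zpow_mul, zpow_natCast]
  · rw [tw_coeff, qExpand_coeff_of_not_dvd n _ hm, qExpand_coeff_of_not_dvd n _ hm, mul_zero]

theorem h18_tw_qExpand_of_pow_eq_one (ξ : Aˣ) (n : ℕ) [NeZero n] (h : ξ ^ n = 1)
    (x : LaurentSeries A) : tw ξ (qExpand A n x) = qExpand A n x := by
  rw [h18_tw_qExpand, h, h18_tw_one]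

end Twist

section Sub

variable (k : Type) [CommRing k]

/-- The substitution `q ↦ η u^n`. -/
def h18sub (η : kˣ) (n : ℕ) [NeZero n] : LaurentSeries k →+* LaurentSeries k :=
  (qExpand k n).comp (tw η)

/-- `J(η u^n)`. -/
def h18J (η : kˣ) (n : ℕ) [NeZero n] : LaurentSeries k := h18sub k η n (jqModC k)

variable {k}

theorem h18sub_apply (η : kˣ) (n : ℕ) [NeZero n] (x : LaurentSeries k) :
    h18sub k η n x = qExpand k n (tw η x) := rfl

theorem h18sub_injective (η : kˣ) (n : ℕ) [NeZero n] : Function.Injective (h18sub k η n) :=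
  (qExpand_injective n).comp (h18_tw_injective η)

theorem h18J_one_eq (n : ℕ) [NeZero n] : h18J k 1 n = qExpand k n (jqModC k) := by
  rw [h18J, h18sub_apply, h18_tw_one]

/-- `sub η n (J(ξ q^m)) = J(ξ η^m u^{n m})`. -/
theorem h18sub_h18J (η ξ : kˣ) (n m : ℕ) [NeZero n] [NeZero m] [NeZero (n * m)] :
    h18sub k η n (h18J k ξ m) = h18J k (η ^ m * ξ) (n * m) := by
  rw [h18J, h18J, h18sub_apply, h18sub_apply, h18sub_apply, h18_tw_qExpand, h18_tw_tw,
    qExpand_qExpand]

/-- Twisting `J(η u^n)`. -/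
theorem h18_tw_h18J (ξ η : kˣ) (n : ℕ) [NeZero n] :
    tw ξ (h18J k η n) = h18J k (ξ ^ n * η) n := by
  rw [h18J, h18J, h18sub_apply, h18sub_apply, h18_tw_qExpand, h18_tw_tw]

theorem h18J_coeff_neg (η : kˣ) (n : ℕ) [NeZero n] :
    (h18J k η n).coeff (-(n : ℤ)) = ((η⁻¹ : kˣ) : k) := by
  have e : -(n : ℤ) = (n : ℤ) * (-1) := by ring
  rw [h18J, h18sub_apply, e, qExpand_coeff_mul, tw_coeff, coeff_jqModC_neg_one, mul_one,
    zpow_neg_one]

theorem h18J_coeff_of_lt (η : kˣ) (n : ℕ) [NeZero n] {m : ℤ} (hm : m < -(n : ℤ)) :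
    (h18J k η n).coeff m = 0 := by
  rw [h18J, h18sub_apply]
  by_cases hd : (n : ℤ) ∣ m
  · obtain ⟨c, rfl⟩ := hd
    rw [qExpand_coeff_mul, tw_coeff]
    have hn : (0 : ℤ) < n := by exact_mod_cast Nat.pos_of_ne_zero (NeZero.ne n)
    have hc : c < -1 := by
      by_contra hc
      push Not at hc
      have : (n : ℤ) * (-1) ≤ (n : ℤ) * c := mul_le_mul_of_nonneg_left hc hn.le
      linarith
    rw [coeff_jqModC_of_lt k hc, mul_zero]
  · exact qExpand_coeff_of_not_dvd n _ hd

/-- (D) the series `J(η u^n)` determine `n` and `η`. -/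
theorem h18J_injective [Nontrivial k] {η η' : kˣ} {n n' : ℕ} [NeZero n] [NeZero n']
    (h : h18J k η n = h18J k η' n') : n = n' ∧ η = η' := by
  have hne : ∀ (ξ : kˣ), ((ξ⁻¹ : kˣ) : k) ≠ 0 := fun ξ => Units.ne_zero _
  have hnn : n = n' := by
    rcases lt_trichotomy n n' with hlt | heq | hgt
    · exfalso
      have h1 := h18J_coeff_neg η' n'
      rw [← h, h18J_coeff_of_lt η n (by exact_mod_cast (by omega : -(n' : ℤ) < -(n : ℤ)))] at h1
      exact hne η' h1.symm
    · exact heq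
    · exfalso
      have h1 := h18J_coeff_neg η n
      rw [h, h18J_coeff_of_lt η' n' (by exact_mod_cast (by omega : -(n : ℤ) < -(n' : ℤ)))] at h1
      exact hne η h1.symm
  subst hnn
  refine ⟨rfl, ?_⟩
  have h1 := h18J_coeff_neg η n
  rw [h, h18J_coeff_neg] at h1
  have h2 : η'⁻¹ = η⁻¹ := Units.ext h1
  exact (inv_inj.mp h2).symm

end Sub

section ModEqSub

variable (k : Type) [CommRing k]

/-- Evaluation `ℤ[j] → k((u))` at a series. -/
def h18ev (x : LaurentSeries k) : Polynomial ℤ →+* LaurentSeries k :=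
  Polynomial.eval₂RingHom (Int.castRingHom (LaurentSeries k)) x

variable {k}

theorem h18_comp_ev (f : LaurentSeries k →+* LaurentSeries k) (x : LaurentSeries k) :
    f.comp (h18ev k x) = h18ev k (f x) := by
  apply Polynomial.ringHom_ext
  · intro a
    simp [h18ev]
  · simp [h18ev]

theorem h18_baseEval (p : ℕ) [NeZero p] : baseEval k p = h18ev k (h18J k 1 p) := by
  rw [h18J_one_eq]
  rfl

theorem h18sub_xconj_none (p : ℕ) [NeZero p] (ζ η : kˣ) (n : ℕ) [NeZero n]
    [NeZero (n * (p * p))] :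
    h18sub k η n (xconj k p ζ none) = h18J k (η ^ (p * p)) (n * (p * p)) := by
  have h : xconj k p ζ none = h18J k 1 (p * p) := by
    rw [h18J_one_eq]
    rfl
  rw [h, h18sub_h18J, mul_one]

theorem h18sub_xconj_some (p : ℕ) [NeZero p] (ζ η : kˣ) (n : ℕ) [NeZero n] (b : Fin p) :
    h18sub k η n (xconj k p ζ (some b)) = h18J k (η * ζ ^ (b : ℕ)) n := by
  have h : xconj k p ζ (some b) = tw (ζ ^ (b : ℕ)) (jqModC k) := rfl
  rw [h, h18J, h18sub_apply, h18sub_apply, h18_tw_tw]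

/-- (P) The modular equation after the substitution `s ↦ η u^n`:
`Φ_p(J(η^p u^{np}), X) = (X − J(η^{p²} u^{np²})) ∏_b (X − J(η ζ^b u^n))`. -/
theorem h18_P (p : ℕ) [NeZero p] (Φ : Polynomial (Polynomial ℤ)) (ζ : kˣ)
    (hΦ : Φ.map (baseEval k p) = ∏ i : Option (Fin p), (X - Polynomial.C (xconj k p ζ i)))
    (η : kˣ) (n : ℕ) [NeZero n] [NeZero (n * p)] [NeZero (n * (p * p))] :
    Φ.map (h18ev k (h18J k (η ^ p) (n * p))) =
      (X - Polynomial.C (h18J k (η ^ (p * p)) (n * (p * p)))) *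
        ∏ b : Fin p, (X - Polynomial.C (h18J k (η * ζ ^ (b : ℕ)) n)) := by
  have h1 := congrArg (Polynomial.map (h18sub k η n)) hΦ
  rw [Polynomial.map_map, h18_baseEval, h18_comp_ev, h18sub_h18J, mul_one,
    Polynomial.map_prod, Fintype.prod_option] at h1
  rw [h1]
  simp only [Polynomial.map_sub, Polynomial.map_X, Polynomial.map_C, h18sub_xconj_none,
    h18sub_xconj_some]

end ModEqSub

end H18WP3
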