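/-
S28 WP3, helper18: the gcd lemma (G).

For primes `p ≠ r` (with the modular equations of levels `p` and `r`), and `m ≥ 1`:
`J(q^{prm}) ∈ k(J(q^{rm}), J(q^{pm}))`.
-/
import Mathlib
import Fermat.Agent.S28.WP3Sub

set_option autoImplicit false

open ModularCurve HahnSeries Polynomial

noncomputable section

namespace H18WP3

open H28S28

section Abstract

/-- Abstract common-root lemma: if `x` is integral over `F` with two polynomials `g₁, g₂` over `F`
vanishing at `x` whose images under an injective `θ` factor as `(X - θ x) P₁`, `(X - θ x) P₂` with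
`P₁` coprime to `(X - θ x) P₂`, then `x ∈ F`. -/
theorem h18_mem_of_common_root {F R : Type} [Field F] [Field R] [Algebra F R]
    (θ : R →+* R) (g₁ g₂ : F[X]) (hg₁ : g₁.Monic) (x : R)
    (P₁ P₂ : R[X])
    (h₁ : (g₁.map (algebraMap F R)).map θ = (X - Polynomial.C (θ x)) * P₁)
    (h₂ : (g₂.map (algebraMap F R)).map θ = (X - Polynomial.C (θ x)) * P₂)
    (hcop : IsCoprime P₁ ((X - Polynomial.C (θ x)) * P₂)) :
    x ∈ (algebraMap F R).range := by
  have hθ : Function.Injective θ := θ.injective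
  -- `x` is a root of `g₁` and `g₂`
  have root : ∀ (g : F[X]) (P : R[X]),
      (g.map (algebraMap F R)).map θ = (X - Polynomial.C (θ x)) * P → Polynomial.aeval x g = 0 := by
    intro g P h
    apply hθ
    rw [map_zero, Polynomial.aeval_def, Polynomial.eval₂_eq_eval_map, ← Polynomial.eval_map_apply,
      h]
    simp
  have hx1 := root g₁ P₁ h₁
  have hx2 := root g₂ P₂ h₂
  have hint : IsIntegral F x := ⟨g₁, hg₁, hx1⟩
  have hd1 : minpoly F x ∣ g₁ := minpoly.dvd F x hx1
  have hd2 : minpoly F x ∣ g₂ := minpoly.dvd F x hx2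
  set φ : F →+* R := θ.comp (algebraMap F R) with hφ
  have hφinj : Function.Injective φ := φ.injective
  have hm1 : (minpoly F x).map φ ∣ (X - Polynomial.C (θ x)) * P₁ := by
    rw [← h₁, Polynomial.map_map]
    exact Polynomial.map_dvd φ hd1
  have hm2 : (minpoly F x).map φ ∣ (X - Polynomial.C (θ x)) * P₂ := by
    rw [← h₂, Polynomial.map_map]
    exact Polynomial.map_dvd φ hd2
  have hcop' : IsCoprime ((minpoly F x).map φ) P₁ :=
    (hcop.symm.of_isCoprime_of_dvd_left hm2)
  have hdvd : (minpoly F x).map φ ∣ (X - Polynomial.C (θ x)) :=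
    hcop'.dvd_of_dvd_mul_right hm1
  have hdeg : (minpoly F x).natDegree ≤ 1 := by
    have h := Polynomial.natDegree_le_of_dvd hdvd (Polynomial.X_sub_C_ne_zero (θ x))
    rwa [Polynomial.natDegree_map_eq_of_injective hφinj, Polynomial.natDegree_X_sub_C] at h
  have hpos : 0 < (minpoly F x).natDegree := minpoly.natDegree_pos hint
  have hdeg1 : (minpoly F x).degree = 1 := by
    rw [Polynomial.degree_eq_natDegree (minpoly.ne_zero hint)]
    have : (minpoly F x).natDegree = 1 := le_antisymm hdeg hpos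
    rw [this]
    rfl
  exact minpoly.mem_range_of_degree_eq_one F x hdeg1

end Abstract

section G

variable {k : Type} [Field k]

theorem h18J_congr {η η' : kˣ} {n n' : ℕ} [NeZero n] [NeZero n'] (hη : η = η') (hn : n = n') :
    h18J k η n = h18J k η' n' := by
  subst hη
  subst hn
  rfl

/-- Coprimality of `∏ (X - aᵢ)` with `(X - c) ∏ (X - bⱼ)` when all `aᵢ` differ from `c` and from
all the `bⱼ`. -/
theorem h18_isCoprime_prod {R : Type} [Field R] {ι κ : Type} [Fintype ι] [Fintype κ]
    (a : ι → R) (b : κ → R) (c : R) (hac : ∀ i, a i ≠ c) (hab : ∀ i j, a i ≠ b j) :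
    IsCoprime (∏ i, (X - Polynomial.C (a i))) ((X - Polynomial.C c) * ∏ j, (X - Polynomial.C (b j))) := by
  refine IsCoprime.prod_left (fun i _ => ?_)
  refine IsCoprime.mul_right ?_ (IsCoprime.prod_right (fun j _ => ?_))
  · exact Polynomial.isCoprime_X_sub_C_of_isUnit_sub (sub_ne_zero.mpr (hac i)).isUnit
  · exact Polynomial.isCoprime_X_sub_C_of_isUnit_sub (sub_ne_zero.mpr (hab i j)).isUnit

/-- (G), with explicit modular equations: `J(q^{prm}) ∈ k(J(q^{rm}), J(q^{pm}))`. -/
theorem h18_G_aux (p r : ℕ) [NeZero p] [NeZero r] (hp2 : 2 ≤ p) (hpr : p ≠ r)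
    (Φp Φr : Polynomial (Polynomial ℤ)) (hΦp : Φp.Monic) (ζp ζr : kˣ)
    (hp : Φp.map (baseEval k p) = ∏ i : Option (Fin p), (X - Polynomial.C (xconj k p ζp i)))
    (hr : Φr.map (baseEval k r) = ∏ i : Option (Fin r), (X - Polynomial.C (xconj k r ζr i)))
    (m : ℕ) [NeZero m] :
    qExpand k (p * r * m) (jqModC k) ∈
      IntermediateField.adjoin k
        {qExpand k (r * m) (jqModC k), qExpand k (p * m) (jqModC k)} := by
  set F := IntermediateField.adjoin k
    ({qExpand k (r * m) (jqModC k), qExpand k (p * m) (jqModC k)} : Set (LaurentSeries k)) with hF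
  have hA : qExpand k (r * m) (jqModC k) ∈ F :=
    IntermediateField.subset_adjoin k _ (Set.mem_insert _ _)
  have hB : qExpand k (p * m) (jqModC k) ∈ F :=
    IntermediateField.subset_adjoin k _ (Set.mem_insert_of_mem _ (Set.mem_singleton _))
  -- evaluation homs into `F`
  let evF : F → (Polynomial ℤ →+* F) := fun a => Polynomial.eval₂RingHom (Int.castRingHom F) a
  have hev : ∀ a : F, (algebraMap F (LaurentSeries k)).comp (evF a) = h18ev k (a : LaurentSeries k) := by
    intro a
    apply Polynomial.ringHom_ext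
    · intro n
      simp [evF, h18ev]
    · simp [evF, h18ev]
  set θ : LaurentSeries k →+* LaurentSeries k := h18sub k 1 (p * r) with hθ
  have hmap : ∀ (Φ : Polynomial (Polynomial ℤ)) (a : F),
      ((Φ.map (evF a)).map (algebraMap F (LaurentSeries k))).map θ =
        Φ.map (h18ev k (θ (a : LaurentSeries k))) := by
    intro Φ a
    rw [Polynomial.map_map, Polynomial.map_map, RingHom.comp_assoc, hev, h18_comp_ev]
  have hθx : θ (qExpand k (p * r * m) (jqModC k)) = h18J k 1 (p * r * (p * r * m)) := by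
    rw [hθ, ← h18J_one_eq, h18sub_h18J, one_pow, one_mul]
  have hθA : θ (qExpand k (r * m) (jqModC k)) = h18J k 1 (p * r * (r * m)) := by
    rw [hθ, ← h18J_one_eq, h18sub_h18J, one_pow, one_mul]
  have hθB : θ (qExpand k (p * m) (jqModC k)) = h18J k 1 (p * r * (p * m)) := by
    rw [hθ, ← h18J_one_eq, h18sub_h18J, one_pow, one_mul]
  -- the two factorizations
  have h1 := h18_P p Φp ζp hp (1 : kˣ) (r * r * m)
  have h2 := h18_P r Φr ζr hr (1 : kˣ) (p * p * m)
  have e1 : h18J k ((1 : kˣ) ^ p) (r * r * m * p) = h18J k 1 (p * r * (r * m)) :=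
    h18J_congr (one_pow p) (by ring)
  have e2 : h18J k ((1 : kˣ) ^ r) (p * p * m * r) = h18J k 1 (p * r * (p * m)) :=
    h18J_congr (one_pow r) (by ring)
  have e3 : h18J k ((1 : kˣ) ^ (p * p)) (r * r * m * (p * p)) = h18J k 1 (p * r * (p * r * m)) :=
    h18J_congr (one_pow _) (by ring)
  have e4 : h18J k ((1 : kˣ) ^ (r * r)) (p * p * m * (r * r)) = h18J k 1 (p * r * (p * r * m)) :=
    h18J_congr (one_pow _) (by ring)
  rw [e1, e3] at h1
  rw [e2, e4] at h2
  have key := h18_mem_of_common_root (F := F) (R := LaurentSeries k) θ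
    (Φp.map (evF ⟨_, hA⟩)) (Φr.map (evF ⟨_, hB⟩)) (hΦp.map _)
    (qExpand k (p * r * m) (jqModC k))
    (∏ b : Fin p, (X - Polynomial.C (h18J k (1 * ζp ^ (b : ℕ)) (r * r * m))))
    (∏ b : Fin r, (X - Polynomial.C (h18J k (1 * ζr ^ (b : ℕ)) (p * p * m))))
    (by rw [hmap, hθx]; exact (by rw [hθA]; exact h1))
    (by rw [hmap, hθx]; exact (by rw [hθB]; exact h2))
    (by
      rw [hθx]
      refine h18_isCoprime_prod _ _ _ (fun i h => ?_) (fun i j h => ?_)
      · have := (h18J_injective h).1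
        have hp' : 0 < r * r * m := Nat.pos_of_ne_zero (NeZero.ne _)
        have h4 : 4 ≤ p * p := Nat.mul_le_mul hp2 hp2
        nlinarith
      · have := (h18J_injective h).1
        have hm : 0 < m := Nat.pos_of_ne_zero (NeZero.ne _)
        have h3 : r * r = p * p := by
          apply Nat.eq_of_mul_eq_mul_right hm
          exact this
        have : r = p := by nlinarith [Nat.mul_self_inj.mp h3]
        exact hpr this.symm)
  obtain ⟨y, hy⟩ := key
  rw [← hy]
  exact y.2

/-- Over an algebraically closed field the cyclotomic polynomial has a unit root. -/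
theorem h18_exists_cyclotomic_root [IsAlgClosed k] (p : ℕ) [NeZero p] :
    ∃ ζ : kˣ, (Polynomial.cyclotomic p k).eval (ζ : k) = 0 := by
  have hpos : 0 < p := Nat.pos_of_ne_zero (NeZero.ne p)
  obtain ⟨z, hz⟩ := IsAlgClosed.exists_root (Polynomial.cyclotomic p k)
    (Polynomial.degree_cyclotomic_pos p k hpos).ne'
  have h1 : z ^ p = 1 := by
    obtain ⟨c, hc⟩ := Polynomial.cyclotomic.dvd_X_pow_sub_one p k
    have := congrArg (Polynomial.eval z) hc
    rw [Polynomial.eval_mul, hz.eq_zero, zero_mul] at this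
    simpa [sub_eq_zero] using this
  exact ⟨Units.ofPowEqOne z p h1 (NeZero.ne p), by simpa using hz.eq_zero⟩

/-- (G) the gcd lemma: for `p ≠ r` (both `≥ 2`) with the modular equations of level `p` and `r`,
`J(q^{prm}) ∈ k(J(q^{rm}), J(q^{pm}))`, over an algebraically closed field `k`. -/
theorem h18_G [IsAlgClosed k] (p r : ℕ) [NeZero p] [NeZero r] (hp2 : 2 ≤ p) (hpr : p ≠ r)
    (hp : HasModEq p) (hr : HasModEq r) (m : ℕ) [NeZero m] :
    qExpand k (p * r * m) (jqModC k) ∈
      IntermediateField.adjoin k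
        {qExpand k (r * m) (jqModC k), qExpand k (p * m) (jqModC k)} := by
  obtain ⟨Φp, _, _, hΦp, -, -, -, -, Hp⟩ := hp
  obtain ⟨Φr, _, _, -, -, -, -, -, Hr⟩ := hr
  obtain ⟨ζp, hζp⟩ := h18_exists_cyclotomic_root (k := k) p
  obtain ⟨ζr, hζr⟩ := h18_exists_cyclotomic_root (k := k) r
  exact h18_G_aux p r hp2 hpr Φp Φr hΦp ζp ζr (Hp k ζp hζp).1 (Hr k ζr hζr).1 m

end G

end H18WP3
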