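import Mathlib
import Fermat.Agent.S28.Interface
import Fermat.Agent.S28.WP2
import Fermat.Agent.S28.WP3Defs
import Fermat.Agent.S28.WP3Crux
import Fermat.Agent.S28.WP3Gcd
import Fermat.Agent.S28.WP3Field

/-!
# S28, WP3 (helper26): the induction `ψ(N) ≤ [k(J_d : d ∣ N) : k(J)]`

Plan of helper11 (embedding-free): for `N = p N'`,
`[L_N : k(J)] ≥ [L_N : k(J_p)] = [L_N : θ_p L_{N'}] · [L_{N'} : k(J)]`, and
`[L_N : θ_p L_{N'}] ≥ p` (twist bound), `≥ p + 1` if `p ∤ N'` (dichotomy, crux, gcd lemma).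
-/

set_option autoImplicit false
set_option linter.style.haveILetI false
set_option linter.unusedSectionVars false

open ModularCurve HahnSeries Polynomial IntermediateField

noncomputable section

namespace H26WP3

open H28S28

variable (k : Type) [Field k]

/-- The field `k(J_d : d ∣ N)`. -/
def LL (N : ℕ) : IntermediateField k (LaurentSeries k) :=
  adjoin k ((h10j k) '' {d | d ∣ N})

theorem h26_LL_eq (N : ℕ) [NeZero N] : LL k N = modularFunctionFieldFullC k N := by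
  unfold LL modularFunctionFieldFullC
  congr 1
  ext x
  constructor
  · rintro ⟨d, hd, rfl⟩
    have hd0 : d ≠ 0 := fun h => NeZero.ne N (by
      have : d ∣ N := hd
      rw [h, zero_dvd_iff] at this
      exact this)
    haveI : NeZero d := ⟨hd0⟩
    exact ⟨d, ⟨hd0⟩, hd, h10j_eq k d⟩
  · rintro ⟨d, hne, hd, rfl⟩
    haveI := hne
    exact ⟨d, hd, h10j_eq k d⟩

theorem h26_mem_LL {N d : ℕ} (hd : d ∣ N) : h10j k d ∈ LL k N :=
  subset_adjoin k _ ⟨d, hd, rfl⟩

theorem h26_LL_mono {N M : ℕ} (h : N ∣ M) : LL k N ≤ LL k M := by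
  unfold LL
  apply adjoin.mono
  rintro x ⟨d, hd, rfl⟩
  exact ⟨d, Dvd.dvd.trans hd h, rfl⟩

theorem h26_LL_one : LL k 1 = adjoin k {jqModC k} := by
  unfold LL
  congr 1
  ext x
  simp only [Nat.dvd_one, Set.ofPred_eq_eq_singleton, Set.image_singleton, Set.mem_singleton_iff]
  rw [h10j_eq k 1, qExpand_one_apply]

theorem h26_J_mem_LL (N : ℕ) : jqModC k ∈ LL k N := by
  have := h26_mem_LL k (one_dvd N)
  rwa [h10j_eq k 1, qExpand_one_apply] at this

variable (p : ℕ) [NeZero p]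

/-- `θ_p (J_d) = J_{pd}`. -/
theorem h26_th_h10j (d : ℕ) (hd : d ≠ 0) :
    qExpandAlgHomC k p (h10j k d) = h10j k (p * d) := by
  haveI : NeZero d := ⟨hd⟩
  haveI : NeZero (p * d) := ⟨Nat.mul_ne_zero (NeZero.ne p) hd⟩
  rw [h10j_eq, h10j_eq, qExpandAlgHomC_apply, qExpand_qExpand]

/-- `θ_p (L_N) = k(J_{pd} : d ∣ N)`. -/
theorem h26_map_LL_le (N : ℕ) (hN : N ≠ 0) : (LL k N).map (qExpandAlgHomC k p) ≤ LL k (p * N) := by
  unfold LL
  rw [adjoin_map, adjoin_le_iff]
  rintro x ⟨y, ⟨d, hd, rfl⟩, rfl⟩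
  have hd0 : d ≠ 0 := fun h => hN (by
    have : d ∣ N := hd
    rw [h, zero_dvd_iff] at this
    exact this)
  rw [h26_th_h10j k p d hd0]
  exact subset_adjoin k _ ⟨p * d, mul_dvd_mul_left p hd, rfl⟩

/-- Elements of `θ_p (L)` are series in `q^p`. -/
theorem h26_map_range (L : IntermediateField k (LaurentSeries k)) (x : LaurentSeries k)
    (hx : x ∈ L.map (qExpandAlgHomC k p)) : x ∈ Set.range (qExpand k p) := by
  obtain ⟨y, -, rfl⟩ := hx
  exact ⟨y, rfl⟩

/-- Injectivity of `θ_p` on membership. -/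
theorem h26_mem_of_map_mem (L : IntermediateField k (LaurentSeries k)) (y : LaurentSeries k)
    (h : qExpandAlgHomC k p y ∈ L.map (qExpandAlgHomC k p)) : y ∈ L := by
  obtain ⟨z, hz, hzy⟩ := h
  have : z = y := qExpand_injective (R := k) p hzy
  rwa [← this]

section Conj

variable {k} (ζ : kˣ)

/-- The twisted conjugates `J(ζ^b q)`. -/
def rconj : Fin p → LaurentSeries k := fun b => xconj k p ζ (some b)

theorem h26_rconj_def (b : Fin p) : rconj p ζ b = tw (ζ ^ (b : ℕ)) (jqModC k) := rfl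

theorem h26_tw_iterate (n : ℕ) (x : LaurentSeries k) : (tw ζ)^[n] x = tw (ζ ^ n) x := by
  induction n with
  | zero => simp [H1WP3.h1w_tw_one]
  | succ n ih =>
    rw [Function.iterate_succ_apply', ih, H1WP3.h1w_tw_tw, pow_succ']

theorem h26_rconj_injective (hζ : IsPrimitiveRoot ζ p) : Function.Injective (rconj p ζ) := by
  intro b b' h
  have h1 := congrArg (fun x : LaurentSeries k => x.coeff (-1)) h
  simp only [h26_rconj_def, tw_coeff, coeff_jqModC_neg_one, mul_one] at h1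
  have h2 : (ζ ^ (b : ℕ)) ^ (-1 : ℤ) = (ζ ^ (b' : ℕ)) ^ (-1 : ℤ) := Units.ext h1
  rw [zpow_neg_one, zpow_neg_one, inv_inj] at h2
  exact Fin.ext (hζ.pow_inj b.2 b'.2 h2)

theorem h26_rconj_orbit (hζ : IsPrimitiveRoot ζ p) (b b' : Fin p) :
    ∃ n : ℕ, (tw ζ)^[n] (rconj p ζ b) = rconj p ζ b' := by
  refine ⟨(b' : ℕ) + (p - (b : ℕ)), ?_⟩
  rw [h26_tw_iterate, h26_rconj_def, h26_rconj_def, H1WP3.h1w_tw_tw, ← _root_.pow_add]
  have hb : (b : ℕ) < p := b.2
  have h1 : (b' : ℕ) + (p - (b : ℕ)) + (b : ℕ) = (b' : ℕ) + p := by omega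
  rw [h1, _root_.pow_add, hζ.pow_eq_one, mul_one]

theorem h26_rconj_zero : rconj p ζ ⟨0, Nat.pos_of_ne_zero (NeZero.ne p)⟩ = jqModC k := by
  rw [h26_rconj_def]
  simp [H1WP3.h1w_tw_one]

/-- `tw ζ` fixes the elements of `θ_p (L)`. -/
theorem h26_tw_fix (hζ : IsPrimitiveRoot ζ p) (L : IntermediateField k (LaurentSeries k))
    (a : LaurentSeries k) (ha : a ∈ L.map (qExpandAlgHomC k p)) : tw ζ a = a :=
  H1WP3.h1w_tw_fix_range ζ p hζ.pow_eq_one a (h26_map_range k p L a ha)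

/-- The factorisation of the modular polynomial. -/
theorem h26_factor (Φ : Polynomial (Polynomial ℤ)) (hΦ : h10IsModPoly p Φ)
    (hζ : (Polynomial.cyclotomic p k).eval (ζ : k) = 0)
    (A : IntermediateField k (LaurentSeries k)) (hA : h10j k p ∈ A) :
    (Φ.map (h10evE A ⟨h10j k p, hA⟩)).map (algebraMap A (LaurentSeries k)) =
      (X - Polynomial.C (h10j k (p * p))) * ∏ b : Fin p, (X - Polynomial.C (rconj p ζ b)) := by
  rw [Polynomial.map_map, h10evE_comp]
  have h1 := hΦ.2.2 k ζ hζ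
  rw [Fintype.prod_option] at h1
  have h2 : (algebraMap A (LaurentSeries k)) ⟨h10j k p, hA⟩ = qExpand k p (jqModC k) :=
    h10j_eq k p
  rw [h2, ← h10_baseEval_eq, h1]
  congr 2
  haveI : NeZero (p * p) := ⟨Nat.mul_ne_zero (NeZero.ne p) (NeZero.ne p)⟩
  rw [h10j_eq]
  rfl

theorem h26_c_ne_rconj (hp2 : 2 ≤ p) (b : Fin p) : h10j k (p * p) ≠ rconj p ζ b := by
  haveI : NeZero (p * p) := ⟨Nat.mul_ne_zero (NeZero.ne p) (NeZero.ne p)⟩
  rw [h10j_eq]
  exact H13Crux.xconj_none_ne_some k p hp2 ζ b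

end Conj

section Lattice

/-- `k(J) ≤ L_N`. -/
theorem h26_K0_le_LL (N : ℕ) : h10K0 k ≤ LL k N := by
  rw [adjoin_simple_le_iff]
  exact h26_J_mem_LL k N

/-- `θ_p (k(J)) = k(J_p)`. -/
theorem h26_map_K0 : (h10K0 k).map (qExpandAlgHomC k p) = adjoin k {h10j k p} := by
  rw [adjoin_map, Set.image_singleton, h10j_eq]
  rfl

theorem h26_Jp_mem_map (L : IntermediateField k (LaurentSeries k)) (hL : jqModC k ∈ L) :
    h10j k p ∈ L.map (qExpandAlgHomC k p) := by
  refine ⟨jqModC k, hL, ?_⟩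
  rw [h10j_eq]
  rfl

theorem h26_Jpp_mem_map (L : IntermediateField k (LaurentSeries k)) (hL : h10j k p ∈ L) :
    h10j k (p * p) ∈ L.map (qExpandAlgHomC k p) := by
  refine ⟨h10j k p, hL, ?_⟩
  exact h26_th_h10j k p p (NeZero.ne p)

theorem h26_Kp_le_LL (N : ℕ) (hpN : p ∣ N) : (h10K0 k).map (qExpandAlgHomC k p) ≤ LL k N := by
  rw [h26_map_K0, adjoin_simple_le_iff]
  exact h26_mem_LL k hpN

theorem h26_LL_prime (hp : p.Prime) :
    LL k p = (h10K0 k).map (qExpandAlgHomC k p) ⊔ k⟮jqModC k⟯ := by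
  apply le_antisymm
  · unfold LL
    rw [adjoin_le_iff]
    rintro x ⟨d, hd, rfl⟩
    rcases (Nat.dvd_prime hp).mp hd with h | h
    · subst h
      rw [h10j_one]
      exact (le_sup_right : k⟮jqModC k⟯ ≤ _) (mem_adjoin_simple_self k _)
    · subst h
      exact (le_sup_left : (h10K0 k).map (qExpandAlgHomC k d) ≤ _)
        (h26_Jp_mem_map k d _ (mem_adjoin_simple_self k _))
  · refine sup_le (h26_Kp_le_LL k p p dvd_rfl) ?_
    exact h26_K0_le_LL k p

end Lattice

section Finite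

omit [NeZero p] in
/-- Finiteness of `L_N / k(J)` (from the tower of WP2). -/
theorem h26_rf_ne_zero (N : ℕ) (hN : N ≠ 0) (hpolys : h10HasPolys N) :
    IntermediateField.relfinrank (h10K0 k) (LL k N) ≠ 0 := by
  obtain ⟨E, hfd, -, hmem⟩ := h10_tower k N hN hpolys
  haveI := hfd
  have hfin : ((h10j k) '' {d | d ∣ N}).Finite := by
    apply Set.Finite.image
    apply Set.Finite.subset (Set.finite_Iic N)
    intro d hd
    exact Nat.le_of_dvd (Nat.pos_of_ne_zero hN) hd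
  have hint : ∀ x ∈ (h10j k) '' {d | d ∣ N}, IsIntegral (h10K0 k) x := by
    rintro x ⟨d, hd, rfl⟩
    have h1 : IsIntegral (h10K0 k) (⟨h10j k d, hmem d hd⟩ : E) := IsIntegral.of_finite _ _
    exact h1.map E.val
  have h2 := h26_relfinrank_adjoin_ne_zero (h10K0 k) _ hfin hint
  have h3 : h10K0 k ⊔ adjoin k ((h10j k) '' {d | d ∣ N}) = LL k N :=
    sup_eq_right.mpr (h26_K0_le_LL k N)
  rwa [h3] at h2

end Finite

section Step

variable {k} (ζ : kˣ) (Φ : Polynomial (Polynomial ℤ))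

/-- The polynomial `Φ_p(X, J_p)` over a field containing `J_p`. -/
def fpoly (A : IntermediateField k (LaurentSeries k)) (hA : h10j k p ∈ A) : Polynomial A :=
  Φ.map (h10evE A ⟨h10j k p, hA⟩)

theorem h26_fpoly_monic (hΦ : h10IsModPoly p Φ) (A : IntermediateField k (LaurentSeries k))
    (hA : h10j k p ∈ A) : (fpoly p Φ A hA).Monic := hΦ.1.map _

theorem h26_fpoly_natDegree (hΦ : h10IsModPoly p Φ) (A : IntermediateField k (LaurentSeries k))
    (hA : h10j k p ∈ A) : (fpoly p Φ A hA).natDegree = p + 1 := by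
  rw [fpoly, hΦ.1.natDegree_map, hΦ.2.1]

theorem h26_fpoly_aeval (A : IntermediateField k (LaurentSeries k))
    (hA : h10j k p ∈ A) (x : LaurentSeries k) :
    Polynomial.aeval x (fpoly p Φ A hA) = h10ev2 Φ (h10j k p) x :=
  h10_aeval_map_evE A Φ _ x

theorem h26_fpoly_J (hΦ : h10IsModPoly p Φ) (A : IntermediateField k (LaurentSeries k))
    (hA : h10j k p ∈ A) : Polynomial.aeval (jqModC k) (fpoly p Φ A hA) = 0 := by
  rw [h26_fpoly_aeval]
  have := h10_root_j' p Φ hΦ k 1 one_ne_zero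
  rwa [one_mul, h10j_one] at this

/-- `[k(J, J_p) : k(J_p)] ≤ p + 1`, and it is finite. -/
theorem h26_rf_Kp_Lp_le (hp : p.Prime) (hΦ : h10IsModPoly p Φ) :
    IntermediateField.relfinrank ((h10K0 k).map (qExpandAlgHomC k p)) (LL k p) ≤ p + 1 ∧
      IntermediateField.relfinrank ((h10K0 k).map (qExpandAlgHomC k p)) (LL k p) ≠ 0 := by
  rw [h26_LL_prime k p hp]
  have hA := h26_Jp_mem_map k p (h10K0 k) (mem_adjoin_simple_self k _)
  have := h26_relfinrank_le ((h10K0 k).map (qExpandAlgHomC k p)) (jqModC k) (fpoly p Φ _ hA)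
    (h26_fpoly_monic p Φ hΦ _ hA) (h26_fpoly_J p Φ hΦ _ hA)
  rwa [h26_fpoly_natDegree p Φ hΦ] at this

/-- `p + 1 ≤ [k(J, J_p) : k(J)]`. -/
theorem h26_le_rf_K0_Lp (hp : p.Prime) (hME : HasModEq p) (hpk : (p : k) ≠ 0)
    (hζ : IsPrimitiveRoot ζ p) (hζc : (Polynomial.cyclotomic p k).eval (ζ : k) = 0)
    (hΦ : h10IsModPoly p Φ)
    (hfin : IntermediateField.relfinrank (h10K0 k) (LL k p) ≠ 0) :
    p + 1 ≤ IntermediateField.relfinrank (h10K0 k) (LL k p) := by
  rw [← IntermediateField.relfinrank_map_map (h10K0 k) (LL k p) (qExpandAlgHomC k p)] at hfin ⊢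
  have hA := h26_Jp_mem_map k p (h10K0 k) (mem_adjoin_simple_self k _)
  refine h26_le_relfinrank _ _ (IntermediateField.map_mono _ (h26_K0_le_LL k p)) (h10j k (p * p))
    (h26_Jpp_mem_map k p _ (h26_mem_LL k dvd_rfl)) (p + 1) ?_ hfin
  intro g hg0 hdeg hg
  have hc : h10j k (p * p) ∈ (h10K0 k).map (qExpandAlgHomC k p) :=
    h26_dichotomy _ (tw ζ) (fun a ha => h26_tw_fix p ζ hζ _ a ha) (rconj p ζ)
      (h26_rconj_injective p ζ hζ) (h26_rconj_orbit p ζ hζ) (h10j k (p * p))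
      (h26_c_ne_rconj p ζ hp.two_le) (fpoly p Φ _ hA) (h26_factor p ζ Φ hΦ hζc _ hA)
      (h10j k (p * p)) (Or.inl rfl) g hg0 (by rw [Fintype.card_fin]; omega) hg
  rw [h26_map_K0] at hc
  haveI : NeZero (p * p) := ⟨Nat.mul_ne_zero (NeZero.ne p) (NeZero.ne p)⟩
  rw [h10j_eq, h10j_eq] at hc
  exact H13Crux.crux_aux p hp hME hpk ζ hζc hc

/-- `p ≤ [L_{pN'} : θ_p L_{N'}]`. -/
theorem h26_le_rf_step (N' : ℕ) (hN' : N' ≠ 0) (hζ : IsPrimitiveRoot ζ p)
    (hfin : IntermediateField.relfinrank ((LL k N').map (qExpandAlgHomC k p)) (LL k (p * N')) ≠ 0) :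
    p ≤ IntermediateField.relfinrank ((LL k N').map (qExpandAlgHomC k p)) (LL k (p * N')) := by
  refine h26_le_relfinrank _ _ (h26_map_LL_le k p N' hN') (jqModC k) (h26_J_mem_LL k _) p ?_ hfin
  intro g hg0 hdeg
  have := h26_twist_bound _ (tw ζ) (fun a ha => h26_tw_fix p ζ hζ _ a ha) (rconj p ζ)
    (h26_rconj_injective p ζ hζ) (h26_rconj_orbit p ζ hζ) g hg0
    (by rw [Fintype.card_fin]; exact hdeg) ⟨0, Nat.pos_of_ne_zero (NeZero.ne p)⟩
  rwa [h26_rconj_zero] at this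

/-- `p + 1 ≤ [L_{pN'} : θ_p L_{N'}]` unless `J_p ∈ L_{N'}`. -/
theorem h26_le_rf_step' (N' : ℕ) (hN' : N' ≠ 0) (hp2 : 2 ≤ p) (hζ : IsPrimitiveRoot ζ p)
    (hζc : (Polynomial.cyclotomic p k).eval (ζ : k) = 0) (hΦ : h10IsModPoly p Φ)
    (hfin : IntermediateField.relfinrank ((LL k N').map (qExpandAlgHomC k p)) (LL k (p * N')) ≠ 0)
    (hex : h10j k p ∉ LL k N') :
    p + 1 ≤
      IntermediateField.relfinrank ((LL k N').map (qExpandAlgHomC k p)) (LL k (p * N')) := by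
  refine h26_le_relfinrank _ _ (h26_map_LL_le k p N' hN') (jqModC k) (h26_J_mem_LL k _) (p + 1)
    ?_ hfin
  intro g hg0 hdeg hg
  have hA := h26_Jp_mem_map k p (LL k N') (h26_J_mem_LL k N')
  have hc : h10j k (p * p) ∈ (LL k N').map (qExpandAlgHomC k p) :=
    h26_dichotomy _ (tw ζ) (fun a ha => h26_tw_fix p ζ hζ _ a ha) (rconj p ζ)
      (h26_rconj_injective p ζ hζ) (h26_rconj_orbit p ζ hζ) (h10j k (p * p))
      (h26_c_ne_rconj p ζ hp2) (fpoly p Φ _ hA) (h26_factor p ζ Φ hΦ hζc _ hA)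
      (jqModC k) (Or.inr ⟨⟨0, Nat.pos_of_ne_zero (NeZero.ne p)⟩, (h26_rconj_zero p ζ).symm⟩)
      g hg0 (by rw [Fintype.card_fin]; omega) hg
  apply hex
  apply h26_mem_of_map_mem k p (LL k N') (h10j k p)
  rw [h26_th_h10j k p p (NeZero.ne p)]
  exact hc

end Step

section Exclusion

variable {k} [IsAlgClosed k]

/-- G-induction: if `J_p ∈ L_{N'}` with `p ∤ N'` then `J_{pd} ∈ L_{N'}` for all `d ∣ N'`. -/
theorem h26_G_induct (hp : p.Prime) (hMEp : HasModEq p) (N' : ℕ) (hN' : N' ≠ 0)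
    (hpN' : ¬ p ∣ N')
    (hME : ∀ r : ℕ, ∀ hr : r.Prime, r ∣ N' → @HasModEq r ⟨hr.ne_zero⟩)
    (hJp : h10j k p ∈ LL k N') : ∀ d : ℕ, d ∣ N' → h10j k (p * d) ∈ LL k N' := by
  intro d
  induction d using induction_on_primes with
  | zero =>
    intro h
    rw [zero_dvd_iff] at h
    exact absurd h hN'
  | one =>
    intro _
    rwa [mul_one]
  | prime_mul r m hr ih =>
    intro hd
    have hrN : r ∣ N' := (dvd_mul_right r m).trans hd
    have hmN : m ∣ N' := (dvd_mul_left m r).trans hd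
    have hm0 : m ≠ 0 := fun h => hN' (by rw [h, zero_dvd_iff] at hmN; exact hmN)
    have hpr : p ≠ r := fun h => hpN' (h ▸ hrN)
    haveI : NeZero r := ⟨hr.ne_zero⟩
    haveI : NeZero m := ⟨hm0⟩
    haveI : NeZero (r * m) := ⟨Nat.mul_ne_zero hr.ne_zero hm0⟩
    haveI : NeZero (p * m) := ⟨Nat.mul_ne_zero (NeZero.ne p) hm0⟩
    haveI : NeZero (p * r * m) :=
      ⟨Nat.mul_ne_zero (Nat.mul_ne_zero (NeZero.ne p) hr.ne_zero) hm0⟩
    have hG := H18WP3.h18_G (k := k) p r hp.two_le hpr hMEp (hME r hr hrN) m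
    have hle : adjoin k {qExpand k (r * m) (jqModC k), qExpand k (p * m) (jqModC k)} ≤
        LL k N' := by
      rw [adjoin_le_iff]
      rintro x (rfl | rfl)
      · rw [← h10j_eq]
        exact h26_mem_LL k hd
      · rw [← h10j_eq]
        exact ih hmN
    have h1 := hle hG
    rw [← h10j_eq, mul_assoc] at h1
    exact h1

/-- If `J_p ∈ L_{N'}` with `p ∤ N'` then `L_{pN'} ≤ L_{N'}`. -/
theorem h26_LL_le_of_mem (hp : p.Prime) (hMEp : HasModEq p) (N' : ℕ) (hN' : N' ≠ 0)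
    (hpN' : ¬ p ∣ N')
    (hME : ∀ r : ℕ, ∀ hr : r.Prime, r ∣ N' → @HasModEq r ⟨hr.ne_zero⟩)
    (hJp : h10j k p ∈ LL k N') : LL k (p * N') ≤ LL k N' := by
  have hG := h26_G_induct p hp hMEp N' hN' hpN' hME hJp
  show adjoin k ((h10j k) '' {d | d ∣ p * N'}) ≤ LL k N'
  rw [adjoin_le_iff]
  rintro x ⟨e, he, rfl⟩
  by_cases hpe : p ∣ e
  · obtain ⟨d, rfl⟩ := hpe
    have hd : d ∣ N' := (Nat.mul_dvd_mul_iff_left hp.pos).mp he
    exact hG d hd
  · have hcop : Nat.Coprime e p := (Nat.Coprime.symm ((Nat.Prime.coprime_iff_not_dvd hp).mpr hpe))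
    have : e ∣ N' := hcop.dvd_of_dvd_mul_left he
    exact h26_mem_LL k this

end Exclusion

section Induct

variable {k} [IsAlgClosed k]

/-- The induction step `N' → p N'`. -/
theorem h26_step (hp : p.Prime) (N' : ℕ) (hN' : N' ≠ 0)
    (hME : ∀ r : ℕ, ∀ hr : r.Prime, r ∣ p * N' → @HasModEq r ⟨hr.ne_zero⟩)
    (hpk : (p : k) ≠ 0)
    (ih : dedekindPsi N' ≤ IntermediateField.relfinrank (h10K0 k) (LL k N')) :
    dedekindPsi (p * N') ≤ IntermediateField.relfinrank (h10K0 k) (LL k (p * N')) := by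
  have hMEp : HasModEq p := hME p hp (dvd_mul_right p N')
  obtain ⟨Φ, hΦ⟩ := h10_exists_modPoly p hMEp
  obtain ⟨ζ, hζc⟩ := H18WP3.h18_exists_cyclotomic_root (k := k) p
  haveI : NeZero (p : k) := ⟨hpk⟩
  have hζ : IsPrimitiveRoot ζ p :=
    IsPrimitiveRoot.coe_units_iff.mp (Polynomial.isRoot_cyclotomic_iff.mp hζc)
  have hpN0 : p * N' ≠ 0 := Nat.mul_ne_zero hp.ne_zero hN'
  -- the fields
  have hK0A : h10K0 k ≤ LL k N' := h26_K0_le_LL k N'
  have hAB : LL k N' ≤ LL k (p * N') := h26_LL_mono k (dvd_mul_left N' p)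
  have hK0Lp : h10K0 k ≤ LL k p := h26_K0_le_LL k p
  have hLpB : LL k p ≤ LL k (p * N') := h26_LL_mono k (dvd_mul_right p N')
  have hKpLp : (h10K0 k).map (qExpandAlgHomC k p) ≤ LL k p := h26_Kp_le_LL k p p dvd_rfl
  have hKpA' : (h10K0 k).map (qExpandAlgHomC k p) ≤ (LL k N').map (qExpandAlgHomC k p) :=
    IntermediateField.map_mono _ hK0A
  have hA'B : (LL k N').map (qExpandAlgHomC k p) ≤ LL k (p * N') := h26_map_LL_le k p N' hN'
  -- finiteness
  have hfinB : IntermediateField.relfinrank (h10K0 k) (LL k (p * N')) ≠ 0 :=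
    h26_rf_ne_zero k (p * N') hpN0 (h10_hasPolys_of_hasModEq _ hME)
  have hfinA : IntermediateField.relfinrank (h10K0 k) (LL k N') ≠ 0 :=
    h26_relfinrank_ne_zero_of_le _ _ _ _ le_rfl hK0A hAB hfinB
  have hfinLp : IntermediateField.relfinrank (h10K0 k) (LL k p) ≠ 0 :=
    h26_relfinrank_ne_zero_of_le _ _ _ _ le_rfl hK0Lp hLpB hfinB
  have hfinLpB : IntermediateField.relfinrank (LL k p) (LL k (p * N')) ≠ 0 :=
    h26_relfinrank_ne_zero_of_le _ _ _ _ hK0Lp hLpB le_rfl hfinB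
  -- towers
  have t1 := IntermediateField.relfinrank_mul_relfinrank hK0Lp hLpB
  have t2 := IntermediateField.relfinrank_mul_relfinrank hKpLp hLpB
  have t3 := IntermediateField.relfinrank_mul_relfinrank hKpA' hA'B
  have t4 := IntermediateField.relfinrank_map_map (h10K0 k) (LL k N') (qExpandAlgHomC k p)
  have e1 := h26_le_rf_K0_Lp p ζ Φ hp hMEp hpk hζ hζc hΦ hfinLp
  obtain ⟨e2, e2'⟩ := h26_rf_Kp_Lp_le (k := k) p Φ hp hΦ
  have hfinKpB : IntermediateField.relfinrank ((h10K0 k).map (qExpandAlgHomC k p))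
      (LL k (p * N')) ≠ 0 := by
    rw [← t2]
    exact mul_ne_zero e2' hfinLpB
  have hfinA'B : IntermediateField.relfinrank ((LL k N').map (qExpandAlgHomC k p))
      (LL k (p * N')) ≠ 0 :=
    h26_relfinrank_ne_zero_of_le _ _ _ _ hKpA' hA'B le_rfl hfinKpB
  have h6 : IntermediateField.relfinrank ((h10K0 k).map (qExpandAlgHomC k p)) (LL k (p * N')) ≤
      IntermediateField.relfinrank (h10K0 k) (LL k (p * N')) := by
    rw [← t1, ← t2]
    exact Nat.mul_le_mul_right _ (e2.trans e1)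
  have s1 := h26_le_rf_step p ζ N' hN' hζ hfinA'B
  rw [t4] at t3
  by_cases hpN' : p ∣ N'
  · rw [h10_psi_mul_of_dvd hp hN' hpN']
    calc p * dedekindPsi N'
        ≤ IntermediateField.relfinrank ((LL k N').map (qExpandAlgHomC k p)) (LL k (p * N')) *
          IntermediateField.relfinrank (h10K0 k) (LL k N') := Nat.mul_le_mul s1 ih
      _ = _ := by rw [mul_comm, t3]
      _ ≤ _ := h6
  · have hex : h10j k p ∉ LL k N' := by
      intro hJp
      have hBA : LL k (p * N') ≤ LL k N' :=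
        h26_LL_le_of_mem p hp hMEp N' hN' hpN'
          (fun r hr hrN => hME r hr (hrN.trans (dvd_mul_left N' p))) hJp
      have hEq : LL k (p * N') = LL k N' := le_antisymm hBA hAB
      rw [hEq] at h6 t3 s1
      have h7 : IntermediateField.relfinrank (h10K0 k) (LL k N') * p ≤
          IntermediateField.relfinrank (h10K0 k) (LL k N') := by
        calc _ ≤ IntermediateField.relfinrank (h10K0 k) (LL k N') *
              IntermediateField.relfinrank ((LL k N').map (qExpandAlgHomC k p)) (LL k N') :=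
              Nat.mul_le_mul_left _ s1
          _ = _ := t3
          _ ≤ _ := h6
      have hp2 := hp.two_le
      have hpos : 0 < IntermediateField.relfinrank (h10K0 k) (LL k N') :=
        Nat.pos_of_ne_zero hfinA
      nlinarith
    have s2 := h26_le_rf_step' p ζ Φ N' hN' hp.two_le hζ hζc hΦ hfinA'B hex
    rw [h10_psi_mul_of_not_dvd hp hN' hpN']
    calc (p + 1) * dedekindPsi N'
        ≤ IntermediateField.relfinrank ((LL k N').map (qExpandAlgHomC k p)) (LL k (p * N')) *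
          IntermediateField.relfinrank (h10K0 k) (LL k N') := Nat.mul_le_mul s2 ih
      _ = _ := by rw [mul_comm, t3]
      _ ≤ _ := h6

end Induct

section Final

variable [IsAlgClosed k]

omit [NeZero p] in
/-- **Piece I of WP3**: over an algebraically closed field `k` in which the primes dividing `N`
are invertible, `ψ(N) ≤ [k(J_d : d ∣ N) : k(J)]`. -/
theorem h26_induct (N : ℕ) (hN : N ≠ 0)
    (hME : ∀ r : ℕ, ∀ hr : r.Prime, r ∣ N → @HasModEq r ⟨hr.ne_zero⟩)
    (hchar : ∀ r : ℕ, r.Prime → r ∣ N → (r : k) ≠ 0) :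
    dedekindPsi N ≤ IntermediateField.relfinrank (h10K0 k) (LL k N) := by
  induction N using induction_on_primes with
  | zero => exact absurd rfl hN
  | one =>
    rw [dedekindPsi_one, h26_LL_one, IntermediateField.relfinrank_self]
  | prime_mul r a hr ih =>
    haveI : NeZero r := ⟨hr.ne_zero⟩
    have ha : a ≠ 0 := fun h => hN (by rw [h, mul_zero])
    exact h26_step r hr a ha hME (hchar r hr (dvd_mul_right r a))
      (ih ha (fun s hs hsa => hME s hs (hsa.trans (dvd_mul_left a r)))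
        (fun s hs hsa => hchar s hs (hsa.trans (dvd_mul_left a r))))

omit [NeZero p] in
/-- Piece I in terms of the prelude's `modularFunctionFieldFullC`. -/
theorem h26_induct' (N : ℕ) [NeZero N]
    (hME : ∀ r : ℕ, ∀ hr : r.Prime, r ∣ N → @HasModEq r ⟨hr.ne_zero⟩)
    (hchar : ∀ r : ℕ, r.Prime → r ∣ N → (r : k) ≠ 0) :
    dedekindPsi N ≤ IntermediateField.relfinrank (IntermediateField.adjoin k {jqModC k})
      (modularFunctionFieldFullC k N) := by
  rw [← h26_LL_eq k N]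
  exact h26_induct k N (NeZero.ne N) hME hchar

end Final

end H26WP3
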