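import Mathlib
import Fermat.Agent.S28.Interface
import Fermat.Agent.S28.WP3Induct
import Fermat.Agent.S28.WP3Descent

/-!
# S28, WP3 (helper26): the degree lower bound in characteristic `ℓ ∤ N`

`(∀ p ∣ N prime, HasModEq p) → ℓ ∤ N → DegreeLowerBound N ℓ`: assembly of the induction
(piece I, `H26WP3.h26_induct'`, over the algebraic closure of `𝔽_ℓ`) and the descent to `𝔽_ℓ`
(piece E, `H18WP3.h18_descent`).
-/

set_option autoImplicit false
set_option linter.style.haveILetI false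

open ModularCurve

namespace H28S28

/-- **WP3**: `[𝔽_ℓ(J(q^d) : d ∣ N) : 𝔽_ℓ(J)] ≥ ψ(N)` for `ℓ ∤ N`, given the modular equations
at the primes dividing `N`. -/
theorem h26_degreeLowerBound (N : ℕ) [NeZero N] (ℓ : ℕ) [Fact ℓ.Prime]
    (hME : ∀ p : ℕ, ∀ hp : p.Prime, p ∣ N → @HasModEq p ⟨hp.ne_zero⟩) (hℓ : ¬ ℓ ∣ N) :
    DegreeLowerBound N ℓ := by
  apply H18WP3.h18_descent N ℓ (AlgebraicClosure (ZMod ℓ))
  apply H26WP3.h26_induct' (AlgebraicClosure (ZMod ℓ)) N hME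
  intro r hr hrN hr0
  haveI : CharP (AlgebraicClosure (ZMod ℓ)) ℓ :=
    charP_of_injective_algebraMap (algebraMap (ZMod ℓ) (AlgebraicClosure (ZMod ℓ))).injective ℓ
  rw [CharP.cast_eq_zero_iff (AlgebraicClosure (ZMod ℓ)) ℓ] at hr0
  have h1 : ℓ = r := (Nat.prime_dvd_prime_iff_eq (Fact.out : ℓ.Prime) hr).mp hr0
  exact hℓ (h1 ▸ hrN)

end H28S28
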