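import Mathlib
import Fermat.Agent.S28.WP2
import Fermat.Agent.S28.WP3
import Fermat.Agent.S28.ModEq.Final
import Fermat.Agent.S28.HBound

/-!
# S28: the two degree bounds, unconditionally (WP1 + WP2 + WP3), helper10

* `h10_degreeUpperBound_all N : DegreeUpperBound N`
* `h10_degreeLowerBound_all N ℓ (hℓ : ¬ ℓ ∣ N) : DegreeLowerBound N ℓ`
* `h10_hbound_all N`: the bound of `HBound.lean` without hypotheses.
-/

set_option autoImplicit false
open ModularCurve

namespace H28S28

theorem h10_hasModEq_all (p : ℕ) (hp : p.Prime) : @HasModEq p ⟨hp.ne_zero⟩ :=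
  @H23M.h15g_hasModEq p ⟨hp.ne_zero⟩ ⟨hp⟩

theorem h10_degreeUpperBound_all (N : ℕ) [NeZero N] : DegreeUpperBound N :=
  h10_degreeUpperBound N fun p hp _ => h10_hasModEq_all p hp

theorem h10_degreeLowerBound_all (N : ℕ) [NeZero N] (ℓ : ℕ) [Fact ℓ.Prime] (hℓ : ¬ ℓ ∣ N) :
    DegreeLowerBound N ℓ :=
  h26_degreeLowerBound N ℓ (fun p hp _ => h10_hasModEq_all p hp) hℓ

theorem h10_hbound_all (N : ℕ) [NeZero N] (s : Finset ↥(modularFunctionFieldFull N))
    (hli : LinearIndependent ↥(h28F0 N) (fun x : s => (x : ↥(modularFunctionFieldFull N)))) :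
    s.card ≤ dedekindPsi N :=
  h10_hbound N (h10_degreeUpperBound_all N) s hli

end H28S28
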