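import Mathlib
import Fermat.Agent.S28.ConcreteDefs
import Fermat.Prelude.Sol.S_ModularCurve_coeff_jqModC_neg_one

/-!
# S28, WP4 slice W1b (helper10): `ℚ[t] ∩ F₀` for `t = j` and `t = j⁻¹`

`h28RQ N t ≅ ℚ[X]` is integrally closed and `h28F0 N = ℚ(j)` is its fraction field.
These are the instance inputs of the minimal polynomial lemma `h10_isIntegral_of_two`
(`MinpolyInt.lean`) with `K := ↥(h28F0 N)`, `E := ↥(modularFunctionFieldFull N)`.
-/

set_option autoImplicit false
open ModularCurve ModularCurve.IgusaScheme HahnSeries Polynomial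

noncomputable section

namespace H28S28

variable (N : ℕ) [NeZero N]

section General

variable (t : ↥(modularFunctionFieldFull N))

omit [NeZero N] in
theorem h10_adjoin_le_F0 (ht0 : t ∈ h28F0 N) {x : ↥(modularFunctionFieldFull N)}
    (hx : x ∈ Algebra.adjoin ℚ {t}) : x ∈ h28F0 N := by
  induction hx using Algebra.adjoin_induction with
  | mem y hy =>
    rw [Set.mem_singleton_iff] at hy
    rw [hy]
    exact ht0
  | algebraMap r =>
    rw [eq_ratCast]
    exact SubfieldClass.ratCast_mem _ r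
  | add y z _ _ hy hz => exact add_mem hy hz
  | mul y z _ _ hy hz => exact mul_mem hy hz

omit [NeZero N] in
theorem h10_aeval_mem_F0 (ht0 : t ∈ h28F0 N) (P : ℚ[X]) : aeval t P ∈ h28F0 N :=
  h10_adjoin_le_F0 N t ht0 (aeval_mem_adjoin_singleton ℚ t)

/-- `ℚ[X] → F₀`, `X ↦ t`. -/
def h10phi0 (ht0 : t ∈ h28F0 N) : ℚ[X] →+* ↥(h28F0 N) :=
  ((aeval t : ℚ[X] →ₐ[ℚ] ↥(modularFunctionFieldFull N)) :
    ℚ[X] →+* ↥(modularFunctionFieldFull N)).codRestrict (h28F0 N)
    (fun P => h10_aeval_mem_F0 N t ht0 P)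

omit [NeZero N] in
theorem h10phi0_coe (ht0 : t ∈ h28F0 N) (P : ℚ[X]) :
    (h28F0 N).subtype (h10phi0 N t ht0 P) = aeval t P := rfl

/-- `ℚ[X] → ℚ[t] ∩ F₀`, `X ↦ t`. -/
def h10phi (ht0 : t ∈ h28F0 N) : ℚ[X] →+* ↥(h28RQ N t) :=
  (h10phi0 N t ht0).codRestrict (h28RQ N t)
    (fun P => (mem_h28RQ_iff N t _).mpr (by
      rw [← Subfield.subtype_apply, h10phi0_coe]
      exact aeval_mem_adjoin_singleton ℚ t))

omit [NeZero N] in
theorem h10phi_coe (ht0 : t ∈ h28F0 N) (P : ℚ[X]) :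
    (h28F0 N).subtype ((h28RQ N t).subtype (h10phi N t ht0 P)) = aeval t P := rfl

omit [NeZero N] in
theorem h10phi_bijective (ht0 : t ∈ h28F0 N) (htr : Transcendental ℚ t) :
    Function.Bijective (h10phi N t ht0) := by
  constructor
  · intro P Q h
    have h1 := congrArg (fun c => (h28F0 N).subtype ((h28RQ N t).subtype c)) h
    simp only [h10phi_coe] at h1
    exact transcendental_iff_injective.mp htr h1
  · intro c
    have hc : (h28F0 N).subtype ((h28RQ N t).subtype c) ∈ Algebra.adjoin ℚ {t} := c.2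
    rw [Algebra.adjoin_singleton_eq_range_aeval] at hc
    obtain ⟨P, hP⟩ := hc
    refine ⟨P, ?_⟩
    apply (h28RQ N t).subtype_injective
    apply (h28F0 N).subtype_injective
    rw [h10phi_coe]
    exact hP

omit [NeZero N] in
/-- `ℚ[t] ∩ F₀ ≅ ℚ[X]` is integrally closed. -/
theorem h10_RQ_isIntegrallyClosed (ht0 : t ∈ h28F0 N) (htr : Transcendental ℚ t) :
    IsIntegrallyClosed ↥(h28RQ N t) :=
  IsIntegrallyClosed.of_equiv (RingEquiv.ofBijective (h10phi N t ht0)
    (h10phi_bijective N t ht0 htr))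

omit [NeZero N] in
/-- `F₀` is the fraction field of `ℚ[t] ∩ F₀` if `F₀ = ℚ(t)`. -/
theorem h10_RQ_isFractionRing (ht0 : t ∈ h28F0 N)
    (hgen : ∀ x : ↥(h28F0 N), ∃ r s : ℚ[X],
      (h28F0 N).subtype x = aeval t r / aeval t s) :
    IsFractionRing ↥(h28RQ N t) ↥(h28F0 N) := by
  have : FaithfulSMul ↥(h28RQ N t) ↥(h28F0 N) :=
    (faithfulSMul_iff_algebraMap_injective _ _).mpr (h28RQ N t).subtype_injective
  refine IsFractionRing.of_field (R := ↥(h28RQ N t)) (K := ↥(h28F0 N)) (fun z => ?_)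
  obtain ⟨r, s, hrs⟩ := hgen z
  refine ⟨h10phi N t ht0 r, h10phi N t ht0 s, ?_⟩
  apply (h28F0 N).subtype_injective
  rw [hrs, map_div₀]
  rfl

end General

section Instances

theorem h10_transcendental_jq : Transcendental ℚ jq :=
  P2MW.S_ModularCurve_coeff_jqModC_neg_one.ModularCurve.CharLRows.transcendental_jqModC ℚ

/-- the inclusion `F_N → ℚ((q))` as a `ℚ`-algebra homomorphism -/
def h10inclA : ↥(modularFunctionFieldFull N) →ₐ[ℚ] LaurentSeries ℚ :=
  (h28incl N).toRatAlgHom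

omit [NeZero N] in
theorem h10inclA_apply (x : ↥(modularFunctionFieldFull N)) :
    h10inclA N x = h28incl N x := rfl

omit [NeZero N] in
theorem h10inclA_injective : Function.Injective (h10inclA N) := h28incl_injective N

theorem h10inclA_jFull : h10inclA N (jFull N) = jq := rfl

theorem h10_transcendental_jFull : Transcendental ℚ (jFull N) := by
  intro h
  have h1 := h.algHom (h10inclA N)
  rw [h10inclA_jFull] at h1
  exact h10_transcendental_jq h1

theorem h10_transcendental_jFull_inv : Transcendental ℚ (jFull N)⁻¹ := by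
  intro h
  have h2 := h.inv
  rw [inv_inv] at h2
  exact h10_transcendental_jFull N h2

theorem h10_jFull_mem_F0 : jFull N ∈ h28F0 N := by
  rw [mem_h28F0_iff, coe_jFull]
  exact IntermediateField.mem_adjoin_simple_self ℚ jq

theorem h10_jFull_inv_mem_F0 : (jFull N)⁻¹ ∈ h28F0 N :=
  inv_mem (h10_jFull_mem_F0 N)

omit [NeZero N] in
/-- Every element of `F₀` is a quotient of polynomials in `t`, if `j ∈ ℚ(t)`. -/
theorem h10_hgen_of_le (t : ↥(modularFunctionFieldFull N))
    (hle : jq ∈ IntermediateField.adjoin ℚ {h10inclA N t})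
    (x : ↥(h28F0 N)) :
    ∃ r s : ℚ[X], (h28F0 N).subtype x = aeval t r / aeval t s := by
  have hx : h10inclA N ((h28F0 N).subtype x) ∈ IntermediateField.adjoin ℚ {jq} := x.2
  have hx' : h10inclA N ((h28F0 N).subtype x) ∈
      IntermediateField.adjoin ℚ {h10inclA N t} := by
    have hle' : IntermediateField.adjoin ℚ {jq} ≤
        IntermediateField.adjoin ℚ {h10inclA N t} := by
      rw [IntermediateField.adjoin_le_iff]
      rintro y rfl
      exact hle
    exact hle' hx
  obtain ⟨r, s, hrs⟩ := (IntermediateField.mem_adjoin_simple_iff ℚ _).mp hx'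
  refine ⟨r, s, ?_⟩
  apply h10inclA_injective N
  rw [hrs, map_div₀, Polynomial.aeval_algHom_apply, Polynomial.aeval_algHom_apply]

theorem h10_hgen_jFull (x : ↥(h28F0 N)) :
    ∃ r s : ℚ[X], (h28F0 N).subtype x = aeval (jFull N) r / aeval (jFull N) s :=
  h10_hgen_of_le N (jFull N) (by
    rw [h10inclA_jFull]
    exact IntermediateField.mem_adjoin_simple_self ℚ jq) x

theorem h10_hgen_jFull_inv (x : ↥(h28F0 N)) :
    ∃ r s : ℚ[X], (h28F0 N).subtype x = aeval (jFull N)⁻¹ r / aeval (jFull N)⁻¹ s :=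
  h10_hgen_of_le N (jFull N)⁻¹ (by
    rw [map_inv₀, h10inclA_jFull]
    have := inv_mem (IntermediateField.mem_adjoin_simple_self ℚ (jq⁻¹))
    rwa [inv_inv] at this) x

/-- **W1b** for `t = j`. -/
theorem h10_RQ_j_isIntegrallyClosed : IsIntegrallyClosed ↥(h28RQ N (jFull N)) :=
  h10_RQ_isIntegrallyClosed N _ (h10_jFull_mem_F0 N) (h10_transcendental_jFull N)

theorem h10_RQ_j_isFractionRing : IsFractionRing ↥(h28RQ N (jFull N)) ↥(h28F0 N) :=
  h10_RQ_isFractionRing N _ (h10_jFull_mem_F0 N) (h10_hgen_jFull N)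

/-- **W1b** for `t = j⁻¹`. -/
theorem h10_RQ_jinv_isIntegrallyClosed : IsIntegrallyClosed ↥(h28RQ N (jFull N)⁻¹) :=
  h10_RQ_isIntegrallyClosed N _ (h10_jFull_inv_mem_F0 N) (h10_transcendental_jFull_inv N)

theorem h10_RQ_jinv_isFractionRing : IsFractionRing ↥(h28RQ N (jFull N)⁻¹) ↥(h28F0 N) :=
  h10_RQ_isFractionRing N _ (h10_jFull_inv_mem_F0 N) (h10_hgen_jFull_inv N)

end Instances

end H28S28
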