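import Mathlib
import Fermat.Agent.S28.ChartDomains
import Fermat.Agent.S28.DegreeBounds
import Fermat.Agent.S28.RQ

/-!
# The `q`-expansion principle for integrality (T-Igusa), extracted from S28 (helper28)

For `ℓ ∤ N`:
* `h28_qexp_principle`: an element `x` of `F_N = ℚ(j(q^d) : d ∣ N)` which is integral over `ℚ[j]`
  ("holomorphic on the upper half plane") and lies in the Gauss valuation ring `Obig ℓ`
  (e.g. has `ℓ`-integral `q`-expansion) is integral over `ℤ_(ℓ)[j]`.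
* `h28_red_isIntegral`: the reduction mod `ℓ` of such an `x` is integral over `𝔽_ℓ[J]`.
* `h28_no_unit_relation`: for such an `X`, a relation `j * X = c + ℓ * Z` with `c` an `ℓ`-adic unit
  and `Z ∈ Obig ℓ` is impossible ("`j` is not a unit modulo `ℓ`").
-/

set_option autoImplicit false
set_option linter.unusedSectionVars false

open ModularCurve ModularCurve.IgusaScheme

noncomputable section

namespace H28S28

variable {N : ℕ} [NeZero N] {ℓ : ℕ} [Fact ℓ.Prime]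

/-- **AL instantiated**: an element of `O` which is integral over `ℚ[t] ∩ F₀` is integral over
`ℤ_(ℓ)[t]`. -/
theorem h28_mem_chartAlg_of_isIntegralRQ (hval : HValN N ℓ)
    (hint : ∀ x ∈ h28O N ℓ, IsIntegral ↥(h28O N ℓ ⊓ (h28F0 N).toSubring) x)
    (t : ↥(modularFunctionFieldFull N)) (hG : HGaussN N ℓ t)
    [IsIntegrallyClosed ↥(h28RQ N t)] (hRQ : IsFractionRing ↥(h28RQ N t) ↥(h28F0 N))
    (o : ↥(modularFunctionFieldFull N)) (ho : o ∈ h28O N ℓ) (h1 : IsIntegral ↥(h28RQ N t) o) :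
    o ∈ chartAlg N ℓ {t} := by
  rw [mem_chartAlg_iff]
  have h2 : IsIntegral ↥(h28Vval hval) o := by
    have := IsIntegral.map_of_comp_eq
      (φ := (((h28O N ℓ ⊓ (h28F0 N).toSubring).subtype).codRestrict
        (h28F0 N) (fun x => x.2.2)).codRestrict (h28Vval hval) (fun x => x.2.1))
      (ψ := RingHom.id ↥(modularFunctionFieldFull N)) (RingHom.ext fun r => rfl) (hint o ho)
    simpa using this
  have h3 : IsIntegral ↥(h28R N ℓ t) o :=
    h10_isIntegral_of_two ↥(h28F0 N) ↥(modularFunctionFieldFull N) (h28RQ N t) hRQ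
      (h28Vval hval) (h28R N ℓ t) (h28_hR t hG) o h1 h2
  have := IsIntegral.map_of_comp_eq
    (φ := ((h28F0 N).subtype.comp (h28R N ℓ t).subtype).codRestrict
      (Algebra.adjoin ↥(GaloisRep.ratLocalizedAt ℓ) {t}) (fun x => x.2))
    (ψ := RingHom.id ↥(modularFunctionFieldFull N)) (RingHom.ext fun r => rfl) h3
  simpa using this

/-- `ℚ[j] ⊆ F₀`. -/
theorem h28_adjoinQ_le_F0 (x : ↥(modularFunctionFieldFull N))
    (hx : x ∈ Algebra.adjoin ℚ {jFull N}) : x ∈ h28F0 N :=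
  h10_adjoin_le_F0 N (jFull N) (h28_j_mem_F0 N) hx

/-- **The `q`-expansion principle**, inside `F_N`: an element of the Gauss valuation ring which is
integral over `ℚ[j]` is integral over `ℤ_(ℓ)[j]`. -/
theorem h28_qexp_principle_FN (hℓ : ¬ ℓ ∣ N) (x : ↥(modularFunctionFieldFull N))
    (hx : x ∈ h28O N ℓ) (hint : IsIntegral ↥(Algebra.adjoin ℚ {jFull N}) x) :
    x ∈ chartAlgFin N ℓ := by
  have hval : HValN N ℓ := h13_hval N ℓ
  have hintO := h13_isIntegral_O_of_hbound N ℓ (h10_hbound_all N) (h10_degreeLowerBound_all N ℓ hℓ)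
  have := h10_RQ_j_isIntegrallyClosed N
  refine h28_mem_chartAlg_of_isIntegralRQ hval hintO (jFull N) h28_gauss_j
    (h10_RQ_j_isFractionRing N) x hx ?_
  have := IsIntegral.map_of_comp_eq
    (φ := (((Algebra.adjoin ℚ {jFull N}).toSubring.subtype).codRestrict
      (h28F0 N) (fun x => h28_adjoinQ_le_F0 (N := N) x.1 x.2)).codRestrict (h28RQ N (jFull N))
        (fun x => x.2))
    (ψ := RingHom.id ↥(modularFunctionFieldFull N)) (RingHom.ext fun r => rfl) hint
  simpa using this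

/-- `ℤ_(ℓ)[T] → ℤ_(ℓ)[j]`, `T ↦ j`. -/
def h28evZ (N : ℕ) [NeZero N] (ℓ : ℕ) [Fact ℓ.Prime] :
    Polynomial ↥(GaloisRep.ratLocalizedAt ℓ) →+*
      ↥(Algebra.adjoin ↥(GaloisRep.ratLocalizedAt ℓ) {jFull N}) :=
  ((Polynomial.aeval (jFull N) : Polynomial ↥(GaloisRep.ratLocalizedAt ℓ) →ₐ[_]
      ↥(modularFunctionFieldFull N)) : Polynomial ↥(GaloisRep.ratLocalizedAt ℓ) →+*
      ↥(modularFunctionFieldFull N)).codRestrict
    (Algebra.adjoin ↥(GaloisRep.ratLocalizedAt ℓ) {jFull N})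
    (fun _ => Polynomial.aeval_mem_adjoin_singleton _ _)

theorem h28evZ_coe (P : Polynomial ↥(GaloisRep.ratLocalizedAt ℓ)) :
    ((h28evZ N ℓ P : ↥(Algebra.adjoin ↥(GaloisRep.ratLocalizedAt ℓ) {jFull N})) :
      ↥(modularFunctionFieldFull N)) = Polynomial.aeval (jFull N) P := rfl

theorem h28evZ_surjective : Function.Surjective (h28evZ N ℓ) := by
  rintro ⟨c, hc⟩
  have hc' := hc
  rw [Algebra.adjoin_singleton_eq_range_aeval] at hc'
  obtain ⟨P, hP⟩ := hc'
  exact ⟨P, Subtype.ext hP⟩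

/-- An element of the chart `A_fin` satisfies a monic polynomial over `ℤ_(ℓ)[T]` (with `T ↦ j`). -/
theorem h28_exists_poly_of_mem_chartAlgFin (x : ↥(modularFunctionFieldFull N))
    (hx : x ∈ chartAlgFin N ℓ) :
    ∃ P : Polynomial (Polynomial ↥(GaloisRep.ratLocalizedAt ℓ)), P.Monic ∧
      Polynomial.eval₂ ((Polynomial.aeval (jFull N) :
        Polynomial ↥(GaloisRep.ratLocalizedAt ℓ) →ₐ[_] ↥(modularFunctionFieldFull N)) :
        Polynomial ↥(GaloisRep.ratLocalizedAt ℓ) →+* ↥(modularFunctionFieldFull N)) x P = 0 := by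
  rw [mem_chartAlg_iff] at hx
  obtain ⟨p, hpm, hp⟩ := hx
  obtain ⟨q, hq, -, hqm⟩ := Polynomial.lifts_and_natDegree_eq_and_monic
    (Polynomial.mem_lifts_of_surjective (h28evZ_surjective (N := N) (ℓ := ℓ)) p) hpm
  refine ⟨q, hqm, ?_⟩
  rw [← hq, Polynomial.eval₂_map] at hp
  exact hp

/-- `ℤ_(ℓ)[T] → O`, `T ↦ j`. -/
def h28evO (N : ℕ) [NeZero N] (ℓ : ℕ) [Fact ℓ.Prime] :
    Polynomial ↥(GaloisRep.ratLocalizedAt ℓ) →+* ↥(h28O N ℓ) :=
  ((Polynomial.aeval (jFull N) : Polynomial ↥(GaloisRep.ratLocalizedAt ℓ) →ₐ[_]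
      ↥(modularFunctionFieldFull N)) : Polynomial ↥(GaloisRep.ratLocalizedAt ℓ) →+*
      ↥(modularFunctionFieldFull N)).codRestrict (h28O N ℓ)
    (fun P => h28_adjoin_le_O N ℓ {jFull N}
      (fun s hs => by rw [Set.mem_singleton_iff.mp hs]; exact h28_j_mem_O N ℓ) _
      (Polynomial.aeval_mem_adjoin_singleton _ _))

theorem h28red_j : h28red N ℓ ⟨jFull N, h28_j_mem_O N ℓ⟩ = jqModC (ZMod ℓ) := by
  rw [h28red_apply]
  have h := redHom_epsL ℓ (jqModC ↥(GaloisRep.ratLocalizedAt ℓ))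
  rw [h13_rhoL_j] at h
  rw [← h]
  congr 1
  apply Subtype.ext
  exact (h13_epsL_j ℓ).symm

theorem h28red_algebraMap (a : ↥(GaloisRep.ratLocalizedAt ℓ)) :
    h28red N ℓ ⟨algebraMap ↥(GaloisRep.ratLocalizedAt ℓ) ↥(modularFunctionFieldFull N) a,
      h28_algebraMap_mem_O N ℓ a⟩ = algebraMap (ZMod ℓ) (LaurentSeries (ZMod ℓ)) (zlRed ℓ a) := by
  rw [h28red_apply]
  have h := redHom_epsL ℓ (HahnSeries.C a)
  have h2 : rhoL ℓ (HahnSeries.C a) =
      algebraMap (ZMod ℓ) (LaurentSeries (ZMod ℓ)) (zlRed ℓ a) := by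
    rw [algebraMap_laurentSeries_eq_single]
    show coeffMap (zlRed ℓ) (HahnSeries.single 0 a) = _
    rw [coeffMap_single]
  rw [← h2, ← h]
  congr 1
  apply Subtype.ext
  have h0 : algebraMap ↥(GaloisRep.ratLocalizedAt ℓ) ↥(modularFunctionFieldFull N) a =
      algebraMap ℚ ↥(modularFunctionFieldFull N) (a : ℚ) := rfl
  show ((algebraMap ↥(GaloisRep.ratLocalizedAt ℓ) ↥(modularFunctionFieldFull N) a :
      ↥(modularFunctionFieldFull N)) : LaurentSeries ℚ) = epsL ℓ (HahnSeries.C a)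
  rw [h0, h28_coe_algebraMap_rat, algebraMap_laurentSeries_eq_single]
  show _ = coeffMap _ (HahnSeries.single 0 a)
  rw [coeffMap_single]
  rfl

/-- reduction of polynomials in `j`: `red (P(j)) = P̄(J)`. -/
theorem h28red_comp_evO :
    (h28red N ℓ).comp (h28evO N ℓ) =
      ((Polynomial.aeval (jqModC (ZMod ℓ)) : Polynomial (ZMod ℓ) →ₐ[_] LaurentSeries (ZMod ℓ)) :
        Polynomial (ZMod ℓ) →+* LaurentSeries (ZMod ℓ)).comp
        (Polynomial.mapRingHom (zlRed ℓ)) := by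
  apply Polynomial.ringHom_ext
  · intro a
    have h1 : h28evO N ℓ (Polynomial.C a) =
        ⟨algebraMap ↥(GaloisRep.ratLocalizedAt ℓ) ↥(modularFunctionFieldFull N) a,
          h28_algebraMap_mem_O N ℓ a⟩ := by
      apply Subtype.ext
      show Polynomial.aeval (jFull N) (Polynomial.C a) = _
      rw [Polynomial.aeval_C]
    rw [RingHom.comp_apply, h1, h28red_algebraMap, RingHom.comp_apply,
      Polynomial.coe_mapRingHom, Polynomial.map_C]
    show _ = Polynomial.aeval (jqModC (ZMod ℓ)) (Polynomial.C (zlRed ℓ a))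
    rw [Polynomial.aeval_C]
  · have h1 : h28evO N ℓ Polynomial.X = ⟨jFull N, h28_j_mem_O N ℓ⟩ := by
      apply Subtype.ext
      show Polynomial.aeval (jFull N) Polynomial.X = _
      rw [Polynomial.aeval_X]
    rw [RingHom.comp_apply, h1, h28red_j, RingHom.comp_apply,
      Polynomial.coe_mapRingHom, Polynomial.map_X]
    show _ = Polynomial.aeval (jqModC (ZMod ℓ)) Polynomial.X
    rw [Polynomial.aeval_X]

/-- **Reduction of an element of the chart is integral over `𝔽_ℓ[J]`**, in polynomial form. -/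
theorem h28_red_poly (x : ↥(h28O N ℓ))
    (hx : (x : ↥(modularFunctionFieldFull N)) ∈ chartAlgFin N ℓ) :
    ∃ P : Polynomial (Polynomial (ZMod ℓ)), P.Monic ∧
      Polynomial.eval₂ ((Polynomial.aeval (jqModC (ZMod ℓ)) :
        Polynomial (ZMod ℓ) →ₐ[_] LaurentSeries (ZMod ℓ)) :
        Polynomial (ZMod ℓ) →+* LaurentSeries (ZMod ℓ)) (h28red N ℓ x) P = 0 := by
  obtain ⟨P, hPm, hP⟩ := h28_exists_poly_of_mem_chartAlgFin _ hx
  refine ⟨P.map (Polynomial.mapRingHom (zlRed ℓ)), hPm.map _, ?_⟩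
  have h1 : Polynomial.eval₂ (h28evO N ℓ) x P = 0 := by
    apply Subtype.ext
    have h2 := Polynomial.hom_eval₂ P (h28evO N ℓ) (h28O N ℓ).subtype x
    rw [ZeroMemClass.coe_zero, ← Subring.subtype_apply, h2]
    exact hP
  have h3 := Polynomial.hom_eval₂ P (h28evO N ℓ) (h28red N ℓ) x
  rw [h1, map_zero, h28red_comp_evO] at h3
  rw [Polynomial.eval₂_map]
  exact h3.symm

/-! ### Statements in terms of `q`-series -/

/-- Transfer of the integrality hypothesis ("holomorphic on the upper half plane") from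
`ℚ((q))` to `F_N`. -/
theorem h28_isIntegral_FN_of_poly (x : LaurentSeries ℚ) (hxF : x ∈ modularFunctionFieldFull N)
    (hint : ∃ P : Polynomial (Polynomial ℚ), P.Monic ∧
      Polynomial.eval₂ ((Polynomial.aeval jq : Polynomial ℚ →ₐ[ℚ] LaurentSeries ℚ) :
        Polynomial ℚ →+* LaurentSeries ℚ) x P = 0) :
    IsIntegral ↥(Algebra.adjoin ℚ {jFull N}) (⟨x, hxF⟩ : ↥(modularFunctionFieldFull N)) := by
  obtain ⟨P, hPm, hP⟩ := hint
  set f : Polynomial ℚ →+* ↥(Algebra.adjoin ℚ {jFull N}) :=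
    ((Polynomial.aeval (jFull N) : Polynomial ℚ →ₐ[ℚ] ↥(modularFunctionFieldFull N)) :
      Polynomial ℚ →+* ↥(modularFunctionFieldFull N)).codRestrict
      (Algebra.adjoin ℚ {jFull N}) (fun _ => Polynomial.aeval_mem_adjoin_singleton _ _) with hf
  refine ⟨P.map f, hPm.map f, ?_⟩
  rw [Polynomial.eval₂_map]
  apply h28incl_injective N
  rw [Polynomial.hom_eval₂, map_zero]
  have h2 : (h28incl N).comp ((algebraMap ↥(Algebra.adjoin ℚ {jFull N})
      ↥(modularFunctionFieldFull N)).comp f) =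
      ((Polynomial.aeval jq : Polynomial ℚ →ₐ[ℚ] LaurentSeries ℚ) :
        Polynomial ℚ →+* LaurentSeries ℚ) :=
    RingHom.ext fun Q => h28_coe_aeval (jFull N) Q
  rw [h2]
  exact hP

/-- **The `q`-expansion principle (T-Igusa).**  Let `ℓ ∤ N`.  A `q`-series `x ∈ F_N` which lies
in the Gauss valuation ring `Obig ℓ` and is integral over `ℚ[j]` lies in the chart `A_fin`,
i.e. it is integral over `ℤ_(ℓ)[j]`. -/
theorem h28_qexp_principle (hℓ : ¬ ℓ ∣ N) (x : LaurentSeries ℚ)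
    (hxF : x ∈ modularFunctionFieldFull N) (hxO : x ∈ Obig ℓ)
    (hint : ∃ P : Polynomial (Polynomial ℚ), P.Monic ∧
      Polynomial.eval₂ ((Polynomial.aeval jq : Polynomial ℚ →ₐ[ℚ] LaurentSeries ℚ) :
        Polynomial ℚ →+* LaurentSeries ℚ) x P = 0) :
    (⟨x, hxF⟩ : ↥(modularFunctionFieldFull N)) ∈ chartAlgFin N ℓ :=
  h28_qexp_principle_FN hℓ _ hxO (h28_isIntegral_FN_of_poly x hxF hint)

/-- a `q`-series with `ℓ`-integral coefficients lies in `Obig ℓ` -/
theorem h28_mem_Obig_of_coeff (x : LaurentSeries ℚ)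
    (h : ∀ n, x.coeff n ∈ GaloisRep.ratLocalizedAt ℓ) : x ∈ Obig ℓ := by
  obtain ⟨f, rfl⟩ := exists_epsL_eq ℓ x h
  exact epsL_mem_Obig ℓ f

/-- `red j = J` -/
theorem h28_redHom_jq (hj : jq ∈ Obig ℓ) : redHom ℓ ⟨jq, hj⟩ = jqModC (ZMod ℓ) := by
  have h := redHom_epsL ℓ (jqModC ↥(GaloisRep.ratLocalizedAt ℓ))
  rw [h13_rhoL_j] at h
  rw [← h]
  congr 1
  apply Subtype.ext
  exact (h13_epsL_j ℓ).symm

theorem pow_eq_zero_iff_of_pos_h28 {K : Type*} [MonoidWithZero K] [NoZeroDivisors K] {a : K}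
    {n : ℕ} (h : a ^ n = 0) : a = 0 := by
  induction n with
  | zero => exact (by
      rw [pow_zero] at h
      rw [← mul_one a, h, mul_zero])
  | succ n ih =>
    rw [pow_succ] at h
    rcases mul_eq_zero.mp h with h | h
    · exact ih h
    · exact h

/-- the algebraic core: if `X̄` is a root of a monic polynomial over `𝔽_ℓ[J]` then
`J * X̄` is not a nonzero constant. -/
theorem h28_J_mul_ne_const (Xb : LaurentSeries (ZMod ℓ))
    (hP : ∃ P : Polynomial (Polynomial (ZMod ℓ)), P.Monic ∧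
      Polynomial.eval₂ ((Polynomial.aeval (jqModC (ZMod ℓ)) :
        Polynomial (ZMod ℓ) →ₐ[_] LaurentSeries (ZMod ℓ)) :
        Polynomial (ZMod ℓ) →+* LaurentSeries (ZMod ℓ)) Xb P = 0)
    (c : ZMod ℓ) (hc : c ≠ 0) :
    jqModC (ZMod ℓ) * Xb ≠ algebraMap (ZMod ℓ) (LaurentSeries (ZMod ℓ)) c := by
  intro heq
  obtain ⟨P, hPm, hP⟩ := hP
  set ev : Polynomial (ZMod ℓ) →+* LaurentSeries (ZMod ℓ) :=
    ((Polynomial.aeval (jqModC (ZMod ℓ)) :
        Polynomial (ZMod ℓ) →ₐ[_] LaurentSeries (ZMod ℓ)) :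
        Polynomial (ZMod ℓ) →+* LaurentSeries (ZMod ℓ)) with hev
  have hevX : ev Polynomial.X = jqModC (ZMod ℓ) := Polynomial.aeval_X _
  have hevC : ev (Polynomial.C c) = algebraMap (ZMod ℓ) (LaurentSeries (ZMod ℓ)) c :=
    Polynomial.aeval_C _ _
  have h1 := Polynomial.scaleRoots_eval₂_eq_zero ev (s := Polynomial.X) hP
  rw [hevX, heq, ← hevC] at h1
  -- `W := Q(c)` is a polynomial vanishing at `J`
  have h2 : ev ((P.scaleRoots Polynomial.X).eval (Polynomial.C c)) = 0 := by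
    rw [← Polynomial.eval₂_id, Polynomial.hom_eval₂, RingHom.comp_id]
    exact h1
  have htr : Transcendental (ZMod ℓ) (jqModC (ZMod ℓ)) := by
    have := h13_transcendental_J ℓ
    rwa [h13_rhoL_j] at this
  have h3 : (P.scaleRoots Polynomial.X).eval (Polynomial.C c) = 0 :=
    (transcendental_iff.mp htr) _ h2
  -- evaluate at `T = 0`
  have h4 := congrArg (Polynomial.evalRingHom (0 : ZMod ℓ)) h3
  rw [map_zero, ← Polynomial.eval₂_id, Polynomial.hom_eval₂, RingHom.comp_id,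
    Polynomial.coe_evalRingHom, Polynomial.eval_C, ← Polynomial.eval_map] at h4
  have h5 : (P.scaleRoots Polynomial.X).map (Polynomial.evalRingHom (0 : ZMod ℓ)) =
      Polynomial.X ^ P.natDegree := by
    ext i
    rw [Polynomial.coeff_map, Polynomial.coeff_scaleRoots, Polynomial.coeff_X_pow, map_mul,
      map_pow, Polynomial.coe_evalRingHom, Polynomial.eval_X]
    rcases lt_trichotomy i P.natDegree with hi | hi | hi
    · rw [zero_pow (Nat.sub_ne_zero_of_lt hi), mul_zero, if_neg hi.ne]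
    · rw [hi, Nat.sub_self, pow_zero, mul_one, if_pos rfl]
      have : P.coeff P.natDegree = 1 := hPm
      rw [this, Polynomial.eval_one]
    · rw [Polynomial.coeff_eq_zero_of_natDegree_lt hi, Polynomial.eval_zero, zero_mul,
        if_neg hi.ne']
  rw [h5, Polynomial.eval_pow, Polynomial.eval_X] at h4
  exact hc (pow_eq_zero_iff_of_pos_h28 h4)

theorem h28_jq_mem_Obig : jq ∈ Obig ℓ := by
  rw [← h13_epsL_j ℓ]
  exact epsL_mem_Obig ℓ _

/-- **`j` is not a unit modulo `ℓ` on holomorphic `ℓ`-integral modular functions.**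
Let `ℓ ∤ N`, let `X ∈ F_N` be integral over `ℚ[j]` with `X ∈ Obig ℓ`, let `Z ∈ Obig ℓ` and let
`c` be an integer prime to `ℓ`.  Then `j * X = c + ℓ * Z` is impossible. -/
theorem h28_no_unit_relation (hℓ : ¬ ℓ ∣ N) (X Z : LaurentSeries ℚ)
    (hXF : X ∈ modularFunctionFieldFull N) (hXO : X ∈ Obig ℓ) (hZO : Z ∈ Obig ℓ)
    (hXint : ∃ P : Polynomial (Polynomial ℚ), P.Monic ∧
      Polynomial.eval₂ ((Polynomial.aeval jq : Polynomial ℚ →ₐ[ℚ] LaurentSeries ℚ) :
        Polynomial ℚ →+* LaurentSeries ℚ) X P = 0)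
    (c : ℤ) (hc : ¬ (ℓ : ℤ) ∣ c) :
    jq * X ≠ (c : LaurentSeries ℚ) + (ℓ : LaurentSeries ℚ) * Z := by
  intro heq
  have hxA := h28_qexp_principle hℓ X hXF hXO hXint
  have hP := h28_red_poly (N := N) (ℓ := ℓ) ⟨⟨X, hXF⟩, hXO⟩ hxA
  rw [h28red_apply] at hP
  have hcz : ((c : ℤ) : ZMod ℓ) ≠ 0 := by
    rw [Ne, ZMod.intCast_zmod_eq_zero_iff_dvd]
    exact hc
  refine h28_J_mul_ne_const (redHom ℓ ⟨X, hXO⟩) hP _ hcz ?_
  have h1 : (⟨jq, h28_jq_mem_Obig⟩ : ↥(Obig ℓ)) * ⟨X, hXO⟩ =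
      ((c : ℤ) : ↥(Obig ℓ)) + ((ℓ : ℕ) : ↥(Obig ℓ)) * ⟨Z, hZO⟩ := by
    apply Subtype.ext
    push_cast
    exact heq
  have h2 := congrArg (redHom ℓ) h1
  rw [map_mul, map_add, map_mul, map_intCast, map_natCast, natCast_eq_zero_Lk, zero_mul,
    add_zero, h28_redHom_jq] at h2
  rw [h2]
  exact (map_intCast (algebraMap (ZMod ℓ) (LaurentSeries (ZMod ℓ))) c).symm

end H28S28
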