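import Mathlib
import Fermat.Agent.S28.QExpPrinciple

/-!
# Invariance of the Gauss valuation ring under field embeddings (helper28; "B0 core" for S16)

Let `ℓ ∤ N`.  If `σ : F_N → F_M` is a ring homomorphism such that `σ j` is the image of an
`ℓ`-integral series `s` whose reduction mod `ℓ` is transcendental over `𝔽_ℓ`
(e.g. `σ = W_p`, `σ j = j(q^p)`), then `σ` maps the Gauss valuation ring `O_N` into `O_M`.

Proof: on `O_N ∩ ℚ(j)` this is Gauss' lemma (`h28_gauss_transfer`); in general `O_N` is integral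
over `O_N ∩ ℚ(j)` (S28, WP2 + WP3 + basis lifting) and `O_M` is integrally closed in `F_M`.
-/

set_option autoImplicit false
set_option linter.unusedSectionVars false

open ModularCurve ModularCurve.IgusaScheme

noncomputable section

namespace H28S28

variable {ℓ : ℕ} [Fact ℓ.Prime]

/-- a primitive polynomial evaluated at a series with transcendental reduction is a unit of
`Obig`: its inverse lies in `Obig` -/
theorem h28_inv_ev_mem_Obig (s : LaurentSeries ↥(GaloisRep.ratLocalizedAt ℓ))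
    (hs : Transcendental (ZMod ℓ) (rhoL ℓ s)) (Q₀ : Polynomial ↥(GaloisRep.ratLocalizedAt ℓ))
    (hQ₀ : Q₀.map (zlRed ℓ) ≠ 0) : (epsL ℓ (h13ev ℓ s Q₀))⁻¹ ∈ Obig ℓ := by
  have h := inv_mem_Obig ℓ ⟨epsL ℓ (h13ev ℓ s Q₀), epsL_mem_Obig ℓ _⟩ (by
    rw [redHom_epsL]
    exact h13_rhoL_ev_ne_zero ℓ hs hQ₀)
  exact h

/-- **Gauss transfer**: if `P(t₁)/Q(t₁) ∈ Obig` then `P(t₂)/Q(t₂) ∈ Obig`, for `t₁, t₂` with
transcendental reductions. -/
theorem h28_gauss_transfer (s₁ s₂ : LaurentSeries ↥(GaloisRep.ratLocalizedAt ℓ))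
    (h₁ : Transcendental (ZMod ℓ) (rhoL ℓ s₁)) (h₂ : Transcendental (ZMod ℓ) (rhoL ℓ s₂))
    (P Q : Polynomial ℚ)
    (hx : Polynomial.aeval (epsL ℓ s₁) P / Polynomial.aeval (epsL ℓ s₁) Q ∈ Obig ℓ) :
    Polynomial.aeval (epsL ℓ s₂) P / Polynomial.aeval (epsL ℓ s₂) Q ∈ Obig ℓ := by
  classical
  have hℓ := natCast_ne_zero_LQ ℓ
  by_cases hQ0 : Q = 0
  · rw [hQ0, map_zero, div_zero]
    exact zero_mem _
  by_cases hP0 : P = 0
  · rw [hP0, map_zero, zero_div]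
    exact zero_mem _
  obtain ⟨a, P₀, hP₀, hPP⟩ := h13_exists_primitive ℓ P hP0
  obtain ⟨b, Q₀, hQ₀, hQQ⟩ := h13_exists_primitive ℓ Q hQ0
  have hP1 := h13_aeval_primitive ℓ s₁ a P₀
  have hQ1 := h13_aeval_primitive ℓ s₁ b Q₀
  have hP2 := h13_aeval_primitive ℓ s₂ a P₀
  have hQ2 := h13_aeval_primitive ℓ s₂ b Q₀
  rw [← hPP] at hP1 hP2
  rw [← hQQ] at hQ1 hQ2
  have hrP1 := h13_rhoL_ev_ne_zero ℓ h₁ hP₀
  have hrQ1 := h13_rhoL_ev_ne_zero ℓ h₁ hQ₀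
  have hfQ1 : epsL ℓ (h13ev ℓ s₁ Q₀) ≠ 0 := fun h => hrQ1 (by
    have := epsL_injective ℓ (h.trans (map_zero (epsL ℓ)).symm)
    rw [this, map_zero])
  -- `a ≥ b`
  have hab : b ≤ a := by
    by_contra hlt
    rw [not_le] at hlt
    obtain ⟨k, hk⟩ := Int.eq_ofNat_of_zero_le (show (0 : ℤ) ≤ b - a by omega)
    have hkpos : 0 < k := by omega
    set x : ↥(Obig ℓ) := ⟨_, hx⟩ with hxdef
    have hQv : Polynomial.aeval (epsL ℓ s₁) Q ≠ 0 := by
      rw [hQ1]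
      exact mul_ne_zero (zpow_ne_zero _ hℓ) hfQ1
    have hrel : (x : LaurentSeries ℚ) * (((ℓ : LaurentSeries ℚ)) ^ b * epsL ℓ (h13ev ℓ s₁ Q₀)) =
        ((ℓ : LaurentSeries ℚ)) ^ a * epsL ℓ (h13ev ℓ s₁ P₀) := by
      rw [← hP1, ← hQ1]
      exact div_mul_cancel₀ _ hQv
    have h1 : ((ℓ : LaurentSeries ℚ)) ^ k * (x : LaurentSeries ℚ) * epsL ℓ (h13ev ℓ s₁ Q₀) =
        epsL ℓ (h13ev ℓ s₁ P₀) := by
      have h2 : ((ℓ : LaurentSeries ℚ)) ^ b = ((ℓ : LaurentSeries ℚ)) ^ (b - a) *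
          ((ℓ : LaurentSeries ℚ)) ^ a := by
        rw [← zpow_add₀ hℓ, sub_add_cancel]
      rw [h2, hk, zpow_natCast] at hrel
      have h3 : ((ℓ : LaurentSeries ℚ)) ^ a ≠ 0 := zpow_ne_zero _ hℓ
      apply mul_left_cancel₀ h3
      linear_combination hrel
    have h4 : ((ℓ : Obig ℓ) ^ k * x) * ⟨epsL ℓ (h13ev ℓ s₁ Q₀), epsL_mem_Obig ℓ _⟩ =
        ⟨epsL ℓ (h13ev ℓ s₁ P₀), epsL_mem_Obig ℓ _⟩ := by
      apply Subtype.ext
      show ((ℓ : LaurentSeries ℚ)) ^ k * (x : LaurentSeries ℚ) * epsL ℓ (h13ev ℓ s₁ Q₀) = _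
      exact h1
    have h5 := congrArg (redHom ℓ) h4
    rw [map_mul, h13_redHom_natCast_pow_mul ℓ k hkpos x, zero_mul, redHom_epsL] at h5
    exact hrP1 h5.symm
  -- now evaluate at `t₂`
  obtain ⟨k, hk⟩ := Int.eq_ofNat_of_zero_le (show (0 : ℤ) ≤ a - b by omega)
  have hform : Polynomial.aeval (epsL ℓ s₂) P / Polynomial.aeval (epsL ℓ s₂) Q =
      ((ℓ : LaurentSeries ℚ)) ^ k * epsL ℓ (h13ev ℓ s₂ P₀) * (epsL ℓ (h13ev ℓ s₂ Q₀))⁻¹ := by
    rw [hP2, hQ2]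
    have h2 : ((ℓ : LaurentSeries ℚ)) ^ a = ((ℓ : LaurentSeries ℚ)) ^ (a - b) *
        ((ℓ : LaurentSeries ℚ)) ^ b := by
      rw [← zpow_add₀ hℓ, sub_add_cancel]
    have h3 : ((ℓ : LaurentSeries ℚ)) ^ b ≠ 0 := zpow_ne_zero _ hℓ
    rw [h2, hk, zpow_natCast, div_eq_mul_inv, mul_inv]
    field_simp
  rw [hform]
  exact mul_mem (mul_mem (pow_mem (natCast_mem _ ℓ) k) (epsL_mem_Obig ℓ _))
    (h28_inv_ev_mem_Obig s₂ h₂ Q₀ hQ₀)

variable {N M : ℕ} [NeZero N] [NeZero M]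

theorem h28_coe_div (x y : ↥(modularFunctionFieldFull N)) :
    ((x / y : ↥(modularFunctionFieldFull N)) : LaurentSeries ℚ) =
      (x : LaurentSeries ℚ) / (y : LaurentSeries ℚ) := rfl

/-- a ring homomorphism between the function fields commutes with evaluation of rational
polynomials -/
theorem h28_sigma_aeval (σ : ↥(modularFunctionFieldFull N) →+* ↥(modularFunctionFieldFull M))
    (t : ↥(modularFunctionFieldFull N)) (P : Polynomial ℚ) :
    σ (Polynomial.aeval t P) = Polynomial.aeval (σ t) P := by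
  rw [Polynomial.aeval_def, Polynomial.aeval_def, Polynomial.hom_eval₂]
  congr 1
  exact Subsingleton.elim _ _

/-- **B0 core, on `ℚ(j)`.** -/
theorem h28_sigma_mem_O_of_mem_F0
    (σ : ↥(modularFunctionFieldFull N) →+* ↥(modularFunctionFieldFull M))
    (s : LaurentSeries ↥(GaloisRep.ratLocalizedAt ℓ)) (hs : Transcendental (ZMod ℓ) (rhoL ℓ s))
    (hσ : ((σ (jFull N) : ↥(modularFunctionFieldFull M)) : LaurentSeries ℚ) = epsL ℓ s)
    (x : ↥(modularFunctionFieldFull N)) (hx0 : x ∈ h28F0 N) (hx : x ∈ h28O N ℓ) :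
    σ x ∈ h28O M ℓ := by
  rw [mem_h28F0_iff] at hx0
  obtain ⟨P, Q, hPQ⟩ := (IntermediateField.mem_adjoin_simple_iff ℚ _).mp hx0
  have hxF : x = Polynomial.aeval (jFull N) P / Polynomial.aeval (jFull N) Q := by
    apply Subtype.ext
    rw [h28_coe_div, h28_coe_aeval, h28_coe_aeval, coe_jFull]
    exact hPQ
  rw [mem_h28O_iff] at hx ⊢
  rw [hxF, map_div₀, h28_sigma_aeval, h28_sigma_aeval, h28_coe_div, h28_coe_aeval,
    h28_coe_aeval, hσ]
  refine h28_gauss_transfer (jqModC ↥(GaloisRep.ratLocalizedAt ℓ)) s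
    (h13_transcendental_J ℓ) hs P Q ?_
  rw [h13_epsL_j, ← hPQ]
  exact hx

/-- **B0 core.**  Let `ℓ ∤ N`.  A ring homomorphism `σ : F_N → F_M` such that `σ j` is (the image
of) an `ℓ`-integral series with transcendental reduction maps the Gauss valuation ring of `F_N`
into the Gauss valuation ring of `F_M`. -/
theorem h28_sigma_mem_O (hℓ : ¬ ℓ ∣ N)
    (σ : ↥(modularFunctionFieldFull N) →+* ↥(modularFunctionFieldFull M))
    (s : LaurentSeries ↥(GaloisRep.ratLocalizedAt ℓ)) (hs : Transcendental (ZMod ℓ) (rhoL ℓ s))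
    (hσ : ((σ (jFull N) : ↥(modularFunctionFieldFull M)) : LaurentSeries ℚ) = epsL ℓ s)
    (x : ↥(modularFunctionFieldFull N)) (hx : x ∈ h28O N ℓ) :
    σ x ∈ h28O M ℓ := by
  have hint := h13_isIntegral_O_of_hbound N ℓ (h10_hbound_all N)
    (h10_degreeLowerBound_all N ℓ hℓ) x hx
  apply h28_mem_O_of_isIntegral (h13_hval M ℓ)
  exact IsIntegral.map_of_comp_eq
    (φ := (σ.comp (h28O N ℓ ⊓ (h28F0 N).toSubring).subtype).codRestrict (h28O M ℓ)
      (fun y => h28_sigma_mem_O_of_mem_F0 σ s hs hσ y.1 y.2.2 y.2.1))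
    (ψ := σ) (RingHom.ext fun r => rfl) hint

/-- **B0 core for `q`-series**: the same statement with `x` and `σ x` viewed in `ℚ((q))`. -/
theorem h28_sigma_mem_Obig (hℓ : ¬ ℓ ∣ N)
    (σ : ↥(modularFunctionFieldFull N) →+* ↥(modularFunctionFieldFull M))
    (s : LaurentSeries ↥(GaloisRep.ratLocalizedAt ℓ)) (hs : Transcendental (ZMod ℓ) (rhoL ℓ s))
    (hσ : ((σ (jFull N) : ↥(modularFunctionFieldFull M)) : LaurentSeries ℚ) = epsL ℓ s)
    (x : LaurentSeries ℚ) (hxF : x ∈ modularFunctionFieldFull N) (hxO : x ∈ Obig ℓ) :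
    ((σ ⟨x, hxF⟩ : ↥(modularFunctionFieldFull M)) : LaurentSeries ℚ) ∈ Obig ℓ :=
  h28_sigma_mem_O hℓ σ s hs hσ ⟨x, hxF⟩ hxO

/-- **B0 core, the case `σ j = j(q^d)`** (e.g. the Atkin–Lehner involution `W_p`, `d = p`). -/
theorem h28_sigma_mem_Obig_of_jd (hℓ : ¬ ℓ ∣ N)
    (σ : ↥(modularFunctionFieldFull N) →+* ↥(modularFunctionFieldFull M))
    (d : ℕ) [NeZero d]
    (hσ : ((σ (jFull N) : ↥(modularFunctionFieldFull M)) : LaurentSeries ℚ) = qExpand ℚ d jq)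
    (x : LaurentSeries ℚ) (hxF : x ∈ modularFunctionFieldFull N) (hxO : x ∈ Obig ℓ) :
    ((σ ⟨x, hxF⟩ : ↥(modularFunctionFieldFull M)) : LaurentSeries ℚ) ∈ Obig ℓ := by
  refine h28_sigma_mem_Obig hℓ σ (qExpand _ d (jqModC ↥(GaloisRep.ratLocalizedAt ℓ))) ?_ ?_
    x hxF hxO
  · rw [h13_rhoL_jd]
    exact H13Crux.transcendental_J1 (ZMod ℓ) d
  · rw [h13_epsL_jd]
    exact hσ

end H28S28
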