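import Mathlib
import Fermat.Agent.S28.Val

/-!
# Elements of the Gauss valuation ring with bounded denominators are `ℓ`-integral (helper28)

`Obig ℓ` is the Gauss valuation ring `{f/g : f, g ℓ-integral series, g primitive}`; a series
`y ∈ Obig ℓ` need not have `ℓ`-integral coefficients.  But if `ℓ^k y` has `ℓ`-integral
coefficients for some `k` ("bounded denominators"), then `y` itself has.
-/

set_option autoImplicit false

noncomputable section

namespace H28S28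

variable (ℓ : ℕ) [Fact ℓ.Prime]

/-- If `y ∈ Obig ℓ` and `ℓ^k y` is `ℓ`-integral, then `y` is `ℓ`-integral. -/
theorem h28_exists_epsL_of_mem_Obig (k : ℕ) :
    ∀ (y : LaurentSeries ℚ), y ∈ Obig ℓ →
      ∀ f : LaurentSeries ↥(GaloisRep.ratLocalizedAt ℓ),
        ((ℓ : ℕ) : LaurentSeries ℚ) ^ k * y = epsL ℓ f →
        ∃ g : LaurentSeries ↥(GaloisRep.ratLocalizedAt ℓ), y = epsL ℓ g := by
  induction k with
  | zero =>
    intro y _ f hf
    rw [pow_zero, one_mul] at hf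
    exact ⟨f, hf⟩
  | succ k ih =>
    intro y hy f hf
    have hℓ := natCast_ne_zero_LQ ℓ
    have hmem : ((ℓ : ℕ) : LaurentSeries ℚ) ^ k * y ∈ Obig ℓ :=
      mul_mem (pow_mem (natCast_mem _ ℓ) k) hy
    have h0 : redHom ℓ ⟨epsL ℓ f, epsL_mem_Obig ℓ f⟩ = 0 := by
      rw [redHom_eq_zero_iff]
      refine ⟨⟨_, hmem⟩, ?_⟩
      show epsL ℓ f = ((ℓ : ℕ) : LaurentSeries ℚ) * (((ℓ : ℕ) : LaurentSeries ℚ) ^ k * y)
      rw [← hf, pow_succ]
      ring
    rw [redHom_epsL, rhoL_eq_zero_iff] at h0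
    obtain ⟨g, hg⟩ := h0
    refine ih y hy g ?_
    apply mul_left_cancel₀ hℓ
    have : ((ℓ : ℕ) : LaurentSeries ℚ) * epsL ℓ g = epsL ℓ f := by
      rw [hg, map_mul, map_natCast]
    rw [this, ← hf, pow_succ]
    ring

/-- coefficient version -/
theorem h28_coeff_mem_of_mem_Obig (y : LaurentSeries ℚ) (hy : y ∈ Obig ℓ) (k : ℕ)
    (hk : ∀ n, (((ℓ : ℕ) : LaurentSeries ℚ) ^ k * y).coeff n ∈ GaloisRep.ratLocalizedAt ℓ) :
    ∀ n, y.coeff n ∈ GaloisRep.ratLocalizedAt ℓ := by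
  obtain ⟨f, hf⟩ := exists_epsL_eq ℓ _ hk
  obtain ⟨g, rfl⟩ := h28_exists_epsL_of_mem_Obig ℓ k y hy f hf.symm
  intro n
  exact ((g.coeff n)).2

end H28S28
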