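import Mathlib
import Fermat.Prelude.Def_GaloisRep_Flat

/-!
# S28, slice V1 twin (helper10; file ZlDvr): DVR facts on `ℤ_(ℓ) = GaloisRep.ratLocalizedAt ℓ`
-/

set_option autoImplicit false
set_option linter.style.haveILetI false

noncomputable section

namespace H28S28

section Zl

variable (ℓ : ℕ) [Fact ℓ.Prime]

omit [Fact ℓ.Prime] in
theorem h10_mem_zl {x : ℚ} : x ∈ GaloisRep.ratLocalizedAt ℓ ↔ x.den.Coprime ℓ := Iff.rfl

theorem h10_natCast_ne_zero_of_coprime {d : ℕ} (h : d.Coprime ℓ) : (d : ZMod ℓ) ≠ 0 := by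
  intro h0
  rw [ZMod.natCast_eq_zero_iff] at h0
  have hp : ℓ.Prime := Fact.out
  have : ℓ ∣ Nat.gcd d ℓ := Nat.dvd_gcd h0 dvd_rfl
  rw [h] at this
  exact hp.one_lt.ne' (Nat.dvd_one.mp this)

theorem h10_den_ne_zero (x : GaloisRep.ratLocalizedAt ℓ) : (((x : ℚ).den : ℕ) : ZMod ℓ) ≠ 0 :=
  h10_natCast_ne_zero_of_coprime ℓ x.2

/-- reduction `ℤ_(ℓ) → 𝔽_ℓ`. -/
def h10zlRed : GaloisRep.ratLocalizedAt ℓ →+* ZMod ℓ where
  toFun x := ((x : ℚ) : ZMod ℓ)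
  map_one' := by simp
  map_mul' x y := by
    show (((x * y : GaloisRep.ratLocalizedAt ℓ) : ℚ) : ZMod ℓ) = _
    rw [Subring.coe_mul]
    exact Rat.cast_mul_of_ne_zero (h10_den_ne_zero ℓ x) (h10_den_ne_zero ℓ y)
  map_zero' := by simp
  map_add' x y := by
    show (((x + y : GaloisRep.ratLocalizedAt ℓ) : ℚ) : ZMod ℓ) = _
    rw [Subring.coe_add]
    exact Rat.cast_add_of_ne_zero (h10_den_ne_zero ℓ x) (h10_den_ne_zero ℓ y)

theorem h10zlRed_apply (x : GaloisRep.ratLocalizedAt ℓ) : h10zlRed ℓ x = ((x : ℚ) : ZMod ℓ) := rfl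

omit [Fact ℓ.Prime] in
/-- integers as elements of `ℤ_(ℓ)` -/
theorem h10_intCast_mem (n : ℤ) : (n : ℚ) ∈ GaloisRep.ratLocalizedAt ℓ := by
  rw [h10_mem_zl]
  simp

theorem h10zlRed_surjective : Function.Surjective (h10zlRed ℓ) := by
  intro z
  refine ⟨((ZMod.val z : ℕ) : GaloisRep.ratLocalizedAt ℓ), ?_⟩
  rw [map_natCast]
  exact ZMod.natCast_zmod_val z

/-- a fraction with denominator prime to `ℓ` lies in `ℤ_(ℓ)`. -/
theorem h10_div_mem (n : ℤ) {d : ℕ} (hd : d.Coprime ℓ) :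
    (n : ℚ) / (d : ℚ) ∈ GaloisRep.ratLocalizedAt ℓ := by
  rw [h10_mem_zl]
  have hd0 : d ≠ 0 := by
    rintro rfl
    have hp : ℓ.Prime := Fact.out
    rw [Nat.coprime_zero_left] at hd
    exact hp.one_lt.ne' hd
  have hdvd : ((n : ℚ) / (d : ℚ)).den ∣ d := by
    have := Rat.den_dvd n (d : ℤ)
    rw [Rat.divInt_eq_div] at this
    push_cast at this
    exact Int.natCast_dvd_natCast.mp this
  exact Nat.Coprime.coprime_dvd_left hdvd hd

theorem h10zlRed_eq_zero_iff (x : GaloisRep.ratLocalizedAt ℓ) :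
    h10zlRed ℓ x = 0 ↔ ∃ y : GaloisRep.ratLocalizedAt ℓ, x = (ℓ : GaloisRep.ratLocalizedAt ℓ) * y := by
  have hp : ℓ.Prime := Fact.out
  constructor
  · intro h
    rw [h10zlRed_apply, Rat.cast_def, div_eq_zero_iff] at h
    rcases h with h | h
    · rw [ZMod.intCast_zmod_eq_zero_iff_dvd] at h
      obtain ⟨n', hn'⟩ := h
      refine ⟨⟨(n' : ℚ) / ((x : ℚ).den : ℚ), h10_div_mem ℓ n' x.2⟩, ?_⟩
      apply Subtype.ext
      rw [Subring.coe_mul, Subring.coe_natCast]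
      show (x : ℚ) = (ℓ : ℚ) * ((n' : ℚ) / ((x : ℚ).den : ℚ))
      calc (x : ℚ) = ((x : ℚ).num : ℚ) / ((x : ℚ).den : ℚ) := (Rat.num_div_den _).symm
        _ = (((ℓ : ℤ) * n' : ℤ) : ℚ) / ((x : ℚ).den : ℚ) := by rw [hn']
        _ = (ℓ : ℚ) * ((n' : ℚ) / ((x : ℚ).den : ℚ)) := by push_cast; ring
    · exact absurd h (h10_den_ne_zero ℓ x)
  · rintro ⟨y, rfl⟩
    rw [map_mul, map_natCast, ZMod.natCast_self, zero_mul]

/-- an element of `ℤ_(ℓ)` with nonzero reduction is a unit. -/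
theorem h10_isUnit_of_zlRed_ne_zero (u : GaloisRep.ratLocalizedAt ℓ) (hu : h10zlRed ℓ u ≠ 0) :
    IsUnit u := by
  have hp : ℓ.Prime := Fact.out
  have hnum : ¬ (ℓ : ℤ) ∣ (u : ℚ).num := by
    intro hdv
    apply hu
    rw [h10zlRed_apply, Rat.cast_def, (ZMod.intCast_zmod_eq_zero_iff_dvd _ _).mpr hdv, zero_div]
  have hu0 : (u : ℚ) ≠ 0 := by
    intro h0
    apply hnum
    rw [h0]
    simp
  have hcop : ((u : ℚ).num.natAbs).Coprime ℓ := by
    rw [Nat.coprime_comm, Nat.Prime.coprime_iff_not_dvd hp]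
    intro hdv
    exact hnum (Int.natCast_dvd.mpr hdv)
  have hinv : (u : ℚ)⁻¹ ∈ GaloisRep.ratLocalizedAt ℓ := by
    rw [h10_mem_zl, Rat.inv_def, Rat.divInt_eq_div]
    have hdvd : (((u : ℚ).den : ℤ) / ((u : ℚ).num : ℚ) : ℚ).den ∣ (u : ℚ).num.natAbs := by
      have := Rat.den_dvd ((u : ℚ).den : ℤ) (u : ℚ).num
      rw [Rat.divInt_eq_div] at this
      exact Int.natCast_dvd.mp this
    exact Nat.Coprime.coprime_dvd_left hdvd hcop
  refine IsUnit.of_mul_eq_one ⟨(u : ℚ)⁻¹, hinv⟩ (Subtype.ext ?_)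
  show (u : ℚ) * (u : ℚ)⁻¹ = 1
  exact mul_inv_cancel₀ hu0

theorem h10_rat_exists_zpow_mul (x : ℚ) (hx : x ≠ 0) :
    ∃ (n : ℤ) (u : GaloisRep.ratLocalizedAt ℓ), h10zlRed ℓ u ≠ 0 ∧ x = (ℓ : ℚ) ^ n * (u : ℚ) := by
  have hp : ℓ.Prime := Fact.out
  have hℓ0 : (ℓ : ℚ) ≠ 0 := by exact_mod_cast hp.ne_zero
  have hnum0 : x.num.natAbs ≠ 0 := by
    rw [Ne, Int.natAbs_eq_zero, Rat.num_eq_zero]
    exact hx
  obtain ⟨a, n₁, hn₁, hna⟩ := Nat.exists_eq_pow_mul_and_not_dvd hnum0 ℓ hp.ne_one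
  obtain ⟨b, d₁, hd₁, hdb⟩ := Nat.exists_eq_pow_mul_and_not_dvd x.den_nz ℓ hp.ne_one
  have hd₁cop : d₁.Coprime ℓ := by
    rw [Nat.coprime_comm, Nat.Prime.coprime_iff_not_dvd hp]
    exact hd₁
  have hd₁0 : (d₁ : ℚ) ≠ 0 := by
    have : d₁ ≠ 0 := by
      rintro rfl
      exact hd₁ (dvd_zero _)
    exact_mod_cast this
  -- the unit part
  set s : ℤ := x.num.sign with hs
  have hnum : x.num = s * ((ℓ : ℤ) ^ a * (n₁ : ℤ)) := by
    have h1 : x.num = x.num.sign * (x.num.natAbs : ℤ) := (Int.sign_mul_natAbs x.num).symm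
    rw [h1, hna]
    push_cast
    rw [← hs]
  set u : GaloisRep.ratLocalizedAt ℓ := ⟨((s * n₁ : ℤ) : ℚ) / (d₁ : ℚ), h10_div_mem ℓ _ hd₁cop⟩
    with hu
  have hud : u * ((d₁ : ℕ) : GaloisRep.ratLocalizedAt ℓ) =
      ((s * n₁ : ℤ) : GaloisRep.ratLocalizedAt ℓ) := by
    apply Subtype.ext
    rw [Subring.coe_mul, Subring.coe_natCast, Subring.coe_intCast]
    show ((s * n₁ : ℤ) : ℚ) / (d₁ : ℚ) * (d₁ : ℚ) = _
    field_simp
  refine ⟨(a : ℤ) - (b : ℤ), u, ?_, ?_⟩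
  · intro h0
    have h1 := congrArg (h10zlRed ℓ) hud
    rw [map_mul, h0, zero_mul, map_intCast] at h1
    have h2 : (ℓ : ℤ) ∣ s * n₁ := (ZMod.intCast_zmod_eq_zero_iff_dvd _ _).mp h1.symm
    have hs1 : s = 1 ∨ s = -1 := by
      rcases lt_trichotomy x.num 0 with h | h | h
      · right; rw [hs]; exact Int.sign_eq_neg_one_of_neg h
      · exfalso; apply hnum0; rw [h]; rfl
      · left; rw [hs]; exact Int.sign_eq_one_of_pos h
    have h3 : (ℓ : ℤ) ∣ (n₁ : ℤ) := by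
      rcases hs1 with h | h
      · rwa [h, one_mul] at h2
      · rw [h, neg_one_mul, dvd_neg] at h2; exact h2
    exact hn₁ (Int.natCast_dvd_natCast.mp h3)
  · show x = (ℓ : ℚ) ^ ((a : ℤ) - (b : ℤ)) * (((s * n₁ : ℤ) : ℚ) / (d₁ : ℚ))
    have hxq : x = (x.num : ℚ) / (x.den : ℚ) := (Rat.num_div_den x).symm
    rw [zpow_sub₀ hℓ0, zpow_natCast, zpow_natCast]
    conv_lhs => rw [hxq, hnum, hdb]
    push_cast
    field_simp

/-- `ℓ` is irreducible in `ℤ_(ℓ)`. -/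
theorem h10_irreducible_ell : Irreducible ((ℓ : ℕ) : GaloisRep.ratLocalizedAt ℓ) := by
  have hp : ℓ.Prime := Fact.out
  have hℓ0 : ((ℓ : ℕ) : GaloisRep.ratLocalizedAt ℓ) ≠ 0 := by
    exact_mod_cast hp.ne_zero
  refine ⟨?_, ?_⟩
  · intro hu
    have := hu.map (h10zlRed ℓ)
    rw [map_natCast, ZMod.natCast_self] at this
    exact not_isUnit_zero this
  · intro a b hab
    have h0 : h10zlRed ℓ a * h10zlRed ℓ b = 0 := by
      rw [← map_mul, ← hab, map_natCast, ZMod.natCast_self]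
    rcases mul_eq_zero.mp h0 with h | h
    · right
      obtain ⟨a', rfl⟩ := (h10zlRed_eq_zero_iff ℓ a).mp h
      have h1 : ((ℓ : ℕ) : GaloisRep.ratLocalizedAt ℓ) * 1 =
          ((ℓ : ℕ) : GaloisRep.ratLocalizedAt ℓ) * (a' * b) := by
        rw [mul_one]; exact hab.trans (by ring)
      have h2 := mul_left_cancel₀ hℓ0 h1
      exact IsUnit.of_mul_eq_one a' (by rw [mul_comm]; exact h2.symm)
    · left
      obtain ⟨b', rfl⟩ := (h10zlRed_eq_zero_iff ℓ b).mp h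
      have h1 : ((ℓ : ℕ) : GaloisRep.ratLocalizedAt ℓ) * 1 =
          ((ℓ : ℕ) : GaloisRep.ratLocalizedAt ℓ) * (a * b') := by
        rw [mul_one]; exact hab.trans (by ring)
      have h2 := mul_left_cancel₀ hℓ0 h1
      exact IsUnit.of_mul_eq_one b' h2.symm

/-- every nonzero element of `ℤ_(ℓ)` is `ℓ^n` times a unit. -/
theorem h10_exists_pow_mul_unit (x : GaloisRep.ratLocalizedAt ℓ) (hx : x ≠ 0) :
    ∃ (n : ℕ) (u : GaloisRep.ratLocalizedAt ℓ), IsUnit u ∧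
      x = ((ℓ : ℕ) : GaloisRep.ratLocalizedAt ℓ) ^ n * u := by
  have hp : ℓ.Prime := Fact.out
  have hℓ0 : (ℓ : ℚ) ≠ 0 := by exact_mod_cast hp.ne_zero
  have hxq : (x : ℚ) ≠ 0 := fun h => hx (Subtype.ext h)
  obtain ⟨n, u, hu, hxu⟩ := h10_rat_exists_zpow_mul ℓ (x : ℚ) hxq
  have hn : 0 ≤ n := by
    by_contra hneg
    push Not at hneg
    obtain ⟨m, hm⟩ : ∃ m : ℕ, n = -((m : ℤ) + 1) := ⟨(-n - 1).toNat, by omega⟩
    have h1 : (x : ℚ) * (ℓ : ℚ) ^ (m + 1) = (u : ℚ) := by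
      rw [hxu, hm, zpow_neg, ← zpow_natCast]
      push_cast
      field_simp
    have h2 : x * ((ℓ : ℕ) : GaloisRep.ratLocalizedAt ℓ) ^ (m + 1) = u := by
      apply Subtype.ext
      rw [Subring.coe_mul, Subring.coe_pow, Subring.coe_natCast]
      exact h1
    apply hu
    rw [← h2, map_mul, map_pow, map_natCast, ZMod.natCast_self, zero_pow (by omega), mul_zero]
  obtain ⟨m, rfl⟩ := Int.eq_ofNat_of_zero_le hn
  refine ⟨m, u, h10_isUnit_of_zlRed_ne_zero ℓ u hu, ?_⟩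
  apply Subtype.ext
  rw [Subring.coe_mul, Subring.coe_pow, Subring.coe_natCast, hxu, zpow_natCast]

instance h10_zl_isDiscreteValuationRing :
    IsDiscreteValuationRing (GaloisRep.ratLocalizedAt ℓ) := by
  apply IsDiscreteValuationRing.ofHasUnitMulPowIrreducibleFactorization
  refine ⟨((ℓ : ℕ) : GaloisRep.ratLocalizedAt ℓ), h10_irreducible_ell ℓ, ?_⟩
  intro x hx
  obtain ⟨n, u, hu, rfl⟩ := h10_exists_pow_mul_unit ℓ x hx
  exact ⟨n, ⟨hu.unit, rfl⟩⟩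

theorem h10_zl_isPrincipalIdealRing : IsPrincipalIdealRing (GaloisRep.ratLocalizedAt ℓ) :=
  inferInstance

end Zl

end H28S28
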