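import Fermat.Agent.S28.ZlRed

/-!
# S28, V1: re-export of `Fermat.Agent.S28.ZlRed` (helper28's basics on `ℤ_(ℓ)`).

The declarations `H28S28.zlRed`, `H28S28.zlRed_eq_zero_iff`, ... live in `ZlRed.lean`;
helper10's independent twin with the DVR instance lives in `ZlDvr.lean` (prefix `h10`).
-/
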